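import Mathlib

/-!
# Program MW (S17), heights half (A), core leaf (★): abstract algebra for the auxiliary polynomial `G`

Pure Mathlib.  Owner: helper24.  Namespace `Fermat.Agent.MW17`, prefix `mw17sa_`.

* `mw17sa_eq_zero_of_points`  : a polynomial over a `K`-algebra `B` whose `K`-points separate
  elements vanishes as soon as all its specialisations at `K`-points of `B` vanish on `K^ν`;
* `mw17sa_monic_div`          : division by a polynomial `X i0 + c` (`c` free of `X i0`), with
  remainder the substitution `X i0 ↦ -c`;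
* `mw17sa_eval_map_aeval`     : compatibility of `eval`, `map`, `aeval`;
* `mw17sa_component_mul`, `mw17sa_isWeightedHomogeneous_of_mul` : the quotient of a weighted
  homogeneous polynomial by a weighted homogeneous polynomial is weighted homogeneous (domain);
* `mw17sa_exists_eval_ne_zero` : a non-zero polynomial over an infinite domain has a non-zero value;
* `mw17saBiw ι₁ ι₂` : the bidegree weight `ι₁ ⊕ ι₂ → ℕ × ℕ` (definitionally helper26's `htnsBiw`),
  `mw17sa_biw_monomial_inl`, `mw17sa_biw_rename_inr`, `mw17sa_isWeightedHomogeneous_rename`.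
-/

set_option autoImplicit false

noncomputable section

namespace Fermat.Agent.MW17

open MvPolynomial

section Points

variable {K B ν : Type*} [Field K] [Infinite K] [CommRing B] [Algebra K B]

/-- polynomial identities over `B` may be checked on `K`-points of `B` and of the affine space -/
theorem mw17sa_eq_zero_of_points
    (hsep : ∀ b : B, (∀ q : B →ₐ[K] K, q b = 0) → b = 0) (p : MvPolynomial ν B)
    (h : ∀ (q : B →ₐ[K] K) (x : ν → K), eval x (map (q : B →+* K) p) = 0) : p = 0 := by
  have h1 : ∀ q : B →ₐ[K] K, map (q : B →+* K) p = 0 := by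
    intro q
    apply MvPolynomial.funext
    intro x
    rw [h q x, map_zero]
  ext d
  rw [coeff_zero]
  apply hsep
  intro q
  have := congrArg (coeff d) (h1 q)
  rwa [coeff_map, coeff_zero] at this

theorem mw17sa_eq_of_points
    (hsep : ∀ b : B, (∀ q : B →ₐ[K] K, q b = 0) → b = 0) (p p' : MvPolynomial ν B)
    (h : ∀ (q : B →ₐ[K] K) (x : ν → K),
      eval x (map (q : B →+* K) p) = eval x (map (q : B →+* K) p')) : p = p' := by
  rw [← sub_eq_zero]
  refine mw17sa_eq_zero_of_points hsep _ fun q x => ?_
  rw [map_sub, map_sub, h q x, sub_self]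

end Points

section Eval

variable {R S ν μ : Type*} [CommRing R] [CommRing S]

/-- `eval ∘ map ∘ aeval` -/
theorem mw17sa_eval_map_aeval (f : R →+* S) (g : μ → MvPolynomial ν R) (x : ν → S)
    (Φ : MvPolynomial μ R) :
    eval x (map f (aeval g Φ)) = eval (fun i => eval x (map f (g i))) (map f Φ) := by
  induction Φ using MvPolynomial.induction_on with
  | C a => simp
  | add p q hp hq => simp only [map_add, hp, hq]
  | mul_X p i hp => simp only [map_mul, hp, aeval_X, map_X, eval_X]

/-- `eval ∘ map ∘ aeval`, for a polynomial with coefficients in the base field -/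
theorem mw17sa_eval_map_aeval' {K B ν μ : Type*} [CommRing K] [CommRing B] [Algebra K B]
    (q : B →ₐ[K] K) (g : μ → MvPolynomial ν B) (x : ν → K) (F : MvPolynomial μ K) :
    eval x (map (q : B →+* K) (aeval g F)) =
      eval (fun i => eval x (map (q : B →+* K) (g i))) F := by
  induction F using MvPolynomial.induction_on with
  | C a =>
    rw [aeval_C, MvPolynomial.algebraMap_apply, map_C, eval_C, eval_C]
    simp
  | add p q hp hq => simp only [map_add, hp, hq]
  | mul_X p i hp => simp only [map_mul, hp, aeval_X, eval_X]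

end Eval

section Div

variable {R ν : Type*} [CommRing R] [DecidableEq ν]

/-- the substitution `X i0 ↦ -c` -/
def mw17saSubst (i0 : ν) (c : MvPolynomial ν R) : MvPolynomial ν R →ₐ[R] MvPolynomial ν R :=
  aeval (fun i => if i = i0 then -c else X i)

/-- **division by `X i0 + c`**: the remainder is the substitution `X i0 ↦ -c`. -/
theorem mw17sa_monic_div (i0 : ν) (c : MvPolynomial ν R) (Φ : MvPolynomial ν R) :
    ∃ G : MvPolynomial ν R, Φ = (X i0 + c) * G + mw17saSubst i0 c Φ := by
  induction Φ using MvPolynomial.induction_on with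
  | C a => exact ⟨0, by simp [mw17saSubst]⟩
  | add p q hp hq =>
    obtain ⟨G1, h1⟩ := hp
    obtain ⟨G2, h2⟩ := hq
    refine ⟨G1 + G2, ?_⟩
    rw [map_add]
    nth_rewrite 1 [h1]
    nth_rewrite 1 [h2]
    ring
  | mul_X p i hp =>
    obtain ⟨G1, h1⟩ := hp
    by_cases hi : i = i0
    · subst hi
      refine ⟨G1 * X i + mw17saSubst i c p, ?_⟩
      have hX : mw17saSubst i c (X i) = -c := by simp [mw17saSubst]
      rw [map_mul, hX]
      nth_rewrite 1 [h1]
      ring
    · refine ⟨G1 * X i, ?_⟩
      have hX : mw17saSubst i0 c (X i) = X i := by simp [mw17saSubst, hi]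
      rw [map_mul, hX]
      nth_rewrite 1 [h1]
      ring

end Div

section Homog

variable {R σ : Type*} [CommRing R] (w : σ → ℕ)

theorem mw17sa_component_mul {U : MvPolynomial σ R} {a : ℕ} (hU : IsWeightedHomogeneous w U a)
    (G : MvPolynomial σ R) (k : ℕ) :
    weightedHomogeneousComponent w (a + k) (U * G) = U * weightedHomogeneousComponent w k G := by
  classical
  ext d
  rw [coeff_weightedHomogeneousComponent, coeff_mul, coeff_mul]
  split_ifs with hd
  · refine Finset.sum_congr rfl fun xy hxy => ?_
    rw [coeff_weightedHomogeneousComponent]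
    by_cases hx : coeff xy.1 U = 0
    · rw [hx, zero_mul, zero_mul]
    · have h1 := hU hx
      have h2 : xy.1 + xy.2 = d := Finset.HasAntidiagonal.mem_antidiagonal.mp hxy
      have h3 : Finsupp.weight w xy.2 = k := by
        have := congrArg (Finsupp.weight w) h2
        rw [map_add, h1, hd] at this
        omega
      rw [if_pos h3]
  · symm
    refine Finset.sum_eq_zero fun xy hxy => ?_
    rw [coeff_weightedHomogeneousComponent]
    by_cases hx : coeff xy.1 U = 0
    · rw [hx, zero_mul]
    · have h1 := hU hx
      have h2 : xy.1 + xy.2 = d := Finset.HasAntidiagonal.mem_antidiagonal.mp hxy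
      have h3 : Finsupp.weight w xy.2 ≠ k := by
        intro h3
        apply hd
        rw [← h2, map_add, h1, h3]
      rw [if_neg h3, mul_zero]

/-- in a domain, the quotient of a weighted homogeneous polynomial by a non-zero weighted
homogeneous polynomial is weighted homogeneous -/
theorem mw17sa_isWeightedHomogeneous_of_mul [IsDomain R] {U G : MvPolynomial σ R} {a b : ℕ}
    (hU : IsWeightedHomogeneous w U a) (hU0 : U ≠ 0)
    (hH : IsWeightedHomogeneous w (U * G) (a + b)) : IsWeightedHomogeneous w G b := by
  classical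
  have hk : ∀ k, k ≠ b → weightedHomogeneousComponent w k G = 0 := by
    intro k hkb
    have h1 := mw17sa_component_mul w hU G k
    rw [hH.weightedHomogeneousComponent_ne (a + k) (by omega)] at h1
    exact (mul_eq_zero.mp h1.symm).resolve_left hU0
  have hsum := finsum_weightedHomogeneousComponent (w := w) (φ := G)
  rw [finsum_eq_single _ b (fun k hkb => hk k hkb)] at hsum
  rw [← hsum]
  exact weightedHomogeneousComponent_isWeightedHomogeneous b G

end Homog

section HomogAeval

variable {R S σ τ : Type*} [CommSemiring R] [CommSemiring S] [Algebra R S]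

/-- substitution of weighted homogeneous polynomials of the right degrees into a weighted
homogeneous polynomial -/
theorem mw17sa_isWeightedHomogeneous_aeval (w : σ → ℕ) (w' : τ → ℕ) {F : MvPolynomial σ R} {k : ℕ}
    (hF : IsWeightedHomogeneous w F k) (g : σ → MvPolynomial τ S)
    (hg : ∀ i, IsWeightedHomogeneous w' (g i) (w i)) :
    IsWeightedHomogeneous w' (aeval g F) k := by
  classical
  rw [aeval_def, eval₂_eq]
  refine IsWeightedHomogeneous.sum _ _ _ fun d hd => ?_
  have hd' : coeff d F ≠ 0 := mem_support_iff.mp hd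
  have hk : Finsupp.weight w d = k := hF hd'
  have h1 : IsWeightedHomogeneous w' (∏ i ∈ d.support, g i ^ d i) (∑ i ∈ d.support, d i * w i) :=
    IsWeightedHomogeneous.prod _ _ _ fun i _ => (hg i).pow (d i)
  have h2 : ∑ i ∈ d.support, d i * w i = k := by
    rw [← hk, Finsupp.weight_apply, Finsupp.sum]
    simp
  rw [h2] at h1
  have h3 := (isWeightedHomogeneous_C w' (algebraMap R S (coeff d F))).mul h1
  rw [zero_add] at h3
  rw [MvPolynomial.algebraMap_apply]
  exact h3

end HomogAeval

section Nonvanishing

variable {R ν : Type*} [CommRing R] [IsDomain R] [Infinite R]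

theorem mw17sa_exists_eval_ne_zero {p : MvPolynomial ν R} (hp : p ≠ 0) :
    ∃ x : ν → R, eval x p ≠ 0 := by
  by_contra h
  push Not at h
  apply hp
  apply MvPolynomial.funext
  intro x
  rw [h x, map_zero]

end Nonvanishing


section BiWeight

variable {R σ τ M : Type*} [CommSemiring R] [AddCommMonoid M]

theorem mw17sa_isWeightedHomogeneous_rename (f : σ → τ) (w : τ → M) {p : MvPolynomial σ R} {n : M}
    (hp : p.IsWeightedHomogeneous (w ∘ f) n) : (rename f p).IsWeightedHomogeneous w n := by
  classical
  intro d hd
  obtain ⟨u, rfl, hu⟩ := coeff_rename_ne_zero f p d hd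
  rw [← hp hu, Finsupp.weight_apply, Finsupp.weight_apply, Finsupp.sum_mapDomain_index]
  · rfl
  · intro i; simp
  · intro i a b; simp [add_smul]

/-- the bidegree weight on two groups of variables (definitionally helper26's `htnsBiw`) -/
def mw17saBiw (ι₁ ι₂ : Type*) : ι₁ ⊕ ι₂ → ℕ × ℕ := Sum.elim (fun _ => (1, 0)) (fun _ => (0, 1))

theorem mw17sa_biw_monomial_inl {ι₁ ι₂ : Type*} (a : ι₁ →₀ ℕ) (r : R) :
    IsWeightedHomogeneous (mw17saBiw ι₁ ι₂) (monomial (a.mapDomain Sum.inl) r)
      ((a.sum fun _ k => k), 0) := by
  apply isWeightedHomogeneous_monomial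
  rw [Finsupp.weight_apply, Finsupp.sum_mapDomain_index]
  · simp only [mw17saBiw, Sum.elim_inl, Finsupp.sum]
    apply Prod.ext
    · rw [Prod.fst_sum]
      simp
    · rw [Prod.snd_sum]
      simp
  · intro i; simp
  · intro i a b; simp [add_smul]

theorem mw17sa_biw_rename_inr {ι₁ ι₂ : Type*} {p : MvPolynomial ι₂ R} {d : ℕ}
    (hp : p.IsHomogeneous d) :
    IsWeightedHomogeneous (mw17saBiw ι₁ ι₂) (rename Sum.inr p) (0, d) := by
  apply mw17sa_isWeightedHomogeneous_rename
  intro γ hγ
  have h := hp hγ
  rw [Finsupp.weight_apply] at h ⊢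
  simp only [mw17saBiw, Function.comp_apply, Sum.elim_inr, Finsupp.sum] at h ⊢
  apply Prod.ext
  · rw [Prod.fst_sum]
    simp
  · rw [Prod.snd_sum]
    simpa using h

end BiWeight


end Fermat.Agent.MW17
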