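import Mathlib

/-!
# Program MW (S17), heights half, §5: the real-number chain behind (★-off) and (★-tan)

Owner: helper5.  Namespace `Fermat.Agent.MW17`, prefix `mw17ch`.  Mathlib only.

Notation (all real numbers, at one fixed absolute value `w`):
`J` = `w (u(R))` resp. `w (jet_R (sec u))`; `Gn` = Gauss norm of `G(u;·)(R)`; `A = w(lc)^n`;
`X` = the product of the sup norms of the linear factors (`E^k * Wt * ∏ W_P`);
`U = ‖u‖`, `N1 = ‖ψ_{mn-m} R‖`, `N2 = ‖ψ_m R‖`, `F = ‖φ R‖`, `Pi = ∏ ‖φ P‖`.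

Inputs: (Gelfond) `J * Gn ≍ A * X`; (GN) `Gn ≍ U^(n-1) * N1`; (M) `U^n ≍ A * Pi'` where
`Pi' = F * Pi` (tan) or `Pi` (off); (PN) `N1 * N2 ≍ F^m`.
Output: `J * (F^m * Pi') ≍ U * N2 * X`.
-/

set_option autoImplicit false

namespace Fermat.Agent.MW17

/-- upper bound for `J` -/
theorem mw17ch_le {J Gn A X U N1 N2 Fm Pi' c1 c2 c3 c4 : ℝ} {n : ℕ} (hn : 1 ≤ n)
    (hJ : 0 ≤ J) (hX : 0 ≤ X) (hU : 0 < U) (hN2 : 0 ≤ N2) (hPi : 0 ≤ Pi')
    (hc1 : 0 ≤ c1) (hc2 : 0 ≤ c2) (hc4 : 0 ≤ c4)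
    (h1 : J * Gn ≤ c1 * (A * X))
    (h2 : U ^ (n - 1) * N1 ≤ c2 * Gn)
    (h3 : A * Pi' ≤ c3 * U ^ n)
    (h4 : Fm ≤ c4 * (N1 * N2)) :
    J * (Fm * Pi') ≤ (c1 * c2 * c3 * c4) * (U * N2 * X) := by
  have hUn : 0 < U ^ (n - 1) := pow_pos hU _
  have hpow : U ^ n = U ^ (n - 1) * U := by
    rw [← pow_succ, Nat.sub_add_cancel hn]
  -- step 1: `J * U^(n-1) * N1 ≤ c1 c2 A X`
  have s1 : J * (U ^ (n - 1) * N1) ≤ c2 * c1 * (A * X) := by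
    calc J * (U ^ (n - 1) * N1) ≤ J * (c2 * Gn) := mul_le_mul_of_nonneg_left h2 hJ
      _ = c2 * (J * Gn) := by ring
      _ ≤ c2 * (c1 * (A * X)) := mul_le_mul_of_nonneg_left h1 hc2
      _ = c2 * c1 * (A * X) := by ring
  -- step 2: multiply by `Pi'`
  have s2 : J * (U ^ (n - 1) * N1) * Pi' ≤ c2 * c1 * c3 * (U ^ n * X) := by
    calc J * (U ^ (n - 1) * N1) * Pi' ≤ c2 * c1 * (A * X) * Pi' :=
          mul_le_mul_of_nonneg_right s1 hPi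
      _ = c2 * c1 * X * (A * Pi') := by ring
      _ ≤ c2 * c1 * X * (c3 * U ^ n) :=
          mul_le_mul_of_nonneg_left h3 (mul_nonneg (mul_nonneg hc2 hc1) hX)
      _ = c2 * c1 * c3 * (U ^ n * X) := by ring
  -- step 3: cancel `U^(n-1)`
  have s3 : J * N1 * Pi' ≤ c2 * c1 * c3 * (U * X) := by
    have : U ^ (n - 1) * (J * N1 * Pi') ≤ U ^ (n - 1) * (c2 * c1 * c3 * (U * X)) := by
      calc U ^ (n - 1) * (J * N1 * Pi') = J * (U ^ (n - 1) * N1) * Pi' := by ring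
        _ ≤ c2 * c1 * c3 * (U ^ n * X) := s2
        _ = U ^ (n - 1) * (c2 * c1 * c3 * (U * X)) := by rw [hpow]; ring
    exact le_of_mul_le_mul_left this hUn
  -- step 4: multiply by `N2` and use (PN)
  calc J * (Fm * Pi') ≤ J * (c4 * (N1 * N2) * Pi') := by
        apply mul_le_mul_of_nonneg_left _ hJ
        exact mul_le_mul_of_nonneg_right h4 hPi
    _ = c4 * N2 * (J * N1 * Pi') := by ring
    _ ≤ c4 * N2 * (c2 * c1 * c3 * (U * X)) :=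
        mul_le_mul_of_nonneg_left s3 (mul_nonneg hc4 hN2)
    _ = (c1 * c2 * c3 * c4) * (U * N2 * X) := by ring

/-- lower bound for `J` -/
theorem mw17ch_ge {J Gn A X U N1 N2 Fm Pi' c1 c2 c3 c4 : ℝ} {n : ℕ} (hn : 1 ≤ n)
    (hJ : 0 ≤ J) (hX : 0 ≤ X) (hU : 0 < U) (hN2 : 0 ≤ N2) (hPi : 0 ≤ Pi')
    (hc1 : 0 ≤ c1) (hc2 : 0 ≤ c2) (hc3 : 0 ≤ c3)
    (h1 : A * X ≤ c1 * (J * Gn))
    (h2 : Gn ≤ c2 * (U ^ (n - 1) * N1))
    (h3 : U ^ n ≤ c3 * (A * Pi'))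
    (h4 : N1 * N2 ≤ c4 * Fm) :
    U * N2 * X ≤ (c1 * c2 * c3 * c4) * (J * (Fm * Pi')) := by
  have hUn : 0 < U ^ (n - 1) := pow_pos hU _
  have hpow : U ^ n = U ^ (n - 1) * U := by
    rw [← pow_succ, Nat.sub_add_cancel hn]
  have s1 : U ^ n * X ≤ c3 * c1 * (J * Gn) * Pi' := by
    calc U ^ n * X ≤ c3 * (A * Pi') * X := mul_le_mul_of_nonneg_right h3 hX
      _ = c3 * Pi' * (A * X) := by ring
      _ ≤ c3 * Pi' * (c1 * (J * Gn)) :=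
          mul_le_mul_of_nonneg_left h1 (mul_nonneg hc3 hPi)
      _ = c3 * c1 * (J * Gn) * Pi' := by ring
  have s2 : U ^ n * X ≤ c3 * c1 * c2 * (J * (U ^ (n - 1) * N1) * Pi') := by
    calc U ^ n * X ≤ c3 * c1 * (J * Gn) * Pi' := s1
      _ = c3 * c1 * J * Pi' * Gn := by ring
      _ ≤ c3 * c1 * J * Pi' * (c2 * (U ^ (n - 1) * N1)) :=
          mul_le_mul_of_nonneg_left h2
            (mul_nonneg (mul_nonneg (mul_nonneg hc3 hc1) hJ) hPi)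
      _ = c3 * c1 * c2 * (J * (U ^ (n - 1) * N1) * Pi') := by ring
  have s3 : U * X ≤ c3 * c1 * c2 * (J * N1 * Pi') := by
    have : U ^ (n - 1) * (U * X) ≤ U ^ (n - 1) * (c3 * c1 * c2 * (J * N1 * Pi')) := by
      calc U ^ (n - 1) * (U * X) = U ^ n * X := by rw [hpow]; ring
        _ ≤ c3 * c1 * c2 * (J * (U ^ (n - 1) * N1) * Pi') := s2
        _ = U ^ (n - 1) * (c3 * c1 * c2 * (J * N1 * Pi')) := by ring
    exact le_of_mul_le_mul_left this hUn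
  calc U * N2 * X = N2 * (U * X) := by ring
    _ ≤ N2 * (c3 * c1 * c2 * (J * N1 * Pi')) := mul_le_mul_of_nonneg_left s3 hN2
    _ = c3 * c1 * c2 * J * Pi' * (N1 * N2) := by ring
    _ ≤ c3 * c1 * c2 * J * Pi' * (c4 * Fm) :=
        mul_le_mul_of_nonneg_left h4
          (mul_nonneg (mul_nonneg (mul_nonneg (mul_nonneg hc3 hc1) hc2) hJ) hPi)
    _ = (c1 * c2 * c3 * c4) * (J * (Fm * Pi')) := by ring

end Fermat.Agent.MW17
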