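import Mathlib

/-!
# Coefficient extraction for polynomials in two groups of variables (S17 heights, (★) bookkeeping)

For `F : MvPolynomial (ι₁ ⊕ ι₂) K`, the partial evaluation `F(x, ·) : MvPolynomial ι₂ K` is
`Σ_μ monomial μ (eval x (c μ))` with explicit coefficient polynomials `c μ : MvPolynomial ι₁ K`
indexed by the finite set of `ι₂`-parts of the exponents of `F`.  Prefix `mw17ex`.
-/

namespace Fermat.Agent.MW17

open MvPolynomial

variable {K : Type*} [CommSemiring K] {ι₁ ι₂ : Type*}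

/-- the `ι₁`-part of an exponent -/
noncomputable def mw17exL (m : ι₁ ⊕ ι₂ →₀ ℕ) : ι₁ →₀ ℕ :=
  m.comapDomain Sum.inl Sum.inl_injective.injOn

/-- the `ι₂`-part of an exponent -/
noncomputable def mw17exR (m : ι₁ ⊕ ι₂ →₀ ℕ) : ι₂ →₀ ℕ :=
  m.comapDomain Sum.inr Sum.inr_injective.injOn

@[simp] theorem mw17exL_apply (m : ι₁ ⊕ ι₂ →₀ ℕ) (i : ι₁) : mw17exL m i = m (Sum.inl i) := rfl

@[simp] theorem mw17exR_apply (m : ι₁ ⊕ ι₂ →₀ ℕ) (j : ι₂) : mw17exR m j = m (Sum.inr j) := rfl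

/-- partial evaluation in the first group of variables -/
noncomputable def mw17exEval (x : ι₁ → K) : MvPolynomial (ι₁ ⊕ ι₂) K →ₐ[K] MvPolynomial ι₂ K :=
  aeval (Sum.elim (fun i => (C (x i) : MvPolynomial ι₂ K)) X)

set_option linter.unusedSectionVars false

variable [Fintype ι₁] [Fintype ι₂]

theorem mw17ex_eval_monomial (x : ι₁ → K) (m : ι₁ ⊕ ι₂ →₀ ℕ) (a : K) :
    mw17exEval x (monomial m a) = monomial (mw17exR m) (a * ∏ i, x i ^ m (Sum.inl i)) := by
  unfold mw17exEval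
  rw [aeval_monomial, Finsupp.prod_fintype _ _ (fun _ => pow_zero _), Fintype.prod_sum_type]
  simp only [Sum.elim_inl, Sum.elim_inr, algebraMap_eq]
  have h1 : ∏ i, (C (x i) : MvPolynomial ι₂ K) ^ m (Sum.inl i) = C (∏ i, x i ^ m (Sum.inl i)) := by
    rw [map_prod]
    exact Finset.prod_congr rfl fun i _ => (map_pow _ _ _).symm
  have h2 : ∏ j, (X j : MvPolynomial ι₂ K) ^ m (Sum.inr j) = monomial (mw17exR m) 1 := by
    rw [monomial_eq, C_1, one_mul, Finsupp.prod_fintype _ _ (fun _ => pow_zero _)]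
    rfl
  rw [h1, h2, ← mul_assoc, ← C_mul, C_mul_monomial, mul_one]

attribute [local instance] Classical.propDecidable

/-- the finite set of `ι₂`-parts of the exponents of `F` -/
noncomputable def mw17exIdx (F : MvPolynomial (ι₁ ⊕ ι₂) K) : Finset (ι₂ →₀ ℕ) :=
  F.support.image mw17exR

/-- the coefficient of `t^μ` in `F(u, t)`, as a polynomial in `u` -/
noncomputable def mw17exCoeff (F : MvPolynomial (ι₁ ⊕ ι₂) K) (μ : ι₂ →₀ ℕ) : MvPolynomial ι₁ K :=
  ∑ m ∈ F.support with mw17exR m = μ, monomial (mw17exL m) (coeff m F)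

theorem mw17ex_eval_coeff (F : MvPolynomial (ι₁ ⊕ ι₂) K) (μ : ι₂ →₀ ℕ) (x : ι₁ → K) :
    eval x (mw17exCoeff F μ) =
      ∑ m ∈ F.support with mw17exR m = μ, coeff m F * ∏ i, x i ^ m (Sum.inl i) := by
  unfold mw17exCoeff
  rw [map_sum]
  refine Finset.sum_congr rfl fun m _ => ?_
  rw [eval_monomial, Finsupp.prod_fintype _ _ (fun _ => pow_zero _)]
  rfl

/-- **Coefficient extraction**: `F(x, ·) = Σ_μ monomial μ (c_μ(x))`. -/
theorem mw17ex_eval_eq (F : MvPolynomial (ι₁ ⊕ ι₂) K) (x : ι₁ → K) :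
    mw17exEval x F = ∑ μ : mw17exIdx F, monomial μ.1 (eval x (mw17exCoeff F μ.1)) := by
  conv_lhs => rw [F.as_sum, map_sum]
  simp only [mw17ex_eval_monomial]
  rw [Finset.sum_coe_sort (mw17exIdx F) fun μ => monomial μ (eval x (mw17exCoeff F μ))]
  rw [← Finset.sum_fiberwise_of_maps_to (s := F.support) (t := mw17exIdx F) (g := mw17exR)
    (fun m hm => Finset.mem_image_of_mem _ hm)]
  refine Finset.sum_congr rfl fun μ _ => ?_
  rw [mw17ex_eval_coeff, map_sum]
  refine Finset.sum_congr rfl fun m hm => ?_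
  rw [(Finset.mem_filter.mp hm).2]

theorem mw17ex_support_coeff (F : MvPolynomial (ι₁ ⊕ ι₂) K) (μ : ι₂ →₀ ℕ) {d : ι₁ →₀ ℕ}
    (hd : d ∈ (mw17exCoeff F μ).support) :
    ∃ m ∈ F.support, mw17exR m = μ ∧ mw17exL m = d := by
  unfold mw17exCoeff at hd
  obtain ⟨m, hm, hdm⟩ := Finset.mem_biUnion.mp (support_sum hd)
  have := support_monomial_subset hdm
  rw [Finset.mem_singleton] at this
  obtain ⟨hm1, hm2⟩ := Finset.mem_filter.mp hm
  exact ⟨m, hm1, hm2, this.symm⟩

/-- If `F` has degree `n` in the first group of variables, so have the extracted coefficients. -/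
theorem mw17ex_coeff_isHomogeneous (F : MvPolynomial (ι₁ ⊕ ι₂) K) {n : ℕ}
    (hF : ∀ m ∈ F.support, ∑ i, m (Sum.inl i) = n) (μ : ι₂ →₀ ℕ) :
    (mw17exCoeff F μ).IsHomogeneous n := by
  intro d hd
  obtain ⟨m, hm, -, rfl⟩ := mw17ex_support_coeff F μ (mem_support_iff.mpr hd)
  rw [Finsupp.weight_apply, Finsupp.sum_fintype (mw17exL m) (fun i c => c • (1 : ι₁ → ℕ) i)
    (fun _ => zero_smul _ _)]
  simpa using hF m hm

/-- The exponents indexing the extracted coefficients have the `ι₂`-degree of `F`. -/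
theorem mw17ex_idx_degree (F : MvPolynomial (ι₁ ⊕ ι₂) K) {k : ℕ}
    (hF : ∀ m ∈ F.support, ∑ j, m (Sum.inr j) = k) (μ : mw17exIdx F) : ∑ j, μ.1 j = k := by
  obtain ⟨m, hm, hμ⟩ := Finset.mem_image.mp μ.2
  rw [← hμ]
  exact hF m hm

theorem mw17ex_eval_eq_zero_iff (F : MvPolynomial (ι₁ ⊕ ι₂) K) (x : ι₁ → K) :
    mw17exEval x F = 0 ↔ ∀ μ : mw17exIdx F, eval x (mw17exCoeff F μ.1) = 0 := by
  rw [mw17ex_eval_eq]
  constructor
  · intro h μ
    have := congrArg (coeff μ.1) h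
    rw [coeff_sum, coeff_zero, Finset.sum_eq_single μ] at this
    · simpa using this
    · intro ν _ hne
      rw [coeff_monomial, if_neg]
      exact fun h' => hne (Subtype.ext h')
    · intro h'; exact absurd (Finset.mem_univ μ) h'
  · intro h
    exact Finset.sum_eq_zero fun μ _ => by rw [h μ, monomial_zero]

/-- evaluating the partial evaluation = evaluating at the combined point -/
theorem mw17ex_eval_eval {R : Type*} [CommRing R] {ι₁ ι₂ : Type*} (x : ι₁ → R) (y : ι₂ → R)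
    (F : MvPolynomial (ι₁ ⊕ ι₂) R) :
    eval y (mw17exEval x F) = eval (Sum.elim x y) F := by
  have h : ((aeval y : MvPolynomial ι₂ R →ₐ[R] R).comp (mw17exEval x)) =
      aeval (Sum.elim x y) := by
    apply MvPolynomial.algHom_ext
    rintro (i | j) <;> simp [mw17exEval]
  have := congrArg (fun f : MvPolynomial (ι₁ ⊕ ι₂) R →ₐ[R] R => f F) h
  simpa [aeval_eq_eval] using this

end Fermat.Agent.MW17
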