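import Fermat.Agent.MW17.Setup
import Fermat.Agent.V.Pres.Count

/-!
# Program MW (S17), heights half (A): the monomial basis of `L_k` in coordinates

Owner: helper24.  Namespace `Fermat.Agent.MW17`, prefix `mw17st`.  Complements
`MW17/Setup.lean` (helper16).

* `mw17st_mon_apply`, `mw17st_ord_mon`, `mw17st_mon_le`, `mw17st_wt_injective`;
* `mw17stCoord k b`  : the coordinates of `b` in the monomial basis of `L_k`;
* `mw17st_sec_apply_coeff`, `mw17st_coord_sec`, `mw17st_sec_coord`, `mw17st_sec_le`,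
  `mw17st_sec_injective`, `mw17st_sec_eq_zero_iff`.
-/

set_option autoImplicit false

noncomputable section

namespace Fermat.Agent.MW17

open Fermat.Agent.V

variable {K : Type*} [Field K] {δ : V27pShape} {T : V27pTable K δ}


theorem mw17st_mon_eq_smul {k : ℕ} (i : Mw17Idx δ k) :
    mw17Mon T i = ((Polynomial.X : Polynomial K) ^ (i.1.2 : ℕ)) • V27pB.e (T := T) i.1.1 := by
  rw [mw17Mon, V27pB.x, ← map_pow, Algebra.smul_def]

theorem mw17st_mon_apply {k : ℕ} (i : Mw17Idx δ k) (j : ZMod δ.N) :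
    (mw17Mon T i) j = if j = i.1.1 then (Polynomial.X : Polynomial K) ^ (i.1.2 : ℕ) else 0 := by
  rw [mw17st_mon_eq_smul, V27pB.smul_e_apply]

theorem mw17st_mon_ne_zero {k : ℕ} (i : Mw17Idx δ k) : mw17Mon T i ≠ 0 := by
  intro h
  have := congrFun h i.1.1
  rw [mw17st_mon_apply, if_pos rfl] at this
  exact pow_ne_zero _ Polynomial.X_ne_zero this

theorem mw17st_ord_mon {k : ℕ} (i : Mw17Idx δ k) : v27pOrd (mw17Mon T i) = mw17Wt i := by
  rw [mw17st_mon_eq_smul, v27pOrd_smul_e _ (pow_ne_zero _ Polynomial.X_ne_zero),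
    Polynomial.natDegree_X_pow]
  rfl

theorem mw17st_mon_le {k : ℕ} (i : Mw17Idx δ k) : V27pLe (mw17Mon T i) (mw17Wt i) := by
  rw [← v27pOrd_le_iff, mw17st_ord_mon]

theorem mw17st_wt_injective {k : ℕ} : Function.Injective (mw17Wt (δ := δ) (m := k)) := by
  intro i i' h
  obtain ⟨h1, h2⟩ := δ.weight_inj (show δ.N * (i.1.2 : ℕ) + δ.d i.1.1 = δ.N * (i'.1.2 : ℕ) + δ.d i'.1.1 from h)
  apply Subtype.ext
  exact Prod.ext h1 (Fin.ext h2)

/-- coordinates of an element of `B` in the monomial basis of `L_k` -/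
def mw17stCoord (k : ℕ) (b : V27pB T) : Mw17Idx δ k → K := fun i => (b i.1.1).coeff (i.1.2 : ℕ)

theorem mw17st_sum_apply {α : Type*} (s : Finset α) (f : α → V27pB T) (j : ZMod δ.N) :
    (∑ a ∈ s, f a) j = ∑ a ∈ s, f a j := by
  classical
  induction s using Finset.induction_on with
  | empty => simp
  | insert a s ha ih => rw [Finset.sum_insert ha, Finset.sum_insert ha, V27pB.add_apply, ih]

theorem mw17st_sec_apply_coeff (k : ℕ) (u : Mw17Idx δ k → K) (j : ZMod δ.N) (r : ℕ) :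
    ((mw17Sec T k u) j).coeff r =
      if h : δ.N * r + δ.d j ≤ k ∧ r < k + 1 then u ⟨(j, ⟨r, h.2⟩), h.1⟩ else 0 := by
  classical
  unfold mw17Sec
  rw [mw17st_sum_apply, Polynomial.finsetSum_coeff]
  have hterm : ∀ i : Mw17Idx δ k, ((u i • mw17Mon T i) j).coeff r =
      if i.1.1 = j ∧ (i.1.2 : ℕ) = r then u i else 0 := by
    intro i
    rw [V27pB.smul_def', Polynomial.coeff_C_mul, mw17st_mon_apply]
    by_cases hj : j = i.1.1
    · rw [if_pos hj, Polynomial.coeff_X_pow]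
      by_cases hr : r = (i.1.2 : ℕ)
      · rw [if_pos hr, mul_one, if_pos ⟨hj.symm, hr.symm⟩]
      · rw [if_neg hr, mul_zero, if_neg]
        rintro ⟨-, h2⟩
        exact hr h2.symm
    · rw [if_neg hj, Polynomial.coeff_zero, mul_zero, if_neg]
      rintro ⟨h1, -⟩
      exact hj h1.symm
  rw [Finset.sum_congr rfl fun i _ => hterm i]
  split_ifs with h
  · rw [Finset.sum_eq_single (⟨(j, ⟨r, h.2⟩), h.1⟩ : Mw17Idx δ k)]
    · rw [if_pos ⟨rfl, rfl⟩]
    · intro i _ hi
      rw [if_neg]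
      rintro ⟨h1, h2⟩
      apply hi
      apply Subtype.ext
      exact Prod.ext h1 (Fin.ext h2)
    · intro h'
      exact absurd (Finset.mem_univ _) h'
  · refine Finset.sum_eq_zero fun i _ => ?_
    rw [if_neg]
    rintro ⟨h1, h2⟩
    apply h
    have h3 := i.2
    rw [h1, h2] at h3
    refine ⟨h3, ?_⟩
    rw [← h2]
    exact i.1.2.2

theorem mw17st_coord_sec (k : ℕ) (u : Mw17Idx δ k → K) :
    mw17stCoord k (mw17Sec T k u) = u := by
  funext i
  unfold mw17stCoord
  rw [mw17st_sec_apply_coeff, dif_pos ⟨i.2, i.1.2.2⟩]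

theorem mw17st_sec_le (k : ℕ) (u : Mw17Idx δ k → K) : V27pLe (mw17Sec T k u) k := by
  intro j r hr
  rw [mw17st_sec_apply_coeff, dif_neg]
  rintro ⟨h1, -⟩
  omega

theorem mw17st_sec_coord {k : ℕ} {b : V27pB T} (hb : V27pLe b k) :
    mw17Sec T k (mw17stCoord k b) = b := by
  funext j
  ext r
  rw [mw17st_sec_apply_coeff]
  split_ifs with h
  · rfl
  · by_cases h1 : δ.N * r + δ.d j ≤ k
    · exfalso
      apply h
      refine ⟨h1, ?_⟩
      have : r ≤ δ.N * r := Nat.le_mul_of_pos_left r δ.hN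
      omega
    · exact (hb j r (by omega)).symm

theorem mw17st_sec_injective (k : ℕ) : Function.Injective (mw17Sec T k) := by
  intro u u' h
  rw [← mw17st_coord_sec (T := T) k u, h, mw17st_coord_sec]

theorem mw17st_sec_eq_zero_iff (k : ℕ) (u : Mw17Idx δ k → K) : mw17Sec T k u = 0 ↔ u = 0 := by
  constructor
  · intro h
    apply mw17st_sec_injective (T := T) k
    rw [h]
    simp [mw17Sec]
  · rintro rfl
    simp [mw17Sec]

theorem mw17st_sec_top_coeff (k : ℕ) (top : Mw17Idx δ k) (u : Mw17Idx δ k → K) :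
    ((mw17Sec T k u) top.1.1).coeff (top.1.2 : ℕ) = u top :=
  congrFun (mw17st_coord_sec (T := T) k u) top

/-- a section has exact order `k` iff its coefficient at the monomial of weight `k` is non-zero -/
theorem mw17st_ord_sec_eq_iff {k : ℕ} (top : Mw17Idx δ k) (htop : mw17Wt top = k)
    (u : Mw17Idx δ k → K) (hu : u ≠ 0) : v27pOrd (mw17Sec T k u) = k ↔ u top ≠ 0 := by
  have hb : mw17Sec T k u ≠ 0 := fun h => hu ((mw17st_sec_eq_zero_iff k u).mp h)
  rw [v27pOrd_eq_iff top.1.1 (top.1.2 : ℕ) htop hb, mw17st_sec_top_coeff]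
  exact ⟨fun h => h.2, fun h => ⟨mw17st_sec_le k u, h⟩⟩

theorem mw17st_ord_sec_le (k : ℕ) (u : Mw17Idx δ k → K) : v27pOrd (mw17Sec T k u) ≤ k :=
  (v27pOrd_le_iff _ _).mpr (mw17st_sec_le k u)

theorem mw17st_wt_lt_of_ne {k : ℕ} (top : Mw17Idx δ k) (htop : mw17Wt top = k) (i : Mw17Idx δ k)
    (hi : i ≠ top) : mw17Wt i < k := by
  rcases lt_or_eq_of_le (mw17Wt_le i) with h | h
  · exact h
  · exact absurd (mw17st_wt_injective (h.trans htop.symm)) hi

end Fermat.Agent.MW17
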