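import Fermat.Agent.MW17.Setup
import Fermat.Agent.MW17.Star.Abs
import Fermat.Agent.V.Pts.Zariski
import Fermat.Agent.V.Pres.Count
import Fermat.Agent.MW17.Star.Mon

/-!
# Program MW (S17), heights half (A), core leaf (★), §3.4: the auxiliary polynomial `G`

Owner: helper24.  Namespace `Fermat.Agent.MW17`, prefix `mw17st` / `Mw17st`.
See `blueprints/S17-heights.md` (origin/helper16), §3.4.

Setting: `B = V27pB T`, `φ = ψ_n` the monomial basis of `L_n`, `s = (s_{ab})` auxiliary variables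
indexed by ALL ordered pairs `(a, b)` of indices of `L_n` (so that the coefficient vector of the
linear form `s ↦ ℓ_P(s)(R)` is literally the wedge `(φ_a P φ_b R - φ_b P φ_a R)_{(a,b)}`).

* `mw17stT n s y`      : the coefficient vector `T^s_y` of the section `ℓ_y(s) ∈ L_n`
                          (`Σ_c T^s_y(c) z_c = Σ_{(a,b)} s_{ab} (y_a z_b - y_b z_a)`);
* `mw17stTgen T m n c` : its generic form `T^s_•(c) ∈ B[u, s]`;
* `mw17stH T m n F`    : `H(u; s) = F(u, T^s_•) ∈ B[u, s]` for a polynomial `F(u, t)`;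
* `mw17stU T m n`      : the generic section `𝐮 = Σ_i u_i mon_i ∈ B[u, s]`;
* `mw17st_eval_H`, `mw17st_eval_U` : their values at a point `q`, a vector `u` and a parameter `s`;
* `mw17st_points_sep`  : `K`-points separate the elements of `B` (`K` algebraically closed);
* **`mw17st_exists_G`** (G1): if `F(u, t) = 0` whenever `sec u` and `sec t` have a common zero, then
  `H = 𝐮 · G` in `B[u, s]`;
* `mw17stWU`, `mw17stWS` : the weights counting the degree in `u`, in `s`; `mw17st_H_homU`,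
  `mw17st_H_homS`, `mw17st_U_homU`, `mw17st_U_homS`, `mw17st_U_ne_zero`;
* `Mw17stLe p k` : all coefficients of `p ∈ B[u, s]` lie in `L_k`; `mw17st_H_le` (`H ∈ L_{mn}[u,s]`),
  **`mw17st_le_of_U_mul`** (r1): `𝐮 · G ∈ L_M[u, s] → G ∈ L_{M-m}[u, s]` (`m` a non-gap);
* `mw17stG T m n F` : the quotient `G`, with `mw17stG_spec`, `mw17stG_homU`, `mw17stG_homS`,
  `mw17stG_le`.
-/

set_option autoImplicit false

noncomputable section

namespace Fermat.Agent.MW17

open Fermat.Agent.V MvPolynomial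

variable {K : Type*} [Field K] {δ : V27pShape}

/-- index type of the auxiliary variables `s_{ab}` -/
abbrev Mw17stS (δ : V27pShape) (n : ℕ) : Type := Mw17Idx δ n × Mw17Idx δ n

section Vector

variable {ι : Type*} [Fintype ι]

/-- the coefficient vector `T^s_y`: `T^s_y(c) = Σ_a (s_{ac} - s_{ca}) y_a` -/
def mw17stT (s : ι × ι → K) (y : ι → K) : ι → K :=
  fun c => ∑ a, (s (a, c) - s (c, a)) * y a

/-- `⟨T^s_y, z⟩ = ⟨s, y ∧ z⟩` -/
theorem mw17stT_pair (s : ι × ι → K) (y z : ι → K) :
    ∑ c, mw17stT s y c * z c = ∑ p : ι × ι, s p * (y p.1 * z p.2 - y p.2 * z p.1) := by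
  unfold mw17stT
  rw [Fintype.sum_prod_type]
  have h1 : ∀ c, (∑ a, (s (a, c) - s (c, a)) * y a) * z c
      = ∑ a, s (a, c) * (y a * z c) - ∑ a, s (c, a) * (y a * z c) := by
    intro c
    rw [Finset.sum_mul, ← Finset.sum_sub_distrib]
    refine Finset.sum_congr rfl fun a _ => ?_
    ring
  have h2 : ∀ a, ∑ c, s (a, c) * (y a * z c - y c * z a)
      = ∑ c, s (a, c) * (y a * z c) - ∑ c, s (a, c) * (y c * z a) := by
    intro a
    rw [← Finset.sum_sub_distrib]
    refine Finset.sum_congr rfl fun c _ => ?_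
    ring
  simp only [h1, h2, Finset.sum_sub_distrib]
  congr 1
  exact Finset.sum_comm

/-- the section `ℓ_y(s)` vanishes at `y` -/
theorem mw17stT_self (s : ι × ι → K) (y : ι → K) : ∑ c, mw17stT s y c * y c = 0 := by
  rw [mw17stT_pair]
  refine Finset.sum_eq_zero fun p _ => ?_
  rw [mul_comm (y p.1), sub_self, mul_zero]

/-- antisymmetry: `ℓ_y(s)(z) = - ℓ_z(s)(y)` -/
theorem mw17stT_swap (s : ι × ι → K) (y z : ι → K) :
    ∑ c, mw17stT s y c * z c = -∑ c, mw17stT s z c * y c := by
  rw [mw17stT_pair, mw17stT_pair, ← Finset.sum_neg_distrib]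
  refine Finset.sum_congr rfl fun p _ => ?_
  ring

theorem mw17stT_add (s s' : ι × ι → K) (y : ι → K) :
    mw17stT (s + s') y = mw17stT s y + mw17stT s' y := by
  funext c
  simp only [mw17stT, Pi.add_apply, ← Finset.sum_add_distrib]
  refine Finset.sum_congr rfl fun a _ => ?_
  ring

theorem mw17stT_smul (k : K) (s : ι × ι → K) (y : ι → K) :
    mw17stT (k • s) y = k • mw17stT s y := by
  funext c
  simp only [mw17stT, Pi.smul_apply, smul_eq_mul, Finset.mul_sum]
  refine Finset.sum_congr rfl fun a _ => ?_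
  ring

/-- every section through `y` (with `y i0 = 1`) is some `ℓ_y(s)` -/
theorem mw17stT_exists [DecidableEq ι] (y : ι → K) (i0 : ι) (hy : y i0 = 1) (t : ι → K)
    (ht : ∑ c, t c * y c = 0) : ∃ s : ι × ι → K, mw17stT s y = t := by
  refine ⟨fun p => if p.1 = i0 then t p.2 else 0, ?_⟩
  funext c
  unfold mw17stT
  simp only [Finset.sum_sub_distrib, sub_mul]
  have h1 : ∑ a, (if a = i0 then t c else 0) * y a = t c := by
    rw [Finset.sum_eq_single i0]
    · rw [if_pos rfl, hy, mul_one]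
    · intro a _ ha
      rw [if_neg ha, zero_mul]
    · intro h
      exact absurd (Finset.mem_univ _) h
  have h2 : ∑ a, (if c = i0 then t a else 0) * y a = 0 := by
    by_cases hc : c = i0
    · simp only [if_pos hc]
      exact ht
    · simp only [if_neg hc, zero_mul, Finset.sum_const_zero]
  rw [h1, h2, sub_zero]

end Vector

section Generic

variable (T : V27pTable K δ) (m n : ℕ)

/-- the polynomial ring `B[u, s]` -/
abbrev Mw17stA : Type _ := MvPolynomial (Mw17Idx δ m ⊕ Mw17stS δ n) (V27pB T)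

/-- coordinate `c` of the generic hyperplane section through the generic point, `T^s_•(c) ∈ B[s]` -/
def mw17stTgen (c : Mw17Idx δ n) : Mw17stA T m n :=
  ∑ a, (X (Sum.inr (a, c)) - X (Sum.inr (c, a))) * C (mw17Mon T a)

/-- `H(u; s) = F(u, T^s_•)` -/
def mw17stH (F : MvPolynomial (Mw17Idx δ m ⊕ Mw17Idx δ n) K) : Mw17stA T m n :=
  aeval (Sum.elim (fun i => (X (Sum.inl i) : Mw17stA T m n)) (mw17stTgen T m n)) F

/-- the generic section `𝐮 = Σ_i u_i mon_i` -/
def mw17stU : Mw17stA T m n := ∑ i, C (mw17Mon T i) * X (Sum.inl i)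

variable {T m n}

theorem mw17st_eval_Tgen (q : Mw17Pt T) (x : Mw17Idx δ m ⊕ Mw17stS δ n → K) (c : Mw17Idx δ n) :
    eval x (map (q : V27pB T →+* K) (mw17stTgen T m n c)) =
      mw17stT (fun p => x (Sum.inr p)) (mw17Psi T n q) c := by
  simp only [mw17stTgen, mw17stT, map_sum, map_mul, map_sub, map_X, map_C, eval_X, eval_C,
    mw17Psi]
  rfl

theorem mw17st_eval_U (q : Mw17Pt T) (x : Mw17Idx δ m ⊕ Mw17stS δ n → K) :
    eval x (map (q : V27pB T →+* K) (mw17stU T m n)) =
      q (mw17Sec T m (fun i => x (Sum.inl i))) := by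
  rw [mw17Sec_apply]
  simp only [mw17stU, map_sum, map_mul, map_X, map_C, eval_X, eval_C, mw17Psi]
  refine Finset.sum_congr rfl fun i _ => ?_
  rw [mul_comm]
  rfl

theorem mw17st_eval_H (F : MvPolynomial (Mw17Idx δ m ⊕ Mw17Idx δ n) K) (q : Mw17Pt T)
    (x : Mw17Idx δ m ⊕ Mw17stS δ n → K) :
    eval x (map (q : V27pB T →+* K) (mw17stH T m n F)) =
      eval (Sum.elim (fun i => x (Sum.inl i))
        (mw17stT (fun p => x (Sum.inr p)) (mw17Psi T n q))) F := by
  rw [mw17stH, mw17sa_eval_map_aeval']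
  congr 2
  funext i
  rcases i with i | c
  · simp
  · simp only [Sum.elim_inr]
    exact mw17st_eval_Tgen q x c

end Generic

section Division

theorem mw17st_finiteType (T : V27pTable K δ) : Algebra.FiniteType K (V27pB T) :=
  Algebra.FiniteType.trans (S := Polynomial K) inferInstance inferInstance

theorem mw17st_points_sep [IsAlgClosed K] (T : V27pTable K δ) (b : V27pB T)
    (h : ∀ q : Mw17Pt T, q b = 0) : b = 0 := by
  have : Algebra.FiniteType K (V27pB T) := mw17st_finiteType T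
  have hJ : IsJacobsonRing (V27pB T) := isJacobsonRing_of_finiteType (A := K)
  have hrad : (⊥ : Ideal (V27pB T)).IsRadical := Ideal.IsPrime.isRadical Ideal.isPrime_bot
  have hjac := IsJacobsonRing.out hJ hrad
  have hb : b ∈ (⊥ : Ideal (V27pB T)).jacobson := by
    rw [Ideal.jacobson, Ideal.mem_sInf]
    rintro J ⟨-, hJmax⟩
    have := hJmax
    rw [← v27pt_ker_point (K := K) J, RingHom.mem_ker]
    exact h _
  rw [hjac] at hb
  exact (Ideal.mem_bot).mp hb

theorem mw17st_exists_G [IsAlgClosed K] {T : V27pTable K δ} {m n : ℕ}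
    (F : MvPolynomial (Mw17Idx δ m ⊕ Mw17Idx δ n) K)
    (hvan : ∀ (u : Mw17Idx δ m → K) (t : Mw17Idx δ n → K) (q : Mw17Pt T),
      q (mw17Sec T m u) = 0 → q (mw17Sec T n t) = 0 → eval (Sum.elim u t) F = 0) :
    ∃ G : Mw17stA T m n, mw17stH T m n F = mw17stU T m n * G := by
  classical
  set i0 : Mw17Idx δ m ⊕ Mw17stS δ n := Sum.inl (mw17IdxZero δ m) with hi0
  set c : Mw17stA T m n :=
    ∑ i ∈ Finset.univ.erase (mw17IdxZero δ m), C (mw17Mon T i) * X (Sum.inl i) with hc
  have hU : mw17stU T m n = X i0 + c := by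
    unfold mw17stU
    rw [← Finset.add_sum_erase _ _ (Finset.mem_univ (mw17IdxZero δ m)), mw17Mon_zero, C_1, one_mul]
  obtain ⟨G, hG⟩ := mw17sa_monic_div i0 c (mw17stH T m n F)
  refine ⟨G, ?_⟩
  rw [hU]
  have hrem : mw17saSubst i0 c (mw17stH T m n F) = 0 := by
    have : Infinite K := IsAlgClosed.instInfinite
    refine mw17sa_eq_zero_of_points (mw17st_points_sep T) _ fun q x => ?_
    rw [mw17saSubst, mw17sa_eval_map_aeval, mw17st_eval_H]
    apply hvan _ _ q
    · rw [mw17Sec_apply, ← Finset.add_sum_erase _ _ (Finset.mem_univ (mw17IdxZero δ m)),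
        mw17Psi_zero, mul_one]
      rw [if_pos hi0.symm]
      have h1 : ∀ i ∈ Finset.univ.erase (mw17IdxZero δ m),
          (eval x) ((map (q : V27pB T →+* K)) (if Sum.inl i = i0 then -c else X (Sum.inl i)))
            * mw17Psi T m q i = x (Sum.inl i) * mw17Psi T m q i := by
        intro i hi
        have hne : (Sum.inl i : Mw17Idx δ m ⊕ Mw17stS δ n) ≠ i0 := by
          rw [hi0]
          intro h
          exact (Finset.mem_erase.mp hi).1 (Sum.inl_injective h)
        rw [if_neg hne, map_X, eval_X]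
      rw [Finset.sum_congr rfl h1, map_neg, map_neg, hc, map_sum, map_sum, neg_add_eq_zero]
      refine Finset.sum_congr rfl fun i _ => ?_
      rw [map_mul, map_mul, map_C, map_X, eval_C, eval_X, mul_comm]
      rfl
    · rw [mw17Sec_apply]
      exact mw17stT_self _ _
  rw [hrem, add_zero] at hG
  exact hG

end Division


section Homog

variable (T : V27pTable K δ) (m n : ℕ)

/-- the weight counting the degree in `u` -/
def mw17stWU : Mw17Idx δ m ⊕ Mw17stS δ n → ℕ := Sum.elim (fun _ => 1) (fun _ => 0)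

/-- the weight counting the degree in `s` -/
def mw17stWS : Mw17Idx δ m ⊕ Mw17stS δ n → ℕ := Sum.elim (fun _ => 0) (fun _ => 1)

theorem mw17st_Tgen_homU (c : Mw17Idx δ n) :
    IsWeightedHomogeneous (mw17stWU m n) (mw17stTgen T m n c) 0 := by
  unfold mw17stTgen
  refine IsWeightedHomogeneous.sum _ _ _ fun a _ => ?_
  have h1 : IsWeightedHomogeneous (mw17stWU m n)
      (X (Sum.inr (a, c)) - X (Sum.inr (c, a)) : Mw17stA T m n) 0 :=
    (isWeightedHomogeneous_X _ _ _).sub (isWeightedHomogeneous_X _ _ _)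
  have := h1.mul (isWeightedHomogeneous_C (mw17stWU m n) (mw17Mon T a))
  rwa [add_zero] at this

theorem mw17st_Tgen_homS (c : Mw17Idx δ n) :
    IsWeightedHomogeneous (mw17stWS m n) (mw17stTgen T m n c) 1 := by
  unfold mw17stTgen
  refine IsWeightedHomogeneous.sum _ _ _ fun a _ => ?_
  have h1 : IsWeightedHomogeneous (mw17stWS m n)
      (X (Sum.inr (a, c)) - X (Sum.inr (c, a)) : Mw17stA T m n) 1 :=
    (isWeightedHomogeneous_X _ _ _).sub (isWeightedHomogeneous_X _ _ _)
  have := h1.mul (isWeightedHomogeneous_C (mw17stWS m n) (mw17Mon T a))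
  rwa [add_zero] at this

theorem mw17st_U_homU : IsWeightedHomogeneous (mw17stWU m n) (mw17stU T m n) 1 := by
  unfold mw17stU
  refine IsWeightedHomogeneous.sum _ _ _ fun i _ => ?_
  have := (isWeightedHomogeneous_C (mw17stWU m n) (mw17Mon T i)).mul
    (isWeightedHomogeneous_X (R := V27pB T) (mw17stWU m n) (Sum.inl i))
  rwa [zero_add] at this

theorem mw17st_U_homS : IsWeightedHomogeneous (mw17stWS m n) (mw17stU T m n) 0 := by
  unfold mw17stU
  refine IsWeightedHomogeneous.sum _ _ _ fun i _ => ?_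
  have := (isWeightedHomogeneous_C (mw17stWS m n) (mw17Mon T i)).mul
    (isWeightedHomogeneous_X (R := V27pB T) (mw17stWS m n) (Sum.inl i))
  rwa [zero_add] at this

variable {m n}

theorem mw17st_H_homU {F : MvPolynomial (Mw17Idx δ m ⊕ Mw17Idx δ n) K} {a : ℕ}
    (hF : IsWeightedHomogeneous (Sum.elim (fun _ : Mw17Idx δ m => (1 : ℕ)) (fun _ : Mw17Idx δ n => (0 : ℕ))) F a) :
    IsWeightedHomogeneous (mw17stWU m n) (mw17stH T m n F) a := by
  refine mw17sa_isWeightedHomogeneous_aeval _ _ hF _ ?_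
  rintro (i | c)
  · exact isWeightedHomogeneous_X _ _ _
  · exact mw17st_Tgen_homU T m n c

theorem mw17st_H_homS {F : MvPolynomial (Mw17Idx δ m ⊕ Mw17Idx δ n) K} {b : ℕ}
    (hF : IsWeightedHomogeneous (Sum.elim (fun _ : Mw17Idx δ m => (0 : ℕ)) (fun _ : Mw17Idx δ n => (1 : ℕ))) F b) :
    IsWeightedHomogeneous (mw17stWS m n) (mw17stH T m n F) b := by
  refine mw17sa_isWeightedHomogeneous_aeval _ _ hF _ ?_
  rintro (i | c)
  · exact isWeightedHomogeneous_X _ _ _
  · exact mw17st_Tgen_homS T m n c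

theorem mw17st_U_ne_zero : mw17stU T m n ≠ 0 := by
  classical
  intro h
  have := congrArg (coeff (Finsupp.single (Sum.inl (mw17IdxZero δ m)) 1)) h
  unfold mw17stU at this
  rw [coeff_sum, coeff_zero, Finset.sum_eq_single (mw17IdxZero δ m)] at this
  · rw [coeff_C_mul, coeff_X, mw17Mon_zero, if_pos rfl, mul_one] at this
    exact one_ne_zero this
  · intro i _ hi
    rw [coeff_C_mul, coeff_X, if_neg, mul_zero]
    intro h'
    apply hi
    have := Finsupp.single_left_injective (one_ne_zero) h'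
    exact Sum.inl_injective this
  · intro h'
    exact absurd (Finset.mem_univ _) h'

end Homog


section Le

variable {T : V27pTable K δ} {ν : Type*}

/-- all coefficients of `p` have pole order `≤ k` -/
def Mw17stLe (p : MvPolynomial ν (V27pB T)) (k : ℕ) : Prop := ∀ d, V27pLe (coeff d p) k

namespace Mw17stLe

theorem mono {p : MvPolynomial ν (V27pB T)} {k k' : ℕ} (h : Mw17stLe p k) (hk : k ≤ k') :
    Mw17stLe p k' := fun d => (h d).mono hk

theorem zero (k : ℕ) : Mw17stLe (0 : MvPolynomial ν (V27pB T)) k := fun d => by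
  rw [coeff_zero]; exact V27pLe.zero k

theorem add {p q : MvPolynomial ν (V27pB T)} {k : ℕ} (hp : Mw17stLe p k) (hq : Mw17stLe q k) :
    Mw17stLe (p + q) k := fun d => by
  rw [coeff_add]; exact (hp d).add (hq d)

theorem neg {p : MvPolynomial ν (V27pB T)} {k : ℕ} (hp : Mw17stLe p k) :
    Mw17stLe (-p) k := fun d => by
  rw [coeff_neg]; exact (hp d).neg

theorem sub {p q : MvPolynomial ν (V27pB T)} {k : ℕ} (hp : Mw17stLe p k) (hq : Mw17stLe q k) :
    Mw17stLe (p - q) k := by
  rw [sub_eq_add_neg]; exact hp.add hq.neg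

theorem sum {α : Type*} (s : Finset α) (f : α → MvPolynomial ν (V27pB T)) {k : ℕ}
    (h : ∀ a ∈ s, Mw17stLe (f a) k) : Mw17stLe (∑ a ∈ s, f a) k := by
  classical
  induction s using Finset.induction_on with
  | empty => simpa using zero k
  | insert a s ha ih =>
    rw [Finset.sum_insert ha]
    exact (h a (Finset.mem_insert_self a s)).add
      (ih fun b hb => h b (Finset.mem_insert_of_mem hb))

theorem C {b : V27pB T} {k : ℕ} (hb : V27pLe b k) :
    Mw17stLe (C b : MvPolynomial ν (V27pB T)) k := fun d => by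
  classical
  rw [coeff_C]
  split_ifs
  · exact hb
  · exact V27pLe.zero k

theorem one_le (k : ℕ) : V27pLe (1 : V27pB T) k := by
  rw [← v27pOrd_le_iff, v27pOrd_one]
  exact Nat.zero_le k

theorem X (i : ν) (k : ℕ) : Mw17stLe (X i : MvPolynomial ν (V27pB T)) k := fun d => by
  classical
  rw [coeff_X]
  split_ifs
  · exact one_le k
  · exact V27pLe.zero k

theorem mul {p q : MvPolynomial ν (V27pB T)} {k l : ℕ} (hp : Mw17stLe p k) (hq : Mw17stLe q l) :
    Mw17stLe (p * q) (k + l) := fun d => by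
  classical
  rw [coeff_mul]
  have : ∑ x ∈ Finset.HasAntidiagonal.antidiagonal d, coeff x.1 p * coeff x.2 q
      ∈ v27pL T (k + l) :=
    Submodule.sum_mem _ fun x _ => (hp x.1).mul (hq x.2)
  exact this

theorem pow {p : MvPolynomial ν (V27pB T)} {k : ℕ} (hp : Mw17stLe p k) (e : ℕ) :
    Mw17stLe (p ^ e) (e * k) := by
  induction e with
  | zero =>
    rw [pow_zero, Nat.zero_mul, ← C_1]
    exact C (one_le 0)
  | succ e ih =>
    rw [pow_succ, Nat.succ_mul]
    exact ih.mul hp

theorem prod {α : Type*} (s : Finset α) (f : α → MvPolynomial ν (V27pB T)) (k : α → ℕ)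
    (h : ∀ a ∈ s, Mw17stLe (f a) (k a)) : Mw17stLe (∏ a ∈ s, f a) (∑ a ∈ s, k a) := by
  classical
  induction s using Finset.induction_on with
  | empty =>
    rw [Finset.prod_empty, Finset.sum_empty, ← C_1]
    exact C (one_le 0)
  | insert a s ha ih =>
    rw [Finset.prod_insert ha, Finset.sum_insert ha]
    exact (h a (Finset.mem_insert_self a s)).mul
      (ih fun b hb => h b (Finset.mem_insert_of_mem hb))

end Mw17stLe

end Le

section Bound

variable (T : V27pTable K δ) (m n : ℕ)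

theorem mw17st_Tgen_le (c : Mw17Idx δ n) : Mw17stLe (mw17stTgen T m n c) n := by
  unfold mw17stTgen
  refine Mw17stLe.sum _ _ fun a _ => ?_
  have h1 : Mw17stLe (X (Sum.inr (a, c)) - X (Sum.inr (c, a)) : Mw17stA T m n) 0 :=
    (Mw17stLe.X _ 0).sub (Mw17stLe.X _ 0)
  have h2 : Mw17stLe (C (mw17Mon T a) : Mw17stA T m n) n :=
    Mw17stLe.C ((mw17st_mon_le a).mono (mw17Wt_le a))
  have := h1.mul h2
  rwa [zero_add] at this

variable {m n}

theorem mw17st_H_le {F : MvPolynomial (Mw17Idx δ m ⊕ Mw17Idx δ n) K} {b : ℕ}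
    (hF : IsWeightedHomogeneous
      (Sum.elim (fun _ : Mw17Idx δ m => (0 : ℕ)) (fun _ : Mw17Idx δ n => (1 : ℕ))) F b) :
    Mw17stLe (mw17stH T m n F) (b * n) := by
  classical
  rw [mw17stH, aeval_def, eval₂_eq]
  refine Mw17stLe.sum _ _ fun d hd => ?_
  have hd' : coeff d F ≠ 0 := mem_support_iff.mp hd
  have hk := hF hd'
  set kf : Mw17Idx δ m ⊕ Mw17Idx δ n → ℕ := Sum.elim (fun _ => 0) (fun _ => n) with hkf
  have hg : ∀ i, Mw17stLe (Sum.elim (fun i => (X (Sum.inl i) : Mw17stA T m n))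
      (mw17stTgen T m n) i) (kf i) := by
    rintro (i | c)
    · exact Mw17stLe.X _ _
    · exact mw17st_Tgen_le T m n c
  have h1 := Mw17stLe.prod d.support
    (fun i => Sum.elim (fun i => (X (Sum.inl i) : Mw17stA T m n)) (mw17stTgen T m n) i ^ d i)
    (fun i => d i * kf i) fun i _ => (hg i).pow (d i)
  have h2 : ∑ i ∈ d.support, d i * kf i = b * n := by
    rw [← hk, Finsupp.weight_apply, Finsupp.sum, Finset.sum_mul]
    refine Finset.sum_congr rfl fun i _ => ?_
    rcases i with i | c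
    · simp [hkf]
    · simp [hkf]
  rw [h2] at h1
  have h0 : Mw17stLe (algebraMap K (Mw17stA T m n) (coeff d F)) 0 := by
    rw [MvPolynomial.algebraMap_apply]
    refine Mw17stLe.C ?_
    rw [← v27pOrd_le_iff, v27pOrd_algebraMap]
  have h3 := h0.mul h1
  rwa [zero_add] at h3

end Bound

section Bound2

variable (T : V27pTable K δ) (m n : ℕ)

theorem mw17st_coeff_U_mul (G : Mw17stA T m n) (e : Mw17Idx δ m ⊕ Mw17stS δ n →₀ ℕ) :
    coeff e (mw17stU T m n * G) =
      ∑ i : Mw17Idx δ m, if Finsupp.single (Sum.inl i) 1 ≤ e then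
        mw17Mon T i * coeff (e - Finsupp.single (Sum.inl i) 1) G else 0 := by
  classical
  unfold mw17stU
  rw [Finset.sum_mul, coeff_sum]
  refine Finset.sum_congr rfl fun i _ => ?_
  have : (C (mw17Mon T i) * X (Sum.inl i) : Mw17stA T m n)
      = monomial (Finsupp.single (Sum.inl i) 1) (mw17Mon T i) := by
    rw [C_mul_X_eq_monomial]
  rw [this, coeff_monomial_mul']

theorem mw17st_ord_add_of_lt {a b : V27pB T} (h : v27pOrd b < v27pOrd a) :
    v27pOrd a ≤ v27pOrd (a + b) := by
  have h1 : v27pOrd a ≤ max (v27pOrd (a + b)) (v27pOrd b) := by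
    have := v27pOrd_sub_le (a + b) b
    rwa [add_sub_cancel_right] at this
  rcases le_max_iff.mp h1 with h2 | h2
  · exact h2
  · omega

variable {m n}

theorem mw17st_le_of_U_mul (hm : 0 < m) (top : Mw17Idx δ m) (htop : mw17Wt top = m)
    (G : Mw17stA T m n) (M : ℕ) (h : Mw17stLe (mw17stU T m n * G) M) : Mw17stLe G (M - m) := by
  classical
  by_cases hG : G = 0
  · subst hG
    intro d
    rw [coeff_zero]
    exact V27pLe.zero _
  set g₀ := G.support.sup (fun d => v27pOrd (coeff d G)) with hg₀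
  have hne : G.support.Nonempty := by
    rw [Finset.nonempty_iff_ne_empty, Ne, support_eq_empty]
    exact hG
  obtain ⟨d₀, hd₀, hsup⟩ := Finset.exists_mem_eq_sup _ hne (fun d => v27pOrd (coeff d G))
  have hall : ∀ d, v27pOrd (coeff d G) ≤ g₀ := by
    intro d
    by_cases hd : d ∈ G.support
    · exact Finset.le_sup (f := fun d => v27pOrd (coeff d G)) hd
    · rw [notMem_support_iff.mp hd, v27pOrd_zero]
      exact Nat.zero_le _
  have hd₀' : coeff d₀ G ≠ 0 := mem_support_iff.mp hd₀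
  -- the coefficient at `d₀ + e_top`
  set e := d₀ + Finsupp.single (Sum.inl top : Mw17Idx δ m ⊕ Mw17stS δ n) 1 with he
  have hcoef := mw17st_coeff_U_mul T m n G e
  rw [← Finset.add_sum_erase _ _ (Finset.mem_univ top)] at hcoef
  have htopterm : (if Finsupp.single (Sum.inl top : Mw17Idx δ m ⊕ Mw17stS δ n) 1 ≤ e then
      mw17Mon T top * coeff (e - Finsupp.single (Sum.inl top) 1) G else 0)
      = mw17Mon T top * coeff d₀ G := by
    rw [if_pos (by rw [he]; exact le_add_self), he, add_tsub_cancel_right]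
  rw [htopterm] at hcoef
  have hA : v27pOrd (mw17Mon T top * coeff d₀ G) = m + g₀ := by
    rw [v27pOrd_mul (mw17st_mon_ne_zero top) hd₀', mw17st_ord_mon, htop, hg₀, hsup]
  have hB : v27pOrd (∑ i ∈ Finset.univ.erase top,
      if Finsupp.single (Sum.inl i : Mw17Idx δ m ⊕ Mw17stS δ n) 1 ≤ e then
        mw17Mon T i * coeff (e - Finsupp.single (Sum.inl i) 1) G else 0) ≤ m - 1 + g₀ := by
    rw [← mem_v27pL_iff_ord]
    refine Submodule.sum_mem _ fun i hi => ?_
    split_ifs
    · rw [mem_v27pL_iff_ord]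
      by_cases h0 : coeff (e - Finsupp.single (Sum.inl i) 1) G = 0
      · rw [h0, mul_zero, v27pOrd_zero]
        exact Nat.zero_le _
      · rw [v27pOrd_mul (mw17st_mon_ne_zero i) h0, mw17st_ord_mon]
        have h1 := mw17st_wt_lt_of_ne top htop i (Finset.mem_erase.mp hi).1
        have h2 := hall (e - Finsupp.single (Sum.inl i) 1)
        omega
    · exact Submodule.zero_mem _
  have hC : v27pOrd (coeff e (mw17stU T m n * G)) ≤ M := (v27pOrd_le_iff _ _).mpr (h e)
  have hlt : v27pOrd (∑ i ∈ Finset.univ.erase top,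
      if Finsupp.single (Sum.inl i : Mw17Idx δ m ⊕ Mw17stS δ n) 1 ≤ e then
        mw17Mon T i * coeff (e - Finsupp.single (Sum.inl i) 1) G else 0)
      < v27pOrd (mw17Mon T top * coeff d₀ G) := by
    rw [hA]; omega
  have hD := mw17st_ord_add_of_lt T hlt
  rw [← hcoef, hA] at hD
  intro d
  rw [← v27pOrd_le_iff]
  have := hall d
  omega

end Bound2


section Quotient

variable (T : V27pTable K δ) (m n : ℕ)

open Classical in
/-- the auxiliary polynomial `G`: `H = 𝐮 · G` (`0` if `𝐮` does not divide `H`) -/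
def mw17stG (F : MvPolynomial (Mw17Idx δ m ⊕ Mw17Idx δ n) K) : Mw17stA T m n :=
  if h : ∃ G, mw17stH T m n F = mw17stU T m n * G then h.choose else 0

variable {T m n}

theorem mw17stG_spec {F : MvPolynomial (Mw17Idx δ m ⊕ Mw17Idx δ n) K}
    (h : ∃ G, mw17stH T m n F = mw17stU T m n * G) :
    mw17stH T m n F = mw17stU T m n * mw17stG T m n F := by
  unfold mw17stG
  rw [dif_pos h]
  exact h.choose_spec

/-- **(G1)** `H = 𝐮 · G` -/
theorem mw17st_H_eq [IsAlgClosed K] {F : MvPolynomial (Mw17Idx δ m ⊕ Mw17Idx δ n) K}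
    (hvan : ∀ (u : Mw17Idx δ m → K) (t : Mw17Idx δ n → K) (q : Mw17Pt T),
      q (mw17Sec T m u) = 0 → q (mw17Sec T n t) = 0 → eval (Sum.elim u t) F = 0) :
    mw17stH T m n F = mw17stU T m n * mw17stG T m n F :=
  mw17stG_spec (mw17st_exists_G F hvan)

theorem mw17stG_unique {F : MvPolynomial (Mw17Idx δ m ⊕ Mw17Idx δ n) K} {G : Mw17stA T m n}
    (h : mw17stH T m n F = mw17stU T m n * G) : G = mw17stG T m n F := by
  have h2 := mw17stG_spec ⟨G, h⟩
  rw [h] at h2
  exact mul_left_cancel₀ (mw17st_U_ne_zero T) h2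

/-- `G` is homogeneous of degree `a - 1` in `u` if `F` is of degree `a` in `u` -/
theorem mw17stG_homU {F : MvPolynomial (Mw17Idx δ m ⊕ Mw17Idx δ n) K} {a : ℕ} (ha : 0 < a)
    (hdiv : mw17stH T m n F = mw17stU T m n * mw17stG T m n F)
    (hF : IsWeightedHomogeneous
      (Sum.elim (fun _ : Mw17Idx δ m => (1 : ℕ)) (fun _ : Mw17Idx δ n => (0 : ℕ))) F a) :
    IsWeightedHomogeneous (mw17stWU m n) (mw17stG T m n F) (a - 1) := by
  refine mw17sa_isWeightedHomogeneous_of_mul (mw17stWU m n) (mw17st_U_homU T m n)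
    (mw17st_U_ne_zero T) ?_
  rw [← hdiv]
  have : 1 + (a - 1) = a := by omega
  rw [this]
  exact mw17st_H_homU T hF

/-- `G` is homogeneous of degree `b` in `s` if `F` is of degree `b` in `t` -/
theorem mw17stG_homS {F : MvPolynomial (Mw17Idx δ m ⊕ Mw17Idx δ n) K} {b : ℕ}
    (hdiv : mw17stH T m n F = mw17stU T m n * mw17stG T m n F)
    (hF : IsWeightedHomogeneous
      (Sum.elim (fun _ : Mw17Idx δ m => (0 : ℕ)) (fun _ : Mw17Idx δ n => (1 : ℕ))) F b) :
    IsWeightedHomogeneous (mw17stWS m n) (mw17stG T m n F) b := by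
  refine mw17sa_isWeightedHomogeneous_of_mul (mw17stWS m n) (mw17st_U_homS T m n)
    (mw17st_U_ne_zero T) ?_
  rw [← hdiv, zero_add]
  exact mw17st_H_homS T hF

/-- **(r1)/(G4, first half)** the coefficients of `G` lie in `L_{bn - m}` -/
theorem mw17stG_le {F : MvPolynomial (Mw17Idx δ m ⊕ Mw17Idx δ n) K} {b : ℕ} (hm : 0 < m)
    (top : Mw17Idx δ m) (htop : mw17Wt top = m)
    (hdiv : mw17stH T m n F = mw17stU T m n * mw17stG T m n F)
    (hF : IsWeightedHomogeneous
      (Sum.elim (fun _ : Mw17Idx δ m => (0 : ℕ)) (fun _ : Mw17Idx δ n => (1 : ℕ))) F b) :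
    Mw17stLe (mw17stG T m n F) (b * n - m) := by
  refine mw17st_le_of_U_mul T hm top htop _ _ ?_
  rw [← hdiv]
  exact mw17st_H_le T hF

end Quotient

end Fermat.Agent.MW17
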