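import Fermat.Agent.MW17.Star.G

/-!
# Program MW (S17), heights half (A), core leaf (★), §3.4 (G2): the product formula for `H`

Owner: helper24.  Namespace `Fermat.Agent.MW17`, prefix `mw17st` / `Mw17st`.

* `mw17stWedge y z`, `mw17stLin a` : the wedge of two vectors and the linear form with coefficient
  vector `a` (definitionally the `htlWedge`, `htggLin` of `HT/Loc.lean`, `HT/GelfondLin.lean`);
* `mw17stEv u R`  : `B[u, s] → K[s]`, evaluate `u` and apply the point `R` to the coefficients;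
* `mw17stEvB u`   : `B[u, s] → B[s]`, evaluate `u` only;
* `Mw17stProdU F top u c Z` : `F(u, ·) = c · t_top^(m - |Z|) · ∏_{q ∈ Z} ⟨·, φ q⟩` (= (R-prod));
* **`mw17st_G2`**  : `u(R) · G(u; s)(R) = c · ⟨s, φR ∧ e_top⟩^(m-|Z|) · ∏_{q ∈ Z} ⟨s, φR ∧ φq⟩` in `K[s]`;
* `mw17stEll y`, **`mw17st_G2B`** : the same identity in `B[s]`.
-/

set_option autoImplicit false

noncomputable section

namespace Fermat.Agent.MW17

open Fermat.Agent.V MvPolynomial

variable {K : Type*} [Field K] {δ : V27pShape}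

section Lin

variable {ι σ : Type*} [Fintype ι] [Fintype σ]

/-- the wedge of two vectors (definitionally `htlWedge`) -/
def mw17stWedge (y z : ι → K) : ι × ι → K := fun p => y p.1 * z p.2 - y p.2 * z p.1

/-- the linear form with coefficient vector `a` (definitionally `htggLin`) -/
def mw17stLin (a : σ → K) : MvPolynomial σ K := ∑ i, C (a i) * X i

theorem mw17stLin_eval (a : σ → K) (x : σ → K) : eval x (mw17stLin a) = ∑ i, a i * x i := by
  simp [mw17stLin]

theorem mw17stLin_coeff_single [DecidableEq σ] (a : σ → K) (i : σ) :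
    coeff (Finsupp.single i 1) (mw17stLin a) = a i := by
  unfold mw17stLin
  rw [coeff_sum, Finset.sum_eq_single i]
  · rw [coeff_C_mul, coeff_X, if_pos rfl, mul_one]
  · intro j _ hj
    rw [coeff_C_mul, coeff_X, if_neg, mul_zero]
    intro h
    exact hj (Finsupp.single_left_injective one_ne_zero h)
  · intro h
    exact absurd (Finset.mem_univ _) h

theorem mw17stLin_ne_zero {a : σ → K} (ha : a ≠ 0) : mw17stLin a ≠ 0 := by
  classical
  intro h
  apply ha
  funext i
  have := mw17stLin_coeff_single a i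
  rw [h, coeff_zero] at this
  exact this.symm

/-- the polynomial form of `T^s_y(c)` -/
def mw17stTpoly (y : ι → K) (c : ι) : MvPolynomial (ι × ι) K :=
  ∑ a, (X (a, c) - X (c, a)) * C (y a)

theorem mw17stTpoly_eval (y : ι → K) (c : ι) (s : ι × ι → K) :
    eval s (mw17stTpoly y c) = mw17stT s y c := by
  simp [mw17stTpoly, mw17stT]

theorem mw17stT_top [DecidableEq ι] (s : ι × ι → K) (y : ι → K) (top : ι) :
    mw17stT s y top = ∑ p : ι × ι, mw17stWedge y (Pi.single top 1) p * s p := by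
  have h := mw17stT_pair s y (Pi.single top (1 : K))
  rw [Finset.sum_eq_single top] at h
  · rw [Pi.single_eq_same, mul_one] at h
    rw [h]
    refine Finset.sum_congr rfl fun p _ => ?_
    rw [mul_comm]
    rfl
  · intro c _ hc
    rw [Pi.single_eq_of_ne hc, mul_zero]
  · intro h'
    exact absurd (Finset.mem_univ _) h'

theorem mw17stT_wedge (s : ι × ι → K) (y z : ι → K) :
    ∑ c, mw17stT s y c * z c = ∑ p : ι × ι, mw17stWedge y z p * s p := by
  rw [mw17stT_pair]
  refine Finset.sum_congr rfl fun p _ => ?_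
  rw [mul_comm]
  rfl

end Lin

section Ev

variable {T : V27pTable K δ} {m n : ℕ}

/-- evaluate `u` and apply the point `R` to the coefficients: `B[u, s] → K[s]` -/
def mw17stEv (u : Mw17Idx δ m → K) (R : Mw17Pt T) :
    Mw17stA T m n →+* MvPolynomial (Mw17stS δ n) K :=
  eval₂Hom ((C : K →+* MvPolynomial (Mw17stS δ n) K).comp (R : V27pB T →+* K))
    (Sum.elim (fun i => C (u i)) X)

/-- evaluate `u` only: `B[u, s] → B[s]` -/
def mw17stEvB (u : Mw17Idx δ m → K) :
    Mw17stA T m n →+* MvPolynomial (Mw17stS δ n) (V27pB T) :=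
  eval₂Hom (C : V27pB T →+* MvPolynomial (Mw17stS δ n) (V27pB T))
    (Sum.elim (fun i => C (algebraMap K (V27pB T) (u i))) X)

@[simp] theorem mw17stEv_C (u : Mw17Idx δ m → K) (R : Mw17Pt T) (b : V27pB T) :
    mw17stEv (n := n) u R (C b) = C (R b) := by
  simp [mw17stEv]

@[simp] theorem mw17stEv_X_inl (u : Mw17Idx δ m → K) (R : Mw17Pt T) (i : Mw17Idx δ m) :
    mw17stEv (n := n) u R (X (Sum.inl i)) = C (u i) := by
  simp [mw17stEv]

@[simp] theorem mw17stEv_X_inr (u : Mw17Idx δ m → K) (R : Mw17Pt T) (p : Mw17stS δ n) :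
    mw17stEv u R (X (Sum.inr p)) = X p := by
  simp [mw17stEv]

@[simp] theorem mw17stEvB_C (u : Mw17Idx δ m → K) (b : V27pB T) :
    mw17stEvB (n := n) u (C b) = C b := by
  simp [mw17stEvB]

@[simp] theorem mw17stEvB_X_inl (u : Mw17Idx δ m → K) (i : Mw17Idx δ m) :
    mw17stEvB (T := T) (n := n) u (X (Sum.inl i)) = C (algebraMap K (V27pB T) (u i)) := by
  simp [mw17stEvB]

@[simp] theorem mw17stEvB_X_inr (u : Mw17Idx δ m → K) (p : Mw17stS δ n) :
    mw17stEvB (T := T) u (X (Sum.inr p)) = X p := by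
  simp [mw17stEvB]

/-- `mw17stEv` factors through `mw17stEvB` -/
theorem mw17st_map_EvB (u : Mw17Idx δ m → K) (R : Mw17Pt T) (p : Mw17stA T m n) :
    map (R : V27pB T →+* K) (mw17stEvB u p) = mw17stEv u R p := by
  have h : (map (R : V27pB T →+* K)).comp (mw17stEvB (n := n) u) = mw17stEv u R := by
    apply MvPolynomial.ringHom_ext
    · intro b
      rw [RingHom.comp_apply, mw17stEvB_C, map_C, mw17stEv_C]
      rfl
    · rintro (i | q)
      · rw [RingHom.comp_apply, mw17stEvB_X_inl, map_C, mw17stEv_X_inl, RingHom.coe_coe,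
          AlgHom.commutes]
        rfl
      · rw [RingHom.comp_apply, mw17stEvB_X_inr, map_X, mw17stEv_X_inr]
  exact congrArg (fun f => f p) h

/-- values of `mw17stEv u R p` -/
theorem mw17st_eval_Ev (u : Mw17Idx δ m → K) (R : Mw17Pt T) (p : Mw17stA T m n)
    (s : Mw17stS δ n → K) :
    eval s (mw17stEv u R p) = eval (Sum.elim u s) (map (R : V27pB T →+* K) p) := by
  have h : (eval s).comp (mw17stEv (n := n) u R)
      = (eval (Sum.elim u s)).comp (map (R : V27pB T →+* K)) := by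
    apply MvPolynomial.ringHom_ext
    · intro b
      rw [RingHom.comp_apply, RingHom.comp_apply, mw17stEv_C, map_C, eval_C, eval_C]
      rfl
    · rintro (i | q)
      · rw [RingHom.comp_apply, RingHom.comp_apply, mw17stEv_X_inl, map_X, eval_C, eval_X]
        rfl
      · rw [RingHom.comp_apply, RingHom.comp_apply, mw17stEv_X_inr, map_X, eval_X, eval_X]
        rfl
  exact congrArg (fun f => f p) h

theorem mw17stEv_U (u : Mw17Idx δ m → K) (R : Mw17Pt T) :
    mw17stEv u R (mw17stU T m n) = C (R (mw17Sec T m u)) := by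
  rw [mw17Sec_apply]
  simp only [mw17stU, map_sum, map_mul, mw17stEv_C, mw17stEv_X_inl, mw17Psi]
  refine Finset.sum_congr rfl fun i _ => ?_
  rw [mul_comm]

theorem mw17stEvB_U (u : Mw17Idx δ m → K) :
    mw17stEvB u (mw17stU T m n) = C (mw17Sec T m u) := by
  simp only [mw17stU, mw17Sec, map_sum, map_mul, mw17stEvB_C, mw17stEvB_X_inl]
  refine Finset.sum_congr rfl fun i _ => ?_
  rw [← map_mul, Algebra.smul_def, mul_comm]

end Ev

section G2

variable {T : V27pTable K δ} {m n : ℕ}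

/-- abstract (R-prod): `F(u, ·) = c · t_top^(m - |Z|) · ∏_{q ∈ Z} ⟨·, φ q⟩` -/
def Mw17stProdU (F : MvPolynomial (Mw17Idx δ m ⊕ Mw17Idx δ n) K) (top : Mw17Idx δ n)
    (u : Mw17Idx δ m → K) (c : K) (Z : Multiset (Mw17Pt T)) : Prop :=
  ∀ t : Mw17Idx δ n → K, eval (Sum.elim u t) F =
    c * t top ^ (m - Z.card) * (Z.map fun q : Mw17Pt T => q (mw17Sec T n t)).prod

variable [Infinite K]

/-- `H(u; s)(R)` as a product of linear forms in `s` -/
theorem mw17st_Ev_H {F : MvPolynomial (Mw17Idx δ m ⊕ Mw17Idx δ n) K} {top : Mw17Idx δ n}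
    {u : Mw17Idx δ m → K} {c : K} {Z : Multiset (Mw17Pt T)} (hP : Mw17stProdU F top u c Z)
    (R : Mw17Pt T) :
    mw17stEv u R (mw17stH T m n F) =
      C c * mw17stLin (mw17stWedge (mw17Psi T n R) (Pi.single top 1)) ^ (m - Z.card) *
        (Z.map fun q : Mw17Pt T =>
          mw17stLin (mw17stWedge (mw17Psi T n R) (mw17Psi T n q))).prod := by
  classical
  apply MvPolynomial.funext
  intro s
  rw [mw17st_eval_Ev, mw17st_eval_H]
  simp only [Sum.elim_inl, Sum.elim_inr]
  rw [hP, map_mul, map_mul, eval_C, map_pow, mw17stLin_eval, ← mw17stT_top, map_multiset_prod,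
    Multiset.map_map]
  congr 2
  refine Multiset.map_congr rfl fun q _ => ?_
  rw [Function.comp_apply, mw17stLin_eval, mw17Sec_apply, ← mw17stT_wedge]

/-- **(G2)** in `K[s]`: `u(R) · G(u; s)(R) = c · ⟨s, φR ∧ e_top⟩^(m-|Z|) · ∏_{q ∈ Z} ⟨s, φR ∧ φq⟩` -/
theorem mw17st_G2 {F : MvPolynomial (Mw17Idx δ m ⊕ Mw17Idx δ n) K} {top : Mw17Idx δ n}
    {u : Mw17Idx δ m → K} {c : K} {Z : Multiset (Mw17Pt T)}
    (hdiv : mw17stH T m n F = mw17stU T m n * mw17stG T m n F)
    (hP : Mw17stProdU F top u c Z) (R : Mw17Pt T) :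
    C (R (mw17Sec T m u)) * mw17stEv u R (mw17stG T m n F) =
      C c * mw17stLin (mw17stWedge (mw17Psi T n R) (Pi.single top 1)) ^ (m - Z.card) *
        (Z.map fun q : Mw17Pt T =>
          mw17stLin (mw17stWedge (mw17Psi T n R) (mw17Psi T n q))).prod := by
  rw [← mw17st_Ev_H hP R, hdiv, map_mul, mw17stEv_U]

end G2

section G2B

variable (T : V27pTable K δ) (n : ℕ)

/-- the section `ℓ_y(s) ∈ L_n[s]` with `ℓ_y(s)(R) = ⟨s, φR ∧ y⟩` -/
def mw17stEll (y : Mw17Idx δ n → K) : MvPolynomial (Mw17stS δ n) (V27pB T) :=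
  ∑ c, (∑ a, (X (c, a) - X (a, c)) * C (algebraMap K (V27pB T) (y a))) * C (mw17Mon T c)

variable {T n}

theorem mw17st_eval_map_Ell (R : Mw17Pt T) (y : Mw17Idx δ n → K) (s : Mw17stS δ n → K) :
    eval s (map (R : V27pB T →+* K) (mw17stEll T n y)) =
      ∑ p : Mw17stS δ n, mw17stWedge (mw17Psi T n R) y p * s p := by
  rw [← mw17stT_wedge, mw17stT_swap, ← Finset.sum_neg_distrib]
  simp only [mw17stEll, map_sum, map_mul, map_sub, map_X, map_C, eval_X, eval_C, RingHom.coe_coe,
    AlgHom.commutes, Algebra.algebraMap_self_apply]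
  refine Finset.sum_congr rfl fun c _ => ?_
  rw [mw17stT, ← neg_mul, ← Finset.sum_neg_distrib]
  congr 1
  refine Finset.sum_congr rfl fun a _ => ?_
  ring

theorem mw17st_map_Ell [Infinite K] (R : Mw17Pt T) (y : Mw17Idx δ n → K) :
    map (R : V27pB T →+* K) (mw17stEll T n y) =
      mw17stLin (mw17stWedge (mw17Psi T n R) y) := by
  apply MvPolynomial.funext
  intro s
  rw [mw17st_eval_map_Ell, mw17stLin_eval]

variable {m : ℕ}

/-- **(G2)** in `B[s]`: `𝐮(u) · G(u; s) = c · ℓ_{P0}(s)^(m-|Z|) · ∏_{q ∈ Z} ℓ_q(s)` -/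
theorem mw17st_G2B [IsAlgClosed K] {F : MvPolynomial (Mw17Idx δ m ⊕ Mw17Idx δ n) K}
    {top : Mw17Idx δ n} {u : Mw17Idx δ m → K} {c : K} {Z : Multiset (Mw17Pt T)}
    (hdiv : mw17stH T m n F = mw17stU T m n * mw17stG T m n F)
    (hP : Mw17stProdU F top u c Z) :
    C (mw17Sec T m u) * mw17stEvB u (mw17stG T m n F) =
      C (algebraMap K (V27pB T) c) * mw17stEll T n (Pi.single top 1) ^ (m - Z.card) *
        (Z.map fun q : Mw17Pt T => mw17stEll T n (mw17Psi T n q)).prod := by
  have : Infinite K := IsAlgClosed.instInfinite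
  have key : ∀ R : Mw17Pt T,
      map (R : V27pB T →+* K) (C (mw17Sec T m u) * mw17stEvB u (mw17stG T m n F)) =
      map (R : V27pB T →+* K) (C (algebraMap K (V27pB T) c) *
        mw17stEll T n (Pi.single top 1) ^ (m - Z.card) *
        (Z.map fun q : Mw17Pt T => mw17stEll T n (mw17Psi T n q)).prod) := by
    intro R
    rw [map_mul, map_C, mw17st_map_EvB, map_mul, map_mul, map_C, map_pow, mw17st_map_Ell,
      map_multiset_prod, Multiset.map_map]
    have h1 : ((R : V27pB T →+* K) (algebraMap K (V27pB T) c)) = c := by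
      rw [RingHom.coe_coe, AlgHom.commutes]
      rfl
    rw [h1]
    have h2 : (Z.map ((map (R : V27pB T →+* K)) ∘
        fun q : Mw17Pt T => mw17stEll T n (mw17Psi T n q)))
        = Z.map fun q : Mw17Pt T =>
          mw17stLin (mw17stWedge (mw17Psi T n R) (mw17Psi T n q)) := by
      refine Multiset.map_congr rfl fun q _ => ?_
      rw [Function.comp_apply, mw17st_map_Ell]
    rw [h2]
    exact mw17st_G2 hdiv hP R
  exact mw17sa_eq_of_points (K := K) (B := V27pB T) (ν := Mw17stS δ n) (mw17st_points_sep T) _ _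
    fun R s => by rw [key R]

end G2B

end Fermat.Agent.MW17
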