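import Fermat.Agent.MW17.Star.G2

/-!
# Program MW (S17), heights half (A), core leaf (★), §3.4 (G3): `G` has no zero

Owner: helper24.  Namespace `Fermat.Agent.MW17`, prefix `mw17st` / `Mw17st`.

* **`mw17st_G3_fin`** : for `u ≠ 0` and every finite point `R` the polynomial `G(u; s)(R) ∈ K[s]` is
  not zero;
* **`mw17st_G3_inf`** : for `u ≠ 0` there is `s` with `v27pOrd (G(u; s)) = m n - m` exactly.

The properties of the resultant `F` enter as hypotheses: `Mw17stProdU` (= (R-prod)),
`Mw17stProdT` (= (R-prod') at a section of exact order `n`) and `Mw17stGenPos` (general position: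
helper26's `mw17gen_exists`).
-/

set_option autoImplicit false

noncomputable section

namespace Fermat.Agent.MW17

open Fermat.Agent.V MvPolynomial

variable {K : Type*} [Field K] {δ : V27pShape}

section Fin

variable (T : V27pTable K δ) (m n : ℕ)

/-- abstract (R-prod') at the sections of exact order `n`: `F(·, t) = c' · ∏_{q ∈ Z(t)} q(·)`,
`Z(t)` the zero multiset of `sec t` (simple zeros have multiplicity one) -/
def Mw17stProdT (F : MvPolynomial (Mw17Idx δ m ⊕ Mw17Idx δ n) K) : Prop :=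
  ∀ t : Mw17Idx δ n → K, v27pOrd (mw17Sec T n t) = n →
    ∃ (c' : K) (Zt : Multiset (Mw17Pt T)), c' ≠ 0 ∧
      (∀ q : Mw17Pt T, q ∈ Zt ↔ q (mw17Sec T n t) = 0) ∧
      (∀ q : Mw17Pt T, q (mw17Sec T n t) = 0 →
        mw17Sec T n t ∉ RingHom.ker (q : V27pB T →+* K) ^ 2 →
        ∃ Z' : Multiset (Mw17Pt T), Zt = q ::ₘ Z' ∧ q ∉ Z') ∧
      ∀ u' : Mw17Idx δ m → K, eval (Sum.elim u' t) F =
        c' * (Zt.map fun q : Mw17Pt T => q (mw17Sec T m u')).prod

/-- general position in `L_n(-R)`: a section of exact order `n` with a simple zero at `R` and no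
zero in a given finite set (helper26's `mw17gen_exists`) -/
def Mw17stGenPos : Prop :=
  ∀ (R : Mw17Pt T) (S : Finset (Mw17Pt T)), R ∉ S → ∃ t : Mw17Idx δ n → K,
    R (mw17Sec T n t) = 0 ∧ v27pOrd (mw17Sec T n t) = n ∧
      (∀ Q ∈ S, Q (mw17Sec T n t) ≠ 0) ∧
      mw17Sec T n t ∉ RingHom.ker (R : V27pB T →+* K) ^ 2

variable {T m n}

/-- the linear form `u' ↦ q(sec u')` -/
theorem mw17st_eval_lin_psi (q : Mw17Pt T) (u' : Mw17Idx δ m → K) :
    eval u' (mw17stLin (mw17Psi T m q)) = q (mw17Sec T m u') := by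
  rw [mw17stLin_eval, mw17Sec_apply]
  refine Finset.sum_congr rfl fun i _ => ?_
  rw [mul_comm]

/-- **(G3), finite points**: `G(u; ·)(R) ≠ 0` in `K[s]` for every `u ≠ 0` and every point `R`. -/
theorem mw17st_G3_fin [Infinite K] {F : MvPolynomial (Mw17Idx δ m ⊕ Mw17Idx δ n) K}
    (hdiv : mw17stH T m n F = mw17stU T m n * mw17stG T m n F)
    (hT : Mw17stProdT T m n F) (hgen : Mw17stGenPos T n)
    (u : Mw17Idx δ m → K) (Z : Multiset (Mw17Pt T))
    (hZ : ∀ q : Mw17Pt T, q (mw17Sec T m u) = 0 → q ∈ Z) (R : Mw17Pt T) :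
    mw17stEv u R (mw17stG T m n F) ≠ 0 := by
  classical
  -- a section through `R` in general position
  obtain ⟨t, htR, htord, htS, htsq⟩ := hgen R (Z.toFinset.erase R) (Finset.notMem_erase R _)
  obtain ⟨c', Zt, hc', hmem, hsimple, hprod⟩ := hT t htord
  obtain ⟨Z', hZt, hRZ'⟩ := hsimple R htR htsq
  -- the parameter `s₀` with `T^{s₀}_R = t`
  obtain ⟨s₀, hs₀⟩ := mw17stT_exists (mw17Psi T n R) (mw17IdxZero δ n) (mw17Psi_zero T n R) t
    (by rw [← mw17Sec_apply]; exact htR)
  -- the polynomial `u' ↦ G(u'; s₀)(R)`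
  set PG : MvPolynomial (Mw17Idx δ m) K :=
    eval₂Hom ((C : K →+* MvPolynomial (Mw17Idx δ m) K).comp (R : V27pB T →+* K))
      (Sum.elim X (fun p => C (s₀ p))) (mw17stG T m n F) with hPG
  have hPGeval : ∀ (p : Mw17stA T m n) (u' : Mw17Idx δ m → K),
      eval u' (eval₂Hom ((C : K →+* MvPolynomial (Mw17Idx δ m) K).comp (R : V27pB T →+* K))
        (Sum.elim X (fun p => C (s₀ p))) p) =
        eval (Sum.elim u' s₀) (map (R : V27pB T →+* K) p) := by
    intro p u'
    have h : (eval u').comp (eval₂Hom ((C : K →+* MvPolynomial (Mw17Idx δ m) K).comp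
        (R : V27pB T →+* K)) (Sum.elim X (fun p => C (s₀ p))))
        = (eval (Sum.elim u' s₀)).comp (map (R : V27pB T →+* K)) := by
      apply MvPolynomial.ringHom_ext
      · intro b
        simp
      · rintro (i | q) <;> simp
    exact congrArg (fun f => f p) h
  -- the identity `LU R * PG = c' * LU R * ∏_{q ∈ Z'} LU q`
  have hid : mw17stLin (mw17Psi T m R) * PG =
      mw17stLin (mw17Psi T m R) *
        (C c' * (Z'.map fun q : Mw17Pt T => mw17stLin (mw17Psi T m q)).prod) := by
    apply MvPolynomial.funext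
    intro u'
    rw [map_mul, map_mul, map_mul, mw17st_eval_lin_psi, hPGeval, eval_C, map_multiset_prod,
      Multiset.map_map]
    have h1 : R (mw17Sec T m u') * eval (Sum.elim u' s₀)
        (map (R : V27pB T →+* K) (mw17stG T m n F))
        = eval (Sum.elim u' s₀) (map (R : V27pB T →+* K) (mw17stH T m n F)) := by
      rw [hdiv, map_mul, map_mul, mw17st_eval_U]
      rfl
    rw [h1, mw17st_eval_H]
    simp only [Sum.elim_inl, Sum.elim_inr]
    rw [hs₀, hprod u', hZt, Multiset.map_cons, Multiset.prod_cons]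
    have h2 : (Z'.map ((eval u') ∘ fun q : Mw17Pt T => mw17stLin (mw17Psi T m q)))
        = Z'.map fun q : Mw17Pt T => q (mw17Sec T m u') := by
      refine Multiset.map_congr rfl fun q _ => ?_
      rw [Function.comp_apply, mw17st_eval_lin_psi]
    rw [h2]
    ring
  have hLU : mw17stLin (mw17Psi T m R) ≠ 0 := mw17stLin_ne_zero (mw17Psi_ne_zero T m R)
  have hPGeq := mul_left_cancel₀ hLU hid
  -- evaluate at `u`
  have hval : eval u PG = c' * (Z'.map fun q : Mw17Pt T => q (mw17Sec T m u)).prod := by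
    rw [hPGeq, map_mul, eval_C, map_multiset_prod, Multiset.map_map]
    congr 2
    refine Multiset.map_congr rfl fun q _ => ?_
    rw [Function.comp_apply, mw17st_eval_lin_psi]
  have hne : eval u PG ≠ 0 := by
    rw [hval]
    refine mul_ne_zero hc' ?_
    rw [Ne, Multiset.prod_eq_zero_iff, Multiset.mem_map]
    rintro ⟨q, hqZ', hq0⟩
    have hqZt : q ∈ Zt := by rw [hZt]; exact Multiset.mem_cons_of_mem hqZ'
    have hqt : q (mw17Sec T n t) = 0 := (hmem q).mp hqZt
    have hqR : q ≠ R := fun h => hRZ' (h ▸ hqZ')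
    have hqS : q ∈ Z.toFinset.erase R :=
      Finset.mem_erase.mpr ⟨hqR, Multiset.mem_toFinset.mpr (hZ q hq0)⟩
    exact htS q hqS hqt
  intro h0
  apply hne
  rw [hPG, hPGeval, ← mw17st_eval_Ev, h0, map_zero]

end Fin


section Inf

variable {T : V27pTable K δ} {m n : ℕ}

theorem mw17st_ord_multiset_prod (Z : Multiset (V27pB T)) (k : ℕ)
    (h : ∀ b ∈ Z, b ≠ 0 ∧ v27pOrd b = k) : Z.prod ≠ 0 ∧ v27pOrd Z.prod = Z.card * k := by
  induction Z using Multiset.induction_on with
  | empty =>
    rw [Multiset.prod_zero, Multiset.card_zero, Nat.zero_mul]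
    exact ⟨one_ne_zero, v27pOrd_one⟩
  | cons a Z ih =>
    obtain ⟨h1, h2⟩ := ih fun b hb => h b (Multiset.mem_cons_of_mem hb)
    obtain ⟨ha1, ha2⟩ := h a (Multiset.mem_cons_self a Z)
    rw [Multiset.prod_cons, Multiset.card_cons]
    refine ⟨mul_ne_zero ha1 h1, ?_⟩
    rw [v27pOrd_mul ha1 h1, ha2, h2]
    ring

theorem mw17st_ord_pow {b : V27pB T} (hb : b ≠ 0) (k : ℕ) :
    v27pOrd (b ^ k) = k * v27pOrd b := by
  induction k with
  | zero => rw [pow_zero, v27pOrd_one, Nat.zero_mul]
  | succ k ih =>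
    rw [pow_succ, v27pOrd_mul (pow_ne_zero _ hb) hb, ih]
    ring

/-- the coefficient vector of `ℓ_y(s)`: `- T^s_y` -/
def mw17stEllVal (s : Mw17stS δ n → K) (y : Mw17Idx δ n → K) : Mw17Idx δ n → K :=
  fun c => ∑ a, (s (c, a) - s (a, c)) * y a

theorem mw17stEllVal_eq (s : Mw17stS δ n → K) (y : Mw17Idx δ n → K) :
    mw17stEllVal s y = -mw17stT s y := by
  funext c
  rw [Pi.neg_apply, mw17stEllVal, mw17stT, ← Finset.sum_neg_distrib]
  refine Finset.sum_congr rfl fun a _ => ?_
  ring

/-- the value of `ℓ_y(s)` at a parameter `s ∈ K^S` -/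
theorem mw17st_eval_Ell (s : Mw17stS δ n → K) (y : Mw17Idx δ n → K) :
    eval (fun p => algebraMap K (V27pB T) (s p)) (mw17stEll T n y) =
      mw17Sec T n (mw17stEllVal s y) := by
  simp only [mw17stEll, mw17Sec, mw17stEllVal, map_sum, map_mul, map_sub, eval_X, eval_C]
  refine Finset.sum_congr rfl fun c _ => ?_
  rw [Algebra.smul_def, map_sum]
  congr 1
  refine Finset.sum_congr rfl fun a _ => ?_
  rw [map_mul, map_sub]

/-- `s ↦ T^s_y(c)` as a linear form -/
def mw17stTL (y : Mw17Idx δ n → K) (c : Mw17Idx δ n) : Module.Dual K (Mw17stS δ n → K) where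
  toFun s := mw17stT s y c
  map_add' s s' := by rw [mw17stT_add]; rfl
  map_smul' k s := by rw [mw17stT_smul]; rfl

theorem mw17stTL_apply (y : Mw17Idx δ n → K) (c : Mw17Idx δ n) (s : Mw17stS δ n → K) :
    mw17stTL y c s = mw17stT s y c := rfl

theorem mw17stT_single (a₀ c₀ : Mw17Idx δ n) (hne : a₀ ≠ c₀) (y : Mw17Idx δ n → K) :
    mw17stT (Pi.single (a₀, c₀) (1 : K)) y c₀ = y a₀ := by
  classical
  unfold mw17stT
  rw [Finset.sum_eq_single a₀]
  · rw [Pi.single_eq_same, Pi.single_eq_of_ne, sub_zero, one_mul]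
    intro h
    exact hne (Prod.ext_iff.mp h).1.symm
  · intro a _ ha
    rw [Pi.single_eq_of_ne, Pi.single_eq_of_ne, sub_zero, zero_mul]
    · intro h
      exact hne (Prod.ext_iff.mp h).1.symm
    · intro h
      exact ha (Prod.ext_iff.mp h).1
  · intro h
    exact absurd (Finset.mem_univ _) h

/-- **(G3), at infinity**: for `u ≠ 0` there is `s` with `v27pOrd (G(u; s)) = m n - m` exactly. -/
theorem mw17st_G3_inf [IsAlgClosed K] {F : MvPolynomial (Mw17Idx δ m ⊕ Mw17Idx δ n) K}
    {top top' : Mw17Idx δ n} (hn : 0 < n) (htop : mw17Wt top = n) (htop' : mw17Wt top' = n - 1)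
    {u : Mw17Idx δ m → K} {c : K} {Z : Multiset (Mw17Pt T)} (hu : u ≠ 0) (hc : c ≠ 0)
    (hcard : Z.card = v27pOrd (mw17Sec T m u))
    (hdiv : mw17stH T m n F = mw17stU T m n * mw17stG T m n F)
    (hP : Mw17stProdU F top u c Z) :
    ∃ s : Mw17stS δ n → K,
      v27pOrd (eval (fun p => algebraMap K (V27pB T) (s p))
        (mw17stEvB u (mw17stG T m n F))) = m * n - m := by
  classical
  have : Infinite K := IsAlgClosed.instInfinite
  have h0top : mw17IdxZero δ n ≠ top := by
    intro h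
    have h1 : mw17Wt (mw17IdxZero δ n) = 0 := by
      simp [mw17Wt, mw17IdxZero, δ.d_zero]
    rw [h, htop] at h1
    omega
  have htt' : top ≠ top' := by
    intro h
    rw [h, htop'] at htop
    omega
  -- the linear forms to avoid
  let f : Option {q : Mw17Pt T // q ∈ Z.toFinset} → Module.Dual K (Mw17stS δ n → K) := fun o =>
    match o with
    | none => mw17stTL (Pi.single top 1) top'
    | some q => mw17stTL (mw17Psi T n q.1) top
  have hf : ∀ o, ∃ s, f o s ≠ 0 := by
    intro o
    cases o with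
    | none =>
      refine ⟨Pi.single (top, top') 1, ?_⟩
      show mw17stT _ _ _ ≠ 0
      rw [mw17stT_single top top' htt', Pi.single_eq_same]
      exact one_ne_zero
    | some q =>
      refine ⟨Pi.single (mw17IdxZero δ n, top) 1, ?_⟩
      show mw17stT _ _ _ ≠ 0
      rw [mw17stT_single _ _ h0top, mw17Psi_zero]
      exact one_ne_zero
  obtain ⟨s, hs⟩ := Module.Dual.exists_forall_ne_zero_of_forall_exists f hf
  refine ⟨s, ?_⟩
  -- the factor at infinity
  have hinf0 : mw17stEllVal s (Pi.single top 1) top = 0 := by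
    rw [mw17stEllVal_eq, Pi.neg_apply, neg_eq_zero]
    unfold mw17stT
    rw [Finset.sum_eq_single top]
    · rw [sub_self, zero_mul]
    · intro a _ ha
      rw [Pi.single_eq_of_ne ha, mul_zero]
    · intro h
      exact absurd (Finset.mem_univ _) h
  have hinf1 : mw17stEllVal s (Pi.single top 1) top' ≠ 0 := by
    rw [mw17stEllVal_eq, Pi.neg_apply, neg_ne_zero]
    exact hs none
  have hordinf : v27pOrd (mw17Sec T n (mw17stEllVal s (Pi.single top 1))) = n - 1 := by
    refine v27pOrd_eq_of ?_ top'.1.1 (top'.1.2 : ℕ) htop' ?_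
    · intro j r hr
      rw [mw17st_sec_apply_coeff]
      split_ifs with h
      · have hw : mw17Wt (⟨(j, ⟨r, h.2⟩), h.1⟩ : Mw17Idx δ n) = n := by
          have h1 : mw17Wt (⟨(j, ⟨r, h.2⟩), h.1⟩ : Mw17Idx δ n) = δ.N * r + δ.d j := rfl
          have h2 := h.1
          omega
        have : (⟨(j, ⟨r, h.2⟩), h.1⟩ : Mw17Idx δ n) = top :=
          mw17st_wt_injective (hw.trans htop.symm)
        rw [this]
        exact hinf0
      · rfl
    · rw [mw17st_sec_top_coeff]
      exact hinf1
  have hneinf : mw17Sec T n (mw17stEllVal s (Pi.single top 1)) ≠ 0 := by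
    intro h
    apply hinf1
    have := (mw17st_sec_eq_zero_iff n _).mp h
    rw [this]
    rfl
  -- the finite factors
  have hfin : ∀ q ∈ Z, mw17Sec T n (mw17stEllVal s (mw17Psi T n q)) ≠ 0 ∧
      v27pOrd (mw17Sec T n (mw17stEllVal s (mw17Psi T n q))) = n := by
    intro q hq
    have h1 : mw17stEllVal s (mw17Psi T n q) top ≠ 0 := by
      rw [mw17stEllVal_eq, Pi.neg_apply, neg_ne_zero]
      exact hs (some ⟨q, Multiset.mem_toFinset.mpr hq⟩)
    have h2 : mw17stEllVal s (mw17Psi T n q) ≠ 0 := fun h => h1 (by rw [h]; rfl)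
    refine ⟨fun h => h2 ((mw17st_sec_eq_zero_iff n _).mp h), ?_⟩
    exact (mw17st_ord_sec_eq_iff top htop _ h2).mpr h1
  -- evaluate (G2B) at `s`
  have hG2 := congrArg (eval (fun p => algebraMap K (V27pB T) (s p))) (mw17st_G2B hdiv hP)
  rw [map_mul, eval_C, map_mul, map_mul, eval_C, map_pow, mw17st_eval_Ell, map_multiset_prod,
    Multiset.map_map] at hG2
  have hmapeq : (Z.map ((eval fun p => algebraMap K (V27pB T) (s p)) ∘
      fun q : Mw17Pt T => mw17stEll T n (mw17Psi T n q)))
      = Z.map fun q : Mw17Pt T => mw17Sec T n (mw17stEllVal s (mw17Psi T n q)) := by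
    refine Multiset.map_congr rfl fun q _ => ?_
    rw [Function.comp_apply, mw17st_eval_Ell]
  rw [hmapeq] at hG2
  obtain ⟨hprod0, hprodord⟩ := mw17st_ord_multiset_prod
    (Z.map fun q : Mw17Pt T => mw17Sec T n (mw17stEllVal s (mw17Psi T n q))) n (by
      intro b hb
      obtain ⟨q, hq, rfl⟩ := Multiset.mem_map.mp hb
      exact hfin q hq)
  rw [Multiset.card_map] at hprodord
  have hcne : algebraMap K (V27pB T) c ≠ 0 := by
    intro h
    have := v27pOrd_algebraMap (T := T) c
    apply hc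
    have h2 := congrArg (fun b : V27pB T => b 0) h
    simp only [V27pB.algebraMap_apply, V27pB.zero_apply] at h2
    simpa using h2
  have hpowne := pow_ne_zero (m - Z.card) hneinf
  have hRHSne : algebraMap K (V27pB T) c *
      mw17Sec T n (mw17stEllVal s (Pi.single top 1)) ^ (m - Z.card) *
      (Z.map fun q : Mw17Pt T => mw17Sec T n (mw17stEllVal s (mw17Psi T n q))).prod ≠ 0 :=
    mul_ne_zero (mul_ne_zero hcne hpowne) hprod0
  have hRHSord : v27pOrd (algebraMap K (V27pB T) c *
      mw17Sec T n (mw17stEllVal s (Pi.single top 1)) ^ (m - Z.card) *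
      (Z.map fun q : Mw17Pt T => mw17Sec T n (mw17stEllVal s (mw17Psi T n q))).prod)
      = (m - Z.card) * (n - 1) + Z.card * n := by
    rw [v27pOrd_mul (mul_ne_zero hcne hpowne) hprod0, v27pOrd_mul hcne hpowne,
      v27pOrd_algebraMap, mw17st_ord_pow hneinf, hordinf, hprodord, zero_add]
  have hsecne : mw17Sec T m u ≠ 0 := fun h => hu ((mw17st_sec_eq_zero_iff m u).mp h)
  have hGne : eval (fun p => algebraMap K (V27pB T) (s p))
      (mw17stEvB u (mw17stG T m n F)) ≠ 0 := by
    intro h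
    rw [h, mul_zero] at hG2
    exact hRHSne hG2.symm
  have hLHSord := v27pOrd_mul hsecne hGne
  rw [hG2, hRHSord, ← hcard] at hLHSord
  have hle : Z.card ≤ m := by
    rw [hcard]
    exact mw17st_ord_sec_le m u
  obtain ⟨n', rfl⟩ : ∃ n', n = n' + 1 := ⟨n - 1, by omega⟩
  rw [Nat.add_sub_cancel] at hLHSord
  have e1 : (m - Z.card) * n' + Z.card * (n' + 1) = Z.card + m * n' := by
    have h5 : m - Z.card + Z.card = m := Nat.sub_add_cancel hle
    calc (m - Z.card) * n' + Z.card * (n' + 1) = (m - Z.card + Z.card) * n' + Z.card := by ring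
      _ = Z.card + m * n' := by rw [h5]; ring
  have h3 : m * (n' + 1) - m = m * n' := by
    rw [Nat.mul_succ, Nat.add_sub_cancel]
  rw [h3]
  omega

end Inf


end Fermat.Agent.MW17
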