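import Fermat.Agent.MW17.Star.G3

/-!
# Program MW (S17), heights half (A), core leaf (★), §3.4 (G4): the coefficient family of `G`

Owner: helper24.  Namespace `Fermat.Agent.MW17`, prefix `mw17st` / `Mw17st`.

The coefficients of `G ∈ B[u, s]` lie in `L_{dn}` (`mw17stG_le`), hence are forms of degree `d` in
the monomial basis `φ` of `L_n` (projective normality, helper26's `mw17tb_exists_homogeneous`,
entering as a hypothesis).  This produces the family `p_β(u, y)` (`β` a monomial in `s`) which the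
LOC-2 leaf (helper26's `mw17tb_loc2`) consumes:
`p_β(u, φR) = coefficient of s^β in G(u; s)(R)`.
-/

set_option autoImplicit false

noncomputable section

namespace Fermat.Agent.MW17

open Fermat.Agent.V MvPolynomial

variable {K : Type*} [Field K] {δ : V27pShape}

section Exponents

variable {m n : ℕ}

/-- the `u`-part of an exponent of `B[u, s]` -/
def mw17stEU (e : Mw17Idx δ m ⊕ Mw17stS δ n →₀ ℕ) : Mw17Idx δ m →₀ ℕ :=
  e.comapDomain Sum.inl Sum.inl_injective.injOn

/-- the `s`-part of an exponent of `B[u, s]` -/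
def mw17stES (e : Mw17Idx δ m ⊕ Mw17stS δ n →₀ ℕ) : Mw17stS δ n →₀ ℕ :=
  e.comapDomain Sum.inr Sum.inr_injective.injOn

theorem mw17st_sumElim_EU_ES (e : Mw17Idx δ m ⊕ Mw17stS δ n →₀ ℕ) :
    (mw17stEU e).sumElim (mw17stES e) = e :=
  Finsupp.comapDomain_sumElim_comapDomain e

theorem mw17st_weight_WU (e : Mw17Idx δ m ⊕ Mw17stS δ n →₀ ℕ) :
    Finsupp.weight (mw17stWU m n) e = (mw17stEU e).sum fun _ k => k := by
  conv_lhs => rw [← mw17st_sumElim_EU_ES e]
  rw [Finsupp.weight_apply, Finsupp.sum_sumElim]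
  simp [mw17stWU, Finsupp.sum]

theorem mw17st_weight_WS (e : Mw17Idx δ m ⊕ Mw17stS δ n →₀ ℕ) :
    Finsupp.weight (mw17stWS m n) e = (mw17stES e).sum fun _ k => k := by
  conv_lhs => rw [← mw17st_sumElim_EU_ES e]
  rw [Finsupp.weight_apply, Finsupp.sum_sumElim]
  simp [mw17stWS, Finsupp.sum]

end Exponents

section Coeff

variable {T : V27pTable K δ} {m n : ℕ}

theorem mw17stEv_monomial (u : Mw17Idx δ m → K) (R : Mw17Pt T)
    (e : Mw17Idx δ m ⊕ Mw17stS δ n →₀ ℕ) (b : V27pB T) :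
    mw17stEv u R (monomial e b) =
      monomial (mw17stES e) (R b * (mw17stEU e).prod fun i k => u i ^ k) := by
  rw [mw17stEv, eval₂Hom_monomial]
  conv_lhs => rw [← mw17st_sumElim_EU_ES e]
  rw [Finsupp.prod_sumElim]
  simp only [Function.comp_def, Sum.elim_inl, Sum.elim_inr, RingHom.comp_apply]
  rw [monomial_eq, C_mul]
  have h1 : ((mw17stEU e).prod fun x k => (C (u x) : MvPolynomial (Mw17stS δ n) K) ^ k)
      = C ((mw17stEU e).prod fun i k => u i ^ k) := by
    rw [map_finsuppProd]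
    refine Finsupp.prod_congr fun i _ => ?_
    rw [map_pow]
  rw [h1, mul_assoc]
  rfl

open Classical in
theorem mw17st_coeff_Ev (u : Mw17Idx δ m → K) (R : Mw17Pt T)
    (G : Mw17stA T m n) (β : Mw17stS δ n →₀ ℕ) :
    coeff β (mw17stEv u R G) =
      ∑ e ∈ G.support.filter (fun e => mw17stES e = β),
        R (coeff e G) * (mw17stEU e).prod fun i k => u i ^ k := by
  conv_lhs => rw [G.as_sum, map_sum, coeff_sum]
  rw [Finset.sum_filter]
  refine Finset.sum_congr rfl fun e _ => ?_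
  rw [mw17stEv_monomial, coeff_monomial]

open Classical in
/-- the family `p_β(u, y)`, given a choice `P e` of forms representing the coefficients of `G` -/
def mw17stPb (G : Mw17stA T m n)
    (P : (Mw17Idx δ m ⊕ Mw17stS δ n →₀ ℕ) → MvPolynomial (Mw17Idx δ n) K)
    (β : Mw17stS δ n →₀ ℕ) : MvPolynomial (Mw17Idx δ m ⊕ Mw17Idx δ n) K :=
  ∑ e ∈ G.support.filter (fun e => mw17stES e = β),
    monomial ((mw17stEU e).mapDomain Sum.inl) 1 * rename Sum.inr (P e)

theorem mw17st_eval_Pb_term (u : Mw17Idx δ m → K) (y : Mw17Idx δ n → K)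
    (a : Mw17Idx δ m →₀ ℕ) (P : MvPolynomial (Mw17Idx δ n) K) :
    eval (Sum.elim u y) (monomial (a.mapDomain Sum.inl) 1 * rename Sum.inr P) =
      (a.prod fun i k => u i ^ k) * eval y P := by
  rw [map_mul, eval_monomial, one_mul, eval_rename,
    Finsupp.prod_mapDomain_index_inj Sum.inl_injective]
  rfl

theorem mw17st_eval_Pb (G : Mw17stA T m n)
    (P : (Mw17Idx δ m ⊕ Mw17stS δ n →₀ ℕ) → MvPolynomial (Mw17Idx δ n) K)
    (hP : ∀ e ∈ G.support, aeval (mw17Mon T (m := n)) (P e) = coeff e G)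
    (u : Mw17Idx δ m → K) (R : Mw17Pt T) (β : Mw17stS δ n →₀ ℕ) :
    eval (Sum.elim u (mw17Psi T n R)) (mw17stPb G P β) = coeff β (mw17stEv u R G) := by
  rw [mw17st_coeff_Ev, mw17stPb, map_sum]
  refine Finset.sum_congr rfl fun e he => ?_
  rw [mw17st_eval_Pb_term, mul_comm]
  congr 1
  rw [← hP e (Finset.mem_filter.mp he).1, comp_aeval_apply]
  rfl

theorem mw17stPb_hom (G : Mw17stA T m n)
    (P : (Mw17Idx δ m ⊕ Mw17stS δ n →₀ ℕ) → MvPolynomial (Mw17Idx δ n) K) {a d : ℕ}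
    (hGU : IsWeightedHomogeneous (mw17stWU m n) G a) (hPd : ∀ e, (P e).IsHomogeneous d)
    (β : Mw17stS δ n →₀ ℕ) :
    IsWeightedHomogeneous (mw17saBiw (Mw17Idx δ m) (Mw17Idx δ n)) (mw17stPb G P β) (a, d) := by
  unfold mw17stPb
  refine IsWeightedHomogeneous.sum _ _ _ fun e he => ?_
  have he' : coeff e G ≠ 0 := mem_support_iff.mp (Finset.mem_filter.mp he).1
  have h1 := mw17sa_biw_monomial_inl (ι₂ := Mw17Idx δ n) (mw17stEU e) (1 : K)
  rw [← mw17st_weight_WU, hGU he'] at h1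
  have h2 := mw17sa_biw_rename_inr (R := K) (ι₁ := Mw17Idx δ m) (hPd e)
  have := h1.mul h2
  simpa using this

end Coeff

section Top

variable {T : V27pTable K δ} {m n : ℕ}

/-- the value `G(u; s) ∈ B` -/
def mw17stVal (u : Mw17Idx δ m → K) (s : Mw17stS δ n → K) (G : Mw17stA T m n) : V27pB T :=
  eval (fun p => algebraMap K (V27pB T) (s p)) (mw17stEvB u G)

theorem mw17stVal_monomial (u : Mw17Idx δ m → K) (s : Mw17stS δ n → K)
    (e : Mw17Idx δ m ⊕ Mw17stS δ n →₀ ℕ) (b : V27pB T) :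
    mw17stVal u s (monomial e b) =
      (((mw17stEU e).prod fun i k => u i ^ k) * (mw17stES e).prod fun p k => s p ^ k) • b := by
  rw [mw17stVal, mw17stEvB, eval₂Hom_monomial]
  conv_lhs => rw [← mw17st_sumElim_EU_ES e]
  rw [Finsupp.prod_sumElim]
  simp only [Function.comp_def, Sum.elim_inl, Sum.elim_inr]
  rw [map_mul, map_mul, eval_C, Algebra.smul_def, map_mul, map_finsuppProd, map_finsuppProd,
    map_finsuppProd, map_finsuppProd]
  rw [mul_comm b]
  congr 1
  congr 1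
  · refine Finsupp.prod_congr fun i _ => ?_
    rw [map_pow, map_pow, eval_C]
  · refine Finsupp.prod_congr fun i _ => ?_
    rw [map_pow, map_pow, eval_X]

theorem mw17stVal_eq_sum (u : Mw17Idx δ m → K) (s : Mw17stS δ n → K) (G : Mw17stA T m n) :
    mw17stVal u s G = ∑ e ∈ G.support,
      (((mw17stEU e).prod fun i k => u i ^ k) * (mw17stES e).prod fun p k => s p ^ k) •
        coeff e G := by
  conv_lhs => rw [G.as_sum]
  unfold mw17stVal
  rw [map_sum, map_sum]
  refine Finset.sum_congr rfl fun e _ => ?_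
  exact mw17stVal_monomial u s e (coeff e G)

theorem mw17st_pow_le {b : V27pB T} {k : ℕ} (hb : V27pLe b k) (e : ℕ) : V27pLe (b ^ e) (e * k) := by
  induction e with
  | zero =>
    rw [pow_zero, Nat.zero_mul]
    exact Mw17stLe.one_le 0
  | succ e ih =>
    rw [pow_succ, Nat.succ_mul]
    exact ih.mul hb

theorem mw17st_finset_prod_mon_le (γ : Mw17Idx δ n →₀ ℕ) (s : Finset (Mw17Idx δ n)) :
    V27pLe (∏ i ∈ s, mw17Mon T i ^ γ i) (∑ i ∈ s, γ i * mw17Wt i) := by
  classical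
  induction s using Finset.induction_on with
  | empty =>
    rw [Finset.prod_empty, Finset.sum_empty]
    exact Mw17stLe.one_le 0
  | insert a s ha ih =>
    rw [Finset.prod_insert ha, Finset.sum_insert ha]
    exact (mw17st_pow_le (mw17st_mon_le a) (γ a)).mul ih

omit [Field K] in
theorem mw17st_exists_ne_top (top : Mw17Idx δ n) (γ : Mw17Idx δ n →₀ ℕ) {d : ℕ}
    (hd : (γ.sum fun _ k => k) = d) (hne : γ ≠ Finsupp.single top d) :
    ∃ i ∈ γ.support, i ≠ top := by
  classical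
  by_contra hcon
  push Not at hcon
  apply hne
  have hsup : γ.support ⊆ {top} := fun i hi => Finset.mem_singleton.mpr (hcon i hi)
  have h1 : γ = Finsupp.single top (γ top) := by
    ext j
    by_cases hj : j = top
    · subst hj; simp
    · rw [Finsupp.single_apply, if_neg (Ne.symm hj)]
      by_contra h0
      exact hj (Finset.mem_singleton.mp (hsup (Finsupp.mem_support_iff.mpr h0)))
  have h2 : γ top = d := by
    rw [← hd, Finsupp.sum, Finset.sum_subset hsup (fun j _ hj => Finsupp.notMem_support_iff.mp hj),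
      Finset.sum_singleton]
  rw [h1, h2]

/-- a monomial of degree `d` in the `mon_i` other than `mon_top ^ d` has pole order `< d n` -/
theorem mw17st_prod_mon_le_of_ne (top : Mw17Idx δ n) (htop : mw17Wt top = n)
    (γ : Mw17Idx δ n →₀ ℕ) {d : ℕ} (hd : (γ.sum fun _ k => k) = d)
    (hne : γ ≠ Finsupp.single top d) :
    V27pLe (γ.prod fun i k => mw17Mon T i ^ k) (d * n - 1) := by
  classical
  obtain ⟨i, hi, hit⟩ := mw17st_exists_ne_top top γ hd hne
  have hwi : mw17Wt i + 1 ≤ n := mw17st_wt_lt_of_ne top htop i hit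
  have hγi : 1 ≤ γ i := Nat.one_le_iff_ne_zero.mpr (Finsupp.mem_support_iff.mp hi)
  refine (mw17st_finset_prod_mon_le (T := T) γ γ.support).mono ?_
  have h3 : ∑ j ∈ γ.support, γ j * mw17Wt j + γ i ≤ ∑ j ∈ γ.support, γ j * n := by
    rw [← Finset.add_sum_erase _ _ hi, ← Finset.add_sum_erase _ (fun j => γ j * n) hi]
    have h4 : ∑ j ∈ γ.support.erase i, γ j * mw17Wt j ≤ ∑ j ∈ γ.support.erase i, γ j * n :=
      Finset.sum_le_sum fun j _ => Nat.mul_le_mul_left _ (mw17Wt_le j)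
    have h5 : γ i * mw17Wt i + γ i ≤ γ i * n := by
      calc γ i * mw17Wt i + γ i = γ i * (mw17Wt i + 1) := by ring
        _ ≤ γ i * n := Nat.mul_le_mul_left _ hwi
    omega
  have h6 : ∑ j ∈ γ.support, γ j * n = d * n := by
    rw [← Finset.sum_mul, ← hd]
    rfl
  omega

/-- **the top part of a form**: `P(mon) - P(e_top) · mon_top ^ d ∈ L_{dn-1}` for a form `P` of
degree `d` in the monomial basis of `L_n` -/
theorem mw17st_aeval_sub_top_le (top : Mw17Idx δ n) (htop : mw17Wt top = n) {d : ℕ}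
    (P : MvPolynomial (Mw17Idx δ n) K) (hP : P.IsHomogeneous d) :
    V27pLe (aeval (mw17Mon T (m := n)) P - eval (Pi.single top (1 : K)) P • mw17Mon T top ^ d)
      (d * n - 1) := by
  classical
  rw [aeval_def, eval₂_eq, eval_eq, Finset.sum_smul, ← Finset.sum_sub_distrib]
  have hmem : ∀ γ ∈ P.support,
      (algebraMap K (V27pB T) (coeff γ P) * ∏ i ∈ γ.support, mw17Mon T i ^ γ i
        - (coeff γ P * ∏ i ∈ γ.support, (Pi.single top (1 : K) : Mw17Idx δ n → K) i ^ γ i) •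
          mw17Mon T top ^ d) ∈ v27pL T (d * n - 1) := by
    intro γ hγ
    have hdeg : (γ.sum fun _ k => k) = d := by
      have := hP (mem_support_iff.mp hγ)
      rw [Finsupp.weight_apply] at this
      simpa [Finsupp.sum] using this
    by_cases hγt : γ = Finsupp.single top d
    · subst hγt
      have : (algebraMap K (V27pB T) (coeff (Finsupp.single top d) P) *
          ∏ i ∈ (Finsupp.single top d).support, mw17Mon T i ^ (Finsupp.single top d) i
          - (coeff (Finsupp.single top d) P *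
            ∏ i ∈ (Finsupp.single top d).support,
              (Pi.single top (1 : K) : Mw17Idx δ n → K) i ^ (Finsupp.single top d) i) •
            mw17Mon T top ^ d) = 0 := by
        by_cases hd0 : d = 0
        · subst hd0
          simp [Algebra.smul_def]
        · rw [Finsupp.support_single _ hd0, Finset.prod_singleton, Finset.prod_singleton,
            Finsupp.single_eq_same, Pi.single_eq_same, one_pow, mul_one, Algebra.smul_def, sub_self]
      rw [this]
      exact Submodule.zero_mem _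
    · obtain ⟨i, hi, hit⟩ := mw17st_exists_ne_top top γ hdeg hγt
      have hzero : ∏ j ∈ γ.support, (Pi.single top (1 : K) : Mw17Idx δ n → K) j ^ γ j = 0 := by
        refine Finset.prod_eq_zero hi ?_
        rw [Pi.single_eq_of_ne hit, zero_pow (Finsupp.mem_support_iff.mp hi)]
      rw [hzero, mul_zero, zero_smul, sub_zero, ← Algebra.smul_def]
      refine Submodule.smul_mem _ _ ?_
      exact mw17st_prod_mon_le_of_ne top htop γ hdeg hγt
  exact Submodule.sum_mem _ hmem

omit [Field K] in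
theorem mw17st_sum_smul_decomp {ι A R : Type*} [CommRing R] [AddCommGroup A] [Module R A]
    (S : Finset ι) (cf tf : ι → R) (c : ι → A) (M : A) :
    ∑ e ∈ S, cf e • c e =
      ∑ e ∈ S, cf e • (c e - tf e • M) + (∑ e ∈ S, cf e * tf e) • M := by
  rw [Finset.sum_smul, ← Finset.sum_add_distrib]
  refine Finset.sum_congr rfl fun e _ => ?_
  rw [smul_sub, mul_smul, sub_add_cancel]

open Classical in
/-- if all `p_β(u, e_top)` vanish then `G(u; s) ∈ L_{dn-1}` for every `s` -/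
theorem mw17st_val_le_of_Pb_top (G : Mw17stA T m n)
    (P : (Mw17Idx δ m ⊕ Mw17stS δ n →₀ ℕ) → MvPolynomial (Mw17Idx δ n) K) {d : ℕ}
    (hP : ∀ e ∈ G.support, aeval (mw17Mon T (m := n)) (P e) = coeff e G)
    (hPd : ∀ e, (P e).IsHomogeneous d) (top : Mw17Idx δ n) (htop : mw17Wt top = n)
    (u : Mw17Idx δ m → K)
    (h0 : ∀ β, eval (Sum.elim u (Pi.single top (1 : K))) (mw17stPb G P β) = 0)
    (s : Mw17stS δ n → K) : V27pLe (mw17stVal u s G) (d * n - 1) := by
  set M : V27pB T := mw17Mon T top ^ d with hM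
  set cf : (Mw17Idx δ m ⊕ Mw17stS δ n →₀ ℕ) → K := fun e =>
    ((mw17stEU e).prod fun i k => u i ^ k) * (mw17stES e).prod fun p k => s p ^ k with hcf
  set tf : (Mw17Idx δ m ⊕ Mw17stS δ n →₀ ℕ) → K := fun e =>
    eval (Pi.single top (1 : K)) (P e) with htf
  have hsum : ∑ e ∈ G.support, cf e * tf e = 0 := by
    rw [← Finset.sum_fiberwise_of_maps_to (g := mw17stES) (t := G.support.image mw17stES)
      (fun e he => Finset.mem_image_of_mem _ he)]
    refine Finset.sum_eq_zero fun β _ => ?_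
    have h1 := h0 β
    unfold mw17stPb at h1
    rw [map_sum] at h1
    simp only [mw17st_eval_Pb_term] at h1
    have h2 : ∑ e ∈ G.support.filter (fun e => mw17stES e = β), cf e * tf e
        = (β.prod fun p k => s p ^ k) *
          ∑ e ∈ G.support.filter (fun e => mw17stES e = β),
            ((mw17stEU e).prod fun i k => u i ^ k) * eval (Pi.single top (1 : K)) (P e) := by
      rw [Finset.mul_sum]
      refine Finset.sum_congr rfl fun e he => ?_
      rw [hcf, htf]
      simp only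
      rw [(Finset.mem_filter.mp he).2]
      ring
    rw [h2, h1, mul_zero]
  have hdecomp : mw17stVal u s G =
      ∑ e ∈ G.support, cf e • (coeff e G - tf e • M) + (∑ e ∈ G.support, cf e * tf e) • M := by
    rw [mw17stVal_eq_sum]
    exact mw17st_sum_smul_decomp G.support cf tf (fun e => coeff e G) M
  rw [hdecomp, hsum, zero_smul, add_zero]
  refine Submodule.sum_mem (v27pL T (d * n - 1)) fun e he => Submodule.smul_mem _ _ ?_
  rw [← hP e he]
  exact mw17st_aeval_sub_top_le top htop (P e) (hPd e)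

end Top

section Main

variable {T : V27pTable K δ} {m n : ℕ}

open Classical in
/-- **(G4)**: the coefficient family `(I, p)` of `G` in the shape the LOC-2 leaf and `Mw17GData`
consume.  `hPN` = projective normality (helper26's `mw17tb_exists_homogeneous`), `hfin`/`hinf` =
(G3), `hle` = (r1), `hGU` = homogeneity of `G` in `u`. -/
theorem mw17st_G4 (G : Mw17stA T m n) {a d : ℕ}
    (hPN : ∀ b : V27pB T, V27pLe b (d * n) →
      ∃ p : MvPolynomial (Mw17Idx δ n) K, p.IsHomogeneous d ∧ aeval (mw17Mon T (m := n)) p = b)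
    (hle : Mw17stLe G (d * n))
    (hGU : IsWeightedHomogeneous (mw17stWU m n) G a)
    (top : Mw17Idx δ n) (htop : mw17Wt top = n) (hdn : 0 < d * n)
    (hfin : ∀ u : Mw17Idx δ m → K, u ≠ 0 → ∀ R : Mw17Pt T, mw17stEv u R G ≠ 0)
    (hinf : ∀ u : Mw17Idx δ m → K, u ≠ 0 →
      ∃ s : Mw17stS δ n → K, v27pOrd (eval (fun p => algebraMap K (V27pB T) (s p))
        (mw17stEvB u G)) = d * n) :
    ∃ (I : Finset (Mw17stS δ n →₀ ℕ))
      (p : (Mw17stS δ n →₀ ℕ) → MvPolynomial (Mw17Idx δ m ⊕ Mw17Idx δ n) K),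
      (∀ β, IsWeightedHomogeneous (mw17saBiw (Mw17Idx δ m) (Mw17Idx δ n)) (p β) (a, d)) ∧
      (∀ β, β ∉ I → p β = 0) ∧
      (∀ (u : Mw17Idx δ m → K) (R : Mw17Pt T) (β : Mw17stS δ n →₀ ℕ),
        eval (Sum.elim u (mw17Psi T n R)) (p β) = coeff β (mw17stEv u R G)) ∧
      (∀ (u : Mw17Idx δ m → K) (R : Mw17Pt T),
        ∑ β ∈ I, monomial β (eval (Sum.elim u (mw17Psi T n R)) (p β)) = mw17stEv u R G) ∧
      (∀ u : Mw17Idx δ m → K, u ≠ 0 → ∀ R : Mw17Pt T,
        ∃ β ∈ I, eval (Sum.elim u (mw17Psi T n R)) (p β) ≠ 0) ∧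
      (∀ u : Mw17Idx δ m → K, u ≠ 0 →
        ∃ β ∈ I, eval (Sum.elim u (Pi.single top (1 : K))) (p β) ≠ 0) := by
  choose P hPd hP using fun e => hPN (coeff e G) (hle e)
  have hP' : ∀ e ∈ G.support, aeval (mw17Mon T (m := n)) (P e) = coeff e G := fun e _ => hP e
  have hout : ∀ β, β ∉ G.support.image mw17stES → mw17stPb G P β = 0 := by
    intro β hβ
    unfold mw17stPb
    refine Finset.sum_eq_zero fun e he => ?_
    exact absurd (Finset.mem_image.mpr ⟨e, (Finset.mem_filter.mp he).1, (Finset.mem_filter.mp he).2⟩)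
      hβ
  have heval := mw17st_eval_Pb G P hP'
  refine ⟨G.support.image mw17stES, mw17stPb G P, fun β => mw17stPb_hom G P hGU hPd β, hout,
    heval, ?_, ?_, ?_⟩
  · intro u R
    have hsub : (mw17stEv u R G).support ⊆ G.support.image mw17stES := by
      intro β hβ
      by_contra hβI
      have h1 := heval u R β
      rw [hout β hβI, map_zero] at h1
      exact (mem_support_iff.mp hβ) h1.symm
    rw [Finset.sum_congr rfl fun β _ => by rw [heval u R β]]
    conv_rhs => rw [(mw17stEv u R G).as_sum]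
    refine (Finset.sum_subset hsub fun β _ hβ => ?_).symm
    rw [notMem_support_iff.mp hβ, monomial_zero]
  · intro u hu R
    obtain ⟨β, hβ⟩ := ne_zero_iff.mp (hfin u hu R)
    have hne : eval (Sum.elim u (mw17Psi T n R)) (mw17stPb G P β) ≠ 0 := by
      rw [heval u R β]; exact hβ
    refine ⟨β, ?_, hne⟩
    by_contra hβI
    apply hne
    rw [hout β hβI, map_zero]
  · intro u hu
    by_contra hcon
    push Not at hcon
    have h0 : ∀ β, eval (Sum.elim u (Pi.single top (1 : K))) (mw17stPb G P β) = 0 := by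
      intro β
      by_cases hβ : β ∈ G.support.image mw17stES
      · exact hcon β hβ
      · rw [hout β hβ, map_zero]
    obtain ⟨s, hs⟩ := hinf u hu
    have hle' := mw17st_val_le_of_Pb_top G P hP' hPd top htop u h0 s
    have h2 : v27pOrd (mw17stVal u s G) ≤ d * n - 1 := mem_v27pL_iff_ord.mp hle'
    have h3 : v27pOrd (mw17stVal u s G) = d * n := hs
    omega

end Main

section Package

variable {T : V27pTable K δ} {n m₁ : ℕ}

/-- **(G4), packaged for the Plug**: all properties of `F` (the resultant polynomial) as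
hypotheses, level `m = n * m₁`; output = the fields `Nu`, `p`, `hp`, second half of `prod`
(through `mw17st_G2`), `nonvan` of helper16's `Mw17GData`. -/
theorem mw17st_G4_F [IsAlgClosed K] (hm₁ : 0 < m₁) (hn : 2 ≤ n)
    {F : MvPolynomial (Mw17Idx δ (n * m₁) ⊕ Mw17Idx δ n) K}
    (topm : Mw17Idx δ (n * m₁)) (htopm : mw17Wt topm = n * m₁)
    (top top' : Mw17Idx δ n) (htop : mw17Wt top = n) (htop' : mw17Wt top' = n - 1)
    (hPN : ∀ b : V27pB T, V27pLe b ((n * m₁ - m₁) * n) →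
      ∃ p : MvPolynomial (Mw17Idx δ n) K, p.IsHomogeneous (n * m₁ - m₁) ∧
        aeval (mw17Mon T (m := n)) p = b)
    (hvan : ∀ (u : Mw17Idx δ (n * m₁) → K) (t : Mw17Idx δ n → K) (q : Mw17Pt T),
      q (mw17Sec T (n * m₁) u) = 0 → q (mw17Sec T n t) = 0 → eval (Sum.elim u t) F = 0)
    (hFU : IsWeightedHomogeneous
      (Sum.elim (fun _ : Mw17Idx δ (n * m₁) => (1 : ℕ)) (fun _ : Mw17Idx δ n => (0 : ℕ))) F n)
    (hFS : IsWeightedHomogeneous
      (Sum.elim (fun _ : Mw17Idx δ (n * m₁) => (0 : ℕ)) (fun _ : Mw17Idx δ n => (1 : ℕ))) F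
        (n * m₁))
    (hU : ∀ u : Mw17Idx δ (n * m₁) → K, u ≠ 0 → ∃ (c : K) (Z : Multiset (Mw17Pt T)), c ≠ 0 ∧
      Z.card = v27pOrd (mw17Sec T (n * m₁) u) ∧
      (∀ q : Mw17Pt T, q (mw17Sec T (n * m₁) u) = 0 → q ∈ Z) ∧ Mw17stProdU F top u c Z)
    (hT : Mw17stProdT T (n * m₁) n F) (hgen : Mw17stGenPos T n) :
    ∃ (I : Finset (Mw17stS δ n →₀ ℕ))
      (p : (Mw17stS δ n →₀ ℕ) → MvPolynomial (Mw17Idx δ (n * m₁) ⊕ Mw17Idx δ n) K),
      (∀ β, IsWeightedHomogeneous (mw17saBiw (Mw17Idx δ (n * m₁)) (Mw17Idx δ n)) (p β)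
        (n - 1, n * m₁ - m₁)) ∧
      (∀ β, β ∉ I → p β = 0) ∧
      (∀ (u : Mw17Idx δ (n * m₁) → K) (R : Mw17Pt T) (β : Mw17stS δ n →₀ ℕ),
        eval (Sum.elim u (mw17Psi T n R)) (p β) =
          coeff β (mw17stEv u R (mw17stG T (n * m₁) n F))) ∧
      (∀ (u : Mw17Idx δ (n * m₁) → K) (R : Mw17Pt T),
        ∑ β ∈ I, monomial β (eval (Sum.elim u (mw17Psi T n R)) (p β)) =
          mw17stEv u R (mw17stG T (n * m₁) n F)) ∧
      (∀ u : Mw17Idx δ (n * m₁) → K, u ≠ 0 → ∀ R : Mw17Pt T,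
        ∃ β ∈ I, eval (Sum.elim u (mw17Psi T n R)) (p β) ≠ 0) ∧
      (∀ u : Mw17Idx δ (n * m₁) → K, u ≠ 0 →
        ∃ β ∈ I, eval (Sum.elim u (Pi.single top (1 : K))) (p β) ≠ 0) := by
  have : Infinite K := IsAlgClosed.instInfinite
  have hdiv := mw17st_H_eq (T := T) hvan
  have hn0 : 0 < n := by omega
  have hm : 0 < n * m₁ := Nat.mul_pos hn0 hm₁
  have hdeq : n * m₁ * n - n * m₁ = (n * m₁ - m₁) * n := by
    rw [Nat.sub_mul, Nat.mul_comm m₁ n]
  have hd1 : 0 < n * m₁ - m₁ := by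
    have : m₁ * 2 ≤ n * m₁ := by rw [Nat.mul_comm n m₁]; exact Nat.mul_le_mul_left _ hn
    omega
  have hle : Mw17stLe (mw17stG T (n * m₁) n F) ((n * m₁ - m₁) * n) := by
    rw [← hdeq]
    exact mw17stG_le hm topm htopm hdiv hFS
  have hGU := mw17stG_homU hn0 hdiv hFU
  refine mw17st_G4 (mw17stG T (n * m₁) n F) hPN hle hGU top htop (Nat.mul_pos hd1 hn0) ?_ ?_
  · intro u hu R
    obtain ⟨c, Z, _, _, hZ, _⟩ := hU u hu
    exact mw17st_G3_fin hdiv hT hgen u Z hZ R
  · intro u hu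
    obtain ⟨c, Z, hc, hcard, _, hP⟩ := hU u hu
    obtain ⟨s, hs⟩ := mw17st_G3_inf hn0 htop htop' hu hc hcard hdiv hP
    exact ⟨s, by rw [hs, hdeq]⟩

end Package

section Level

variable {T : V27pTable K δ} {n m₁ : ℕ}

theorem mw17st_level_eq (n m₁ : ℕ) : n * m₁ * n - n * m₁ = (n * m₁ - m₁) * n := by
  rw [Nat.sub_mul, Nat.mul_comm m₁ n]

theorem mw17st_level_pos (hm₁ : 0 < m₁) (hn : 2 ≤ n) : 0 < (n * m₁ - m₁) * n := by
  have h1 : m₁ * 2 ≤ n * m₁ := by rw [Nat.mul_comm n m₁]; exact Nat.mul_le_mul_left _ hn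
  exact Nat.mul_pos (by omega) (by omega)

/-- **(G4) at the level `m = n * m₁`**, inputs in the `m * n - m` form in which
`mw17stG_le` / `mw17st_G3_inf` (helper17's `mw17pu_G_le` / `mw17pu_G3_inf`) deliver them. -/
theorem mw17st_G4_level (hm₁ : 0 < m₁) (hn : 2 ≤ n) (G : Mw17stA T (n * m₁) n)
    (hPN : ∀ b : V27pB T, V27pLe b ((n * m₁ - m₁) * n) →
      ∃ p : MvPolynomial (Mw17Idx δ n) K, p.IsHomogeneous (n * m₁ - m₁) ∧
        aeval (mw17Mon T (m := n)) p = b)
    (hle : Mw17stLe G (n * m₁ * n - n * m₁))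
    (hGU : IsWeightedHomogeneous (mw17stWU (n * m₁) n) G (n - 1))
    (top : Mw17Idx δ n) (htop : mw17Wt top = n)
    (hfin : ∀ u : Mw17Idx δ (n * m₁) → K, u ≠ 0 → ∀ R : Mw17Pt T, mw17stEv u R G ≠ 0)
    (hinf : ∀ u : Mw17Idx δ (n * m₁) → K, u ≠ 0 →
      ∃ s : Mw17stS δ n → K, v27pOrd (eval (fun p => algebraMap K (V27pB T) (s p))
        (mw17stEvB u G)) = n * m₁ * n - n * m₁) :
    ∃ (I : Finset (Mw17stS δ n →₀ ℕ))
      (p : (Mw17stS δ n →₀ ℕ) → MvPolynomial (Mw17Idx δ (n * m₁) ⊕ Mw17Idx δ n) K),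
      (∀ β, IsWeightedHomogeneous (mw17saBiw (Mw17Idx δ (n * m₁)) (Mw17Idx δ n)) (p β)
        (n - 1, n * m₁ - m₁)) ∧
      (∀ β, β ∉ I → p β = 0) ∧
      (∀ (u : Mw17Idx δ (n * m₁) → K) (R : Mw17Pt T) (β : Mw17stS δ n →₀ ℕ),
        eval (Sum.elim u (mw17Psi T n R)) (p β) = coeff β (mw17stEv u R G)) ∧
      (∀ (u : Mw17Idx δ (n * m₁) → K) (R : Mw17Pt T),
        ∑ β ∈ I, monomial β (eval (Sum.elim u (mw17Psi T n R)) (p β)) = mw17stEv u R G) ∧
      (∀ u : Mw17Idx δ (n * m₁) → K, u ≠ 0 → ∀ R : Mw17Pt T,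
        ∃ β ∈ I, eval (Sum.elim u (mw17Psi T n R)) (p β) ≠ 0) ∧
      (∀ u : Mw17Idx δ (n * m₁) → K, u ≠ 0 →
        ∃ β ∈ I, eval (Sum.elim u (Pi.single top (1 : K))) (p β) ≠ 0) := by
  rw [mw17st_level_eq] at hle
  refine mw17st_G4 G hPN hle hGU top htop (mw17st_level_pos hm₁ hn) hfin ?_
  intro u hu
  obtain ⟨s, hs⟩ := hinf u hu
  exact ⟨s, by rw [hs, mw17st_level_eq]⟩

end Level

end Fermat.Agent.MW17
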