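import Fermat.Agent.HT.GelfondLoc

/-!
# (M) and (★-off): the analytic chain (blueprint S17-heights §5), abstract form

Pure inequalities between sup norms: NO curve, NO Nullstellensatz.  Inputs are

* `Fu u : MvPolynomial ι K` ("the Chow form `F(u, ·)` of the zero cycle of the section `u`") with
  two-sided bounds `htggSup w (Fu u) ≍ ‖u‖ ^ n`;
* `Gs u y : MvPolynomial (ι × ι) K` ("`G(u; s)(R)`, `y = φ R`") with two-sided bounds
  `htggSup w (Gs u y) ≍ ‖u‖ ^ (n - 1) * ‖y‖ ^ k`;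
* the specialised identity (G1): `C (ev u y) * Gs u y = aeval (mw17soTau y) (Fu u)`;
* a factorisation `Fu u = C a * ∏_{z ∈ Y} htggLin z` into `m = k + m₁` linear forms.

Outputs: **(M)** `‖u‖ ^ n ≍ |a| ∏ ‖z‖` and **(★-off)** `|ev u y| ≍ ‖u‖ ‖y‖ ^ m₁ ∏_{z ∈ Y} δ_w(z, y)`.
-/

namespace Fermat.Agent.MW17

open MvPolynomial Fermat.Agent.HT

variable {K : Type*} [Field K]

/-- The sup norm of `C a * f`. -/
theorem mw17so_sup_C_mul {σ : Type*} (v : AbsoluteValue K ℝ) (a : K) (f : MvPolynomial σ K) :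
    htggSup v (C a * f) = v a * htggSup v f := by
  unfold htggSup
  simp only [coeff_C_mul, map_mul]
  exact (Real.mul_iSup_of_nonneg (v.nonneg a) _).symm

section Tau

variable {ι : Type*} [Fintype ι]

/-- The coefficient vector `T^s_y` of the generic linear form vanishing at `y`
(`t_j = Σ_a y_a (s_{aj} − s_{ja})`, helper16's `tcoef`). -/
noncomputable def mw17soTau (y : ι → K) : ι → MvPolynomial (ι × ι) K :=
  fun j => ∑ a, C (y a) * (X (a, j) - X (j, a))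

/-- Substituting `t := T^s_y` in the linear form `⟨t, z⟩` gives `⟨s, y ∧ z⟩`. -/
theorem mw17so_aeval_tau_lin (y z : ι → K) :
    aeval (mw17soTau y) (htggLin z) = htggLin (htlWedge y z) := by
  classical
  unfold htggLin mw17soTau
  simp only [map_sum, map_mul, aeval_C, aeval_X, algebraMap_eq]
  rw [Fintype.sum_prod_type]
  simp only [htlWedge, Finset.mul_sum, C_sub, C_mul, sub_mul, mul_sub, Finset.sum_sub_distrib]
  have h1 : ∑ j, ∑ a, C (z j) * (C (y a) * X (a, j)) =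
      ∑ a, ∑ j, (C (y a) * C (z j) * X (a, j) : MvPolynomial (ι × ι) K) := by
    rw [Finset.sum_comm]
    exact Finset.sum_congr rfl fun a _ => Finset.sum_congr rfl fun j _ => by ring
  have h2 : ∑ j, ∑ a, C (z j) * (C (y a) * X (j, a)) =
      ∑ a, ∑ j, (C (y j) * C (z a) * X (a, j) : MvPolynomial (ι × ι) K) :=
    Finset.sum_congr rfl fun a _ => Finset.sum_congr rfl fun j _ => by ring
  rw [h1, h2]

theorem mw17so_aeval_tau_prod (y : ι → K) (a : K) (Y : Multiset (ι → K)) :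
    aeval (mw17soTau y) (C a * (Y.map htggLin).prod) =
      C a * (Y.map fun z => htggLin (htlWedge y z)).prod := by
  rw [map_mul, aeval_C, algebraMap_eq, map_multiset_prod, Multiset.map_map]
  congr 2
  exact Multiset.map_congr rfl fun z _ => mw17so_aeval_tau_lin y z

end Tau

section Dist

variable {ι : Type*} [Finite ι]

/-- Product of chordal distances, without division. -/
theorem mw17so_prod_dist (w : AbsoluteValue K ℝ) {y : ι → K} (hy : y ≠ 0) (Y : Multiset (ι → K))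
    (hY : ∀ z ∈ Y, z ≠ 0) :
    (Y.map fun z => htlDist w z y).prod *
        ((Y.map fun z => htlSup w z).prod * htlSup w y ^ Multiset.card Y) =
      (Y.map fun z => htlSup w (htlWedge y z)).prod := by
  induction Y using Multiset.induction_on with
  | empty => simp
  | cons z Y ih =>
    have hz : z ≠ 0 := hY z (Multiset.mem_cons_self z Y)
    have ih' := ih fun z' hz' => hY z' (Multiset.mem_cons_of_mem hz')
    simp only [Multiset.map_cons, Multiset.prod_cons, Multiset.card_cons, pow_succ]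
    rw [← ih', ← htlDist_mul w hy hz, htlDist_comm w z y]
    ring

end Dist

section Chain

/-- The real-number chain behind (★-off). -/
theorem mw17so_chain {U Φ A Py V Gn S PW Dd c₁ c₂ c₃ : ℝ} {n k m₁ m : ℕ} (hn : 1 ≤ n)
    (hm : m = k + m₁) (hU : 0 < U) (hΦ : 0 < Φ) (hPy : 0 < Py) (hA : 0 ≤ A)
    (hV : 0 ≤ V) (hPW : 0 ≤ PW) (hc₁ : 0 ≤ c₁) (hc₂ : 0 ≤ c₂) (hc₃ : 0 ≤ c₃)
    (e1 : V * Gn = A * S) (hD : Dd * (Py * Φ ^ m) = PW)
    (g1 : PW ≤ c₁ * S) (g2 : S ≤ c₁ * PW)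
    (gn1 : Gn ≤ c₂ * (U ^ (n - 1) * Φ ^ k)) (gn2 : U ^ (n - 1) * Φ ^ k ≤ c₂ * Gn)
    (m1 : U ^ n ≤ c₃ * (A * Py)) (m2 : A * Py ≤ c₃ * U ^ n) :
    V ≤ (c₁ * c₂ * c₃) * (U * Φ ^ m₁ * Dd) ∧ U * Φ ^ m₁ * Dd ≤ (c₁ * c₂ * c₃) * V := by
  have hUn : U ^ n = U ^ (n - 1) * U := by
    rw [← pow_succ]; congr 1; omega
  have hΦm : Φ ^ m = Φ ^ k * Φ ^ m₁ := by rw [hm, pow_add]
  have hQ : 0 < U ^ (n - 1) * Φ ^ k * Py := mul_pos (mul_pos (pow_pos hU _) (pow_pos hΦ _)) hPy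
  constructor
  · refine le_of_mul_le_mul_right ?_ hQ
    calc V * (U ^ (n - 1) * Φ ^ k * Py)
        = (V * (U ^ (n - 1) * Φ ^ k)) * Py := by ring
      _ ≤ (V * (c₂ * Gn)) * Py := by
          refine mul_le_mul_of_nonneg_right (mul_le_mul_of_nonneg_left gn2 hV) hPy.le
      _ = c₂ * (A * S) * Py := by rw [← e1]; ring
      _ ≤ c₂ * (A * (c₁ * PW)) * Py := by
          refine mul_le_mul_of_nonneg_right ?_ hPy.le
          exact mul_le_mul_of_nonneg_left (mul_le_mul_of_nonneg_left g2 hA) hc₂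
      _ = c₁ * c₂ * PW * (A * Py) := by ring
      _ ≤ c₁ * c₂ * PW * (c₃ * U ^ n) :=
          mul_le_mul_of_nonneg_left m2 (mul_nonneg (mul_nonneg hc₁ hc₂) hPW)
      _ = c₁ * c₂ * c₃ * (U * Φ ^ m₁ * Dd) * (U ^ (n - 1) * Φ ^ k * Py) := by
          rw [← hD, hUn, hΦm]; ring
  · refine le_of_mul_le_mul_right ?_ hQ
    calc U * Φ ^ m₁ * Dd * (U ^ (n - 1) * Φ ^ k * Py)
        = U ^ n * PW := by rw [← hD, hUn, hΦm]; ring
      _ ≤ c₃ * (A * Py) * PW := mul_le_mul_of_nonneg_right m1 hPW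
      _ ≤ c₃ * (A * Py) * (c₁ * S) :=
          mul_le_mul_of_nonneg_left g1 (mul_nonneg hc₃ (mul_nonneg hA hPy.le))
      _ = c₁ * c₃ * Py * (V * Gn) := by rw [e1]; ring
      _ ≤ c₁ * c₃ * Py * (V * (c₂ * (U ^ (n - 1) * Φ ^ k))) := by
          refine mul_le_mul_of_nonneg_left (mul_le_mul_of_nonneg_left gn1 hV) ?_
          exact mul_nonneg (mul_nonneg hc₁ hc₃) hPy.le
      _ = c₁ * c₂ * c₃ * V * (U ^ (n - 1) * Φ ^ k * Py) := by ring

end Chain

section Main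

variable {ιu ι : Type*} [Fintype ιu] [Fintype ι]

/-- **(M), abstract analytic form**: if `htggSup w (Fu u) ≍ ‖u‖ ^ n` then for every factorisation
`Fu u = C a * ∏_{z ∈ Y} htggLin z` into at most `D` linear forms, `‖u‖ ^ n ≍ |a| ∏ ‖z‖`. -/
theorem mw17so_M {n : ℕ} (D : ℕ) (Fu : (ιu → K) → MvPolynomial ι K) (CF : HtConst K)
    (hFU : ∀ (w : HtAbs K) (u : ιu → K), htggSup w.1 (Fu u) ≤ CF.val w.1 * htlSup w.1 u ^ n)
    (hFL : ∀ (w : HtAbs K) (u : ιu → K), u ≠ 0 →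
      htlSup w.1 u ^ n ≤ CF.val w.1 * htggSup w.1 (Fu u)) :
    ∃ C : HtConst K, ∀ (w : HtAbs K) (u : ιu → K), u ≠ 0 → ∀ (a : K) (Y : Multiset (ι → K)),
      Multiset.card Y ≤ D → Fu u = MvPolynomial.C a * (Y.map htggLin).prod →
      htlSup w.1 u ^ n ≤ C.val w.1 * (w.1 a * (Y.map fun z => htlSup w.1 z).prod) ∧
      w.1 a * (Y.map fun z => htlSup w.1 z).prod ≤ C.val w.1 * htlSup w.1 u ^ n := by
  obtain ⟨CG, hCG⟩ := htgg_chow_loc_multiset ι K D
  refine ⟨CF.mul CG, fun w u hu a Y hY hfac => ?_⟩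
  obtain ⟨g1, g2⟩ := hCG w Y hY (fun z => z)
  have hsup : htggSup w.1 (Fu u) = w.1 a * htggSup w.1 (Y.map htggLin).prod := by
    rw [hfac, mw17so_sup_C_mul]
  have hmul := htl_val_mul_le CF CG w.1
  have hCF := htl_val_nonneg CF w.1
  have hCGn := htl_val_nonneg CG w.1
  have ha := w.1.nonneg a
  have hP : 0 ≤ (Y.map fun z => htlSup w.1 z).prod :=
    Multiset.prod_nonneg fun x hx => by
      obtain ⟨z, -, rfl⟩ := Multiset.mem_map.mp hx
      exact htlSup_nonneg _ _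
  have hS := htggSup_nonneg w.1 (Y.map htggLin).prod
  have hUn : 0 ≤ htlSup w.1 u ^ n := pow_nonneg (htlSup_nonneg _ _) _
  constructor
  · calc htlSup w.1 u ^ n ≤ CF.val w.1 * htggSup w.1 (Fu u) := hFL w u hu
      _ = CF.val w.1 * (w.1 a * htggSup w.1 (Y.map htggLin).prod) := by rw [hsup]
      _ ≤ CF.val w.1 * (w.1 a * (CG.val w.1 * (Y.map fun z => htlSup w.1 z).prod)) :=
          mul_le_mul_of_nonneg_left (mul_le_mul_of_nonneg_left g2 ha) hCF
      _ = (CF.val w.1 * CG.val w.1) * (w.1 a * (Y.map fun z => htlSup w.1 z).prod) := by ring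
      _ ≤ _ := mul_le_mul_of_nonneg_right hmul (mul_nonneg ha hP)
  · calc w.1 a * (Y.map fun z => htlSup w.1 z).prod
        ≤ w.1 a * (CG.val w.1 * htggSup w.1 (Y.map htggLin).prod) :=
          mul_le_mul_of_nonneg_left g1 ha
      _ = CG.val w.1 * htggSup w.1 (Fu u) := by rw [hsup]; ring
      _ ≤ CG.val w.1 * (CF.val w.1 * htlSup w.1 u ^ n) :=
          mul_le_mul_of_nonneg_left (hFU w u) hCGn
      _ = (CF.val w.1 * CG.val w.1) * htlSup w.1 u ^ n := by ring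
      _ ≤ _ := mul_le_mul_of_nonneg_right hmul hUn

/-- **(★-off), pointwise core**: one absolute value, one section `u`, one point with coordinate
vector `yR`; the identity (G12) `C ev * Gs = C a * ∏_{z ∈ Y} ⟨s, yR ∧ z⟩` is given directly. -/
theorem mw17so_off_point {n k m₁ m : ℕ} (hn : 1 ≤ n) (hm : m = k + m₁)
    (CW CG CM : HtConst K) (w : HtAbs K)
    (hCW : ∀ (Y : Multiset (ι → K)), Multiset.card Y ≤ m → ∀ a : (ι → K) → ι × ι → K,
      (Y.map fun z => ⨆ i, w.1 (a z i)).prod ≤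
          CW.val w.1 * htggSup w.1 (Y.map fun z => htggLin (a z)).prod ∧
      htggSup w.1 (Y.map fun z => htggLin (a z)).prod ≤
          CW.val w.1 * (Y.map fun z => ⨆ i, w.1 (a z i)).prod)
    {u : ιu → K} (hu : u ≠ 0) {yR : ι → K} (hyR : yR ≠ 0) (ev : K)
    (Gs : MvPolynomial (ι × ι) K) (a : K) (Y : Multiset (ι → K)) (hYc : Multiset.card Y = m)
    (hY0 : ∀ z ∈ Y, z ≠ 0)
    (hG12 : C ev * Gs = C a * (Y.map fun z => htggLin (htlWedge yR z)).prod)
    (hGU : htggSup w.1 Gs ≤ CG.val w.1 * (htlSup w.1 u ^ (n - 1) * htlSup w.1 yR ^ k))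
    (hGL : htlSup w.1 u ^ (n - 1) * htlSup w.1 yR ^ k ≤ CG.val w.1 * htggSup w.1 Gs)
    (m1 : htlSup w.1 u ^ n ≤ CM.val w.1 * (w.1 a * (Y.map fun z => htlSup w.1 z).prod))
    (m2 : w.1 a * (Y.map fun z => htlSup w.1 z).prod ≤ CM.val w.1 * htlSup w.1 u ^ n) :
    w.1 ev ≤ ((CW.mul CG).mul CM).val w.1 *
        (htlSup w.1 u * htlSup w.1 yR ^ m₁ * (Y.map fun z => htlDist w.1 z yR).prod) ∧
    htlSup w.1 u * htlSup w.1 yR ^ m₁ * (Y.map fun z => htlDist w.1 z yR).prod ≤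
        ((CW.mul CG).mul CM).val w.1 * w.1 ev := by
  obtain ⟨g1, g2⟩ := hCW Y hYc.le (fun z => htlWedge yR z)
  have e1 : w.1 ev * htggSup w.1 Gs =
      w.1 a * htggSup w.1 (Y.map fun z => htggLin (htlWedge yR z)).prod := by
    rw [← mw17so_sup_C_mul, hG12, mw17so_sup_C_mul]
  have hD := mw17so_prod_dist w.1 hyR Y hY0
  rw [hYc] at hD
  have hU : 0 < htlSup w.1 u := htlSup_pos_iff.2 hu
  have hΦ : 0 < htlSup w.1 yR := htlSup_pos_iff.2 hyR
  have hPy : 0 < (Y.map fun z => htlSup w.1 z).prod :=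
    Multiset.prod_pos fun x hx => by
      obtain ⟨z, hz, rfl⟩ := Multiset.mem_map.mp hx
      exact htlSup_pos_iff.2 (hY0 z hz)
  have hPW : 0 ≤ (Y.map fun z => htlSup w.1 (htlWedge yR z)).prod :=
    Multiset.prod_nonneg fun x hx => by
      obtain ⟨z, -, rfl⟩ := Multiset.mem_map.mp hx
      exact htlSup_nonneg _ _
  have hchain := mw17so_chain (U := htlSup w.1 u) (Φ := htlSup w.1 yR) (A := w.1 a)
    (Py := (Y.map fun z => htlSup w.1 z).prod) (V := w.1 ev)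
    (Gn := htggSup w.1 Gs)
    (S := htggSup w.1 (Y.map fun z => htggLin (htlWedge yR z)).prod)
    (PW := (Y.map fun z => htlSup w.1 (htlWedge yR z)).prod)
    (Dd := (Y.map fun z => htlDist w.1 z yR).prod)
    (c₁ := CW.val w.1) (c₂ := CG.val w.1) (c₃ := CM.val w.1) hn hm hU hΦ hPy (w.1.nonneg _)
    (w.1.nonneg _) hPW (htl_val_nonneg _ _) (htl_val_nonneg _ _) (htl_val_nonneg _ _) e1 hD
    g1 g2 hGU hGL m1 m2
  have hval : CW.val w.1 * CG.val w.1 * CM.val w.1 ≤ ((CW.mul CG).mul CM).val w.1 :=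
    (mul_le_mul_of_nonneg_right (htl_val_mul_le CW CG w.1) (htl_val_nonneg _ _)).trans
      (htl_val_mul_le _ _ _)
  have hDd : 0 ≤ (Y.map fun z => htlDist w.1 z yR).prod :=
    Multiset.prod_nonneg fun x hx => by
      obtain ⟨z, -, rfl⟩ := Multiset.mem_map.mp hx
      exact htlDist_nonneg _ _ _
  constructor
  · refine hchain.1.trans (mul_le_mul_of_nonneg_right hval ?_)
    exact mul_nonneg (mul_nonneg hU.le (pow_nonneg hΦ.le _)) hDd
  · exact hchain.2.trans (mul_le_mul_of_nonneg_right hval (w.1.nonneg _))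

/-- **(★-off), abstract analytic form.**  `Pt` = the points, `y R = φ R` their coordinate vectors,
`ev u R` the value of the section `u` at `R`. -/
theorem mw17so_off {n k m₁ m : ℕ} (hn : 1 ≤ n) (hm : m = k + m₁) {Pt : Type*}
    (y : Pt → ι → K) (hy : ∀ R, y R ≠ 0) (ev : (ιu → K) → Pt → K)
    (Fu : (ιu → K) → MvPolynomial ι K) (Gs : (ιu → K) → Pt → MvPolynomial (ι × ι) K)
    (CF CG : HtConst K)
    (hFU : ∀ (w : HtAbs K) (u : ιu → K), htggSup w.1 (Fu u) ≤ CF.val w.1 * htlSup w.1 u ^ n)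
    (hFL : ∀ (w : HtAbs K) (u : ιu → K), u ≠ 0 →
      htlSup w.1 u ^ n ≤ CF.val w.1 * htggSup w.1 (Fu u))
    (hGU : ∀ (w : HtAbs K) (u : ιu → K) (R : Pt),
      htggSup w.1 (Gs u R) ≤ CG.val w.1 * (htlSup w.1 u ^ (n - 1) * htlSup w.1 (y R) ^ k))
    (hGL : ∀ (w : HtAbs K) (u : ιu → K) (R : Pt), u ≠ 0 →
      htlSup w.1 u ^ (n - 1) * htlSup w.1 (y R) ^ k ≤ CG.val w.1 * htggSup w.1 (Gs u R))
    (hG1 : ∀ (u : ιu → K) (R : Pt), C (ev u R) * Gs u R = aeval (mw17soTau (y R)) (Fu u)) :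
    ∃ C : HtConst K, ∀ (w : HtAbs K) (u : ιu → K), u ≠ 0 → ∀ (a : K) (Y : Multiset (ι → K)),
      Multiset.card Y = m → (∀ z ∈ Y, z ≠ 0) → Fu u = MvPolynomial.C a * (Y.map htggLin).prod → ∀ R : Pt,
      w.1 (ev u R) ≤ C.val w.1 *
          (htlSup w.1 u * htlSup w.1 (y R) ^ m₁ * (Y.map fun z => htlDist w.1 z (y R)).prod) ∧
      htlSup w.1 u * htlSup w.1 (y R) ^ m₁ * (Y.map fun z => htlDist w.1 z (y R)).prod ≤
        C.val w.1 * w.1 (ev u R) := by
  obtain ⟨CM, hCM⟩ := mw17so_M m Fu CF hFU hFL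
  obtain ⟨CW, hCW⟩ := htgg_chow_loc_multiset (ι × ι) K m
  refine ⟨(CW.mul CG).mul CM, fun w u hu a Y hYc hY0 hfac R => ?_⟩
  obtain ⟨m1, m2⟩ := hCM w u hu a Y hYc.le hfac
  obtain ⟨g1, g2⟩ := hCW w Y hYc.le (fun z => htlWedge (y R) z)
  -- the identity of Gauss norms
  have e1 : w.1 (ev u R) * htggSup w.1 (Gs u R) =
      w.1 a * htggSup w.1 (Y.map fun z => htggLin (htlWedge (y R) z)).prod := by
    rw [← mw17so_sup_C_mul, hG1 u R, hfac, mw17so_aeval_tau_prod, mw17so_sup_C_mul]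
  have hD := mw17so_prod_dist w.1 (hy R) Y hY0
  rw [hYc] at hD
  have hU : 0 < htlSup w.1 u := htlSup_pos_iff.2 hu
  have hΦ : 0 < htlSup w.1 (y R) := htlSup_pos_iff.2 (hy R)
  have hPy : 0 < (Y.map fun z => htlSup w.1 z).prod :=
    Multiset.prod_pos fun x hx => by
      obtain ⟨z, hz, rfl⟩ := Multiset.mem_map.mp hx
      exact htlSup_pos_iff.2 (hY0 z hz)
  have hPW : 0 ≤ (Y.map fun z => htlSup w.1 (htlWedge (y R) z)).prod :=
    Multiset.prod_nonneg fun x hx => by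
      obtain ⟨z, -, rfl⟩ := Multiset.mem_map.mp hx
      exact htlSup_nonneg _ _
  have hchain := mw17so_chain (U := htlSup w.1 u) (Φ := htlSup w.1 (y R)) (A := w.1 a)
    (Py := (Y.map fun z => htlSup w.1 z).prod) (V := w.1 (ev u R))
    (Gn := htggSup w.1 (Gs u R))
    (S := htggSup w.1 (Y.map fun z => htggLin (htlWedge (y R) z)).prod)
    (PW := (Y.map fun z => htlSup w.1 (htlWedge (y R) z)).prod)
    (Dd := (Y.map fun z => htlDist w.1 z (y R)).prod)
    (c₁ := CW.val w.1) (c₂ := CG.val w.1) (c₃ := CM.val w.1) hn hm hU hΦ hPy (w.1.nonneg _)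
    (w.1.nonneg _) hPW (htl_val_nonneg _ _) (htl_val_nonneg _ _) (htl_val_nonneg _ _) e1 hD
    g1 g2 (hGU w u R) (hGL w u R hu) m1 m2
  have hval : CW.val w.1 * CG.val w.1 * CM.val w.1 ≤ ((CW.mul CG).mul CM).val w.1 :=
    (mul_le_mul_of_nonneg_right (htl_val_mul_le CW CG w.1) (htl_val_nonneg _ _)).trans
      (htl_val_mul_le _ _ _)
  have hDd : 0 ≤ (Y.map fun z => htlDist w.1 z (y R)).prod :=
    Multiset.prod_nonneg fun x hx => by
      obtain ⟨z, -, rfl⟩ := Multiset.mem_map.mp hx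
      exact htlDist_nonneg _ _ _
  constructor
  · refine hchain.1.trans (mul_le_mul_of_nonneg_right hval ?_)
    exact mul_nonneg (mul_nonneg hU.le (pow_nonneg hΦ.le _)) hDd
  · exact hchain.2.trans (mul_le_mul_of_nonneg_right hval (w.1.nonneg _))

end Main

end Fermat.Agent.MW17
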