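import Fermat.Agent.HT.ConeLoc
import Fermat.Agent.MW17.Star.OffChain

/-!
# (M) and (★-off): the two-sided Gauss-norm bounds `hFU/hFL`, `hGU/hGL` (blueprint S17-heights §5)

* `mw17so_proj_ge` : forms of degree `N` without common zero on `K^ι ∖ 0` (`K` alg. closed) satisfy
  `‖x‖ ^ N ≤ C(w) max_j |p_j(x)|` (projective Nullstellensatz, `I = ⊥`).
* `mw17so_F_bounds` : `htggSup w (F(u, ·)) ≍ ‖u‖ ^ n` for a polynomial in `t` whose coefficients are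
  forms `c ν` of degree `n` in `u` without common zero.
* `mw17so_G_bounds` : `htggSup w (G(u; ·)(R)) ≍ ‖u‖ ^ N₁ ‖φ R‖ ^ N₂` (LOC-2).
* `mw17so_main` : (M) and (★-off) from the algebraic package.
-/

namespace Fermat.Agent.MW17

open MvPolynomial Fermat.Agent.HT

variable {K : Type*} [Field K]

section Proj

variable [IsAlgClosed K] {ι ι' : Type*} [Fintype ι] [Fintype ι']

/-- **Projective Nullstellensatz, local lower bound**: forms `p j` of degree `N` without common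
zero outside the origin satisfy `‖x‖_w ^ N ≤ C(w) * max_j |p j (x)|_w`. -/
theorem mw17so_proj_ge {N : ℕ} (p : ι' → MvPolynomial ι K) (hp : ∀ j, (p j).IsHomogeneous N)
    (hz : ∀ x : ι → K, (∀ j, eval x (p j) = 0) → x = 0) :
    ∃ Cc : HtConst K, ∀ (w : AbsoluteValue K ℝ) (x : ι → K), x ≠ 0 →
      (⨆ i, w (x i)) ^ N ≤ Cc.val w * ⨆ j, w (eval x (p j)) := by
  obtain ⟨M, q, hq, hcert⟩ := htns_exists_certificate (K := K) (⊥ : Ideal (MvPolynomial ι K))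
    (fun f hf n => by
      rw [Ideal.mem_bot] at hf
      rw [hf, map_zero]
      exact Ideal.zero_mem _) p hp
    (fun x _ hx => hz x fun j => by simpa [aeval_eq_eval] using hx j)
  obtain ⟨Cc, hC⟩ := htlb_ge_single q hq N
  refine ⟨Cc, fun w x hx => hC w x (fun j => eval x (p j)) hx fun i => ?_⟩
  have := htns_aeval_certificate (L := K) (⊥ : Ideal (MvPolynomial ι K)) hcert x
    (fun f hf => by rw [Ideal.mem_bot] at hf; rw [hf, map_zero]) i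
  simpa only [aeval_eq_eval, coe_eval₂Hom] using this

end Proj

section FBounds

variable [IsAlgClosed K] {ιu νF : Type*} [Fintype ιu] [Fintype νF]

/-- **`hFU`/`hFL`**: the Gauss norm in `t` of `F(u, ·) = Σ_ν c_ν(u) t^{e ν}` is `≍ ‖u‖ ^ n`. -/
theorem mw17so_F_bounds {n : ℕ} (c : νF → MvPolynomial ιu K) (hc : ∀ ν, (c ν).IsHomogeneous n)
    {ι : Type*} (eF : νF → (ι →₀ ℕ)) (heF : Function.Injective eF)
    (hz : ∀ u : ιu → K, (∀ ν, eval u (c ν) = 0) → u = 0) :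
    ∃ CF : HtConst K,
      (∀ (w : HtAbs K) (u : ιu → K),
        htggSup w.1 (∑ ν, monomial (eF ν) (eval u (c ν))) ≤ CF.val w.1 * htlSup w.1 u ^ n) ∧
      (∀ (w : HtAbs K) (u : ιu → K), u ≠ 0 →
        htlSup w.1 u ^ n ≤ CF.val w.1 * htggSup w.1 (∑ ν, monomial (eF ν) (eval u (c ν)))) := by
  obtain ⟨C₁, h₁⟩ := htlb_eval_le_single c hc
  obtain ⟨C₂, h₂⟩ := mw17so_proj_ge c hc hz
  refine ⟨C₁.mul C₂, fun w u => ?_, fun w u hu => ?_⟩
  · rw [htggSup_sum_monomial w.1 eF heF]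
    have h0 : 0 ≤ htlSup w.1 u ^ n := pow_nonneg (htlSup_nonneg _ _) _
    refine Real.iSup_le (fun ν => (h₁ w.1 u ν).trans ?_)
      (mul_nonneg (htl_val_nonneg _ _) h0)
    exact mul_le_mul_of_nonneg_right (htl_val_le_mul_left C₁ C₂ w.1) h0
  · rw [htggSup_sum_monomial w.1 eF heF]
    refine (h₂ w.1 u hu).trans (mul_le_mul_of_nonneg_right (htl_val_le_mul_right C₁ C₂ w.1) ?_)
    exact Real.iSup_nonneg fun ν => w.1.nonneg _

end FBounds

section GBounds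

variable [IsAlgClosed K] {ιu ι νG : Type*} [Fintype ιu] [Fintype ι] [Fintype νG] [DecidableEq ι]
  {B : Type*} [CommRing B] [Algebra K B]

/-- **`hGU`/`hGL`** (LOC-2): the Gauss norm in `s` of `G(u; ·)(χ) = Σ_ν p_ν(u, φ χ) s^{e ν}` is
`≍ ‖u‖ ^ N₁ * ‖φ χ‖ ^ N₂`. -/
theorem mw17so_G_bounds (φ : ι → B) (hgen : Algebra.adjoin K (Set.range φ) = ⊤) (i₀ top : ι)
    (h0 : φ i₀ = 1)
    (hpow : ∀ l, l ≠ top → ∃ n : ℕ, 0 < n ∧ ∃ p : MvPolynomial ι K, p.IsHomogeneous (n - 1) ∧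
      aeval φ p = φ l ^ n)
    {N₁ N₂ : ℕ} (p : νG → MvPolynomial (ιu ⊕ ι) K) (hp : ∀ ν, HtlbBihom (p ν) N₁ N₂)
    {σ : Type*} (eG : νG → (σ →₀ ℕ)) (heG : Function.Injective eG)
    (haff : ∀ u : ιu → K, u ≠ 0 → ∀ χ : B →ₐ[K] K, ∃ ν,
      eval (Sum.elim u (fun l => χ (φ l))) (p ν) ≠ 0)
    (hinf : ∀ u : ιu → K, u ≠ 0 → ∃ ν, eval (Sum.elim u (Pi.single top (1 : K))) (p ν) ≠ 0) :
    ∃ CG : HtConst K,
      (∀ (w : HtAbs K) (u : ιu → K) (χ : B →ₐ[K] K),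
        htggSup w.1 (∑ ν, monomial (eG ν) (eval (Sum.elim u (fun l => χ (φ l))) (p ν))) ≤
          CG.val w.1 * (htlSup w.1 u ^ N₁ * htlSup w.1 (fun l => χ (φ l)) ^ N₂)) ∧
      (∀ (w : HtAbs K) (u : ιu → K) (χ : B →ₐ[K] K), u ≠ 0 →
        htlSup w.1 u ^ N₁ * htlSup w.1 (fun l => χ (φ l)) ^ N₂ ≤
          CG.val w.1 *
            htggSup w.1 (∑ ν, monomial (eG ν) (eval (Sum.elim u (fun l => χ (φ l))) (p ν)))) := by
  obtain ⟨C₁, h₁⟩ := htlb_eval_le p hp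
  obtain ⟨C₂, h₂⟩ := htcn_loc2_top φ hgen i₀ top h0 hpow p
    (fun ν => htlb_weighted_of_bihom (hp ν)) haff hinf
  refine ⟨C₁.mul C₂, fun w u χ => ?_, fun w u χ hu => ?_⟩
  · rw [htggSup_sum_monomial w.1 eG heG]
    have h0' : 0 ≤ htlSup w.1 u ^ N₁ * htlSup w.1 (fun l => χ (φ l)) ^ N₂ :=
      mul_nonneg (pow_nonneg (htlSup_nonneg _ _) _) (pow_nonneg (htlSup_nonneg _ _) _)
    refine Real.iSup_le (fun ν => (h₁ w.1 u _ ν).trans ?_)
      (mul_nonneg (htl_val_nonneg _ _) h0')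
    exact mul_le_mul_of_nonneg_right (htl_val_le_mul_left C₁ C₂ w.1) h0'
  · rw [htggSup_sum_monomial w.1 eG heG]
    refine (h₂ w.1 u χ hu).trans (mul_le_mul_of_nonneg_right (htl_val_le_mul_right C₁ C₂ w.1) ?_)
    exact Real.iSup_nonneg fun ν => w.1.nonneg _

end GBounds

section Main

variable [IsAlgClosed K] {ιu ι νF νG : Type*} [Fintype ιu] [Fintype ι] [Fintype νF] [Fintype νG]
  [DecidableEq ι] {B : Type*} [CommRing B] [Algebra K B]

/-- **(M) and (★-off) from the algebraic package** (abstract form: `B` any commutative `K`-algebra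
generated by `φ`, points = `K`-algebra homomorphisms `χ : B →ₐ[K] K`, sections `Σ u_i ψ_i`).

* `c, eF` : `F(u, t) = Σ_ν c_ν(u) t^{eF ν}`, `c_ν` forms of degree `n` without common zero;
* `p, eG` : `G(u; s)(χ) = Σ_ν p_ν(u, φ χ) s^{eG ν}`, `p_ν` bihomogeneous of bidegree `(n - 1, k)`
  without base point ((G3));
* `hG1`   : `(Σ u_i χ(ψ_i)) · G(u; s)(χ) = F(u, T^s_χ)`  ((G1) specialised). -/
theorem mw17so_main {n k m₁ : ℕ} (hn : 1 ≤ n)
    (c : νF → MvPolynomial ιu K) (hc : ∀ ν, (c ν).IsHomogeneous n)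
    (eF : νF → (ι →₀ ℕ)) (heF : Function.Injective eF)
    (hz : ∀ u : ιu → K, (∀ ν, eval u (c ν) = 0) → u = 0)
    (φ : ι → B) (hgen : Algebra.adjoin K (Set.range φ) = ⊤) (i₀ top : ι) (h0 : φ i₀ = 1)
    (hpow : ∀ l, l ≠ top → ∃ n : ℕ, 0 < n ∧ ∃ p : MvPolynomial ι K, p.IsHomogeneous (n - 1) ∧
      aeval φ p = φ l ^ n)
    (ψ : ιu → B)
    (p : νG → MvPolynomial (ιu ⊕ ι) K) (hp : ∀ ν, HtlbBihom (p ν) (n - 1) k)
    (eG : νG → (ι × ι →₀ ℕ)) (heG : Function.Injective eG)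
    (haff : ∀ u : ιu → K, u ≠ 0 → ∀ χ : B →ₐ[K] K, ∃ ν,
      eval (Sum.elim u (fun l => χ (φ l))) (p ν) ≠ 0)
    (hinf : ∀ u : ιu → K, u ≠ 0 → ∃ ν, eval (Sum.elim u (Pi.single top (1 : K))) (p ν) ≠ 0)
    (hG1 : ∀ (u : ιu → K) (χ : B →ₐ[K] K),
      C (∑ i, u i * χ (ψ i)) *
          ∑ ν, monomial (eG ν) (eval (Sum.elim u (fun l => χ (φ l))) (p ν)) =
        aeval (mw17soTau (fun l => χ (φ l))) (∑ ν, monomial (eF ν) (eval u (c ν)))) :
    (∃ CM : HtConst K, ∀ (w : HtAbs K) (u : ιu → K), u ≠ 0 → ∀ (a : K) (Y : Multiset (ι → K)),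
      Multiset.card Y ≤ k + m₁ →
      (∑ ν, monomial (eF ν) (eval u (c ν))) = MvPolynomial.C a * (Y.map htggLin).prod →
      htlSup w.1 u ^ n ≤ CM.val w.1 * (w.1 a * (Y.map fun z => htlSup w.1 z).prod) ∧
      w.1 a * (Y.map fun z => htlSup w.1 z).prod ≤ CM.val w.1 * htlSup w.1 u ^ n) ∧
    (∃ Cs : HtConst K, ∀ (w : HtAbs K) (u : ιu → K), u ≠ 0 → ∀ (a : K) (Y : Multiset (ι → K)),
      Multiset.card Y = k + m₁ → (∀ z ∈ Y, z ≠ 0) →
      (∑ ν, monomial (eF ν) (eval u (c ν))) = MvPolynomial.C a * (Y.map htggLin).prod →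
      ∀ χ : B →ₐ[K] K,
      w.1 (∑ i, u i * χ (ψ i)) ≤ Cs.val w.1 *
          (htlSup w.1 u * htlSup w.1 (fun l => χ (φ l)) ^ m₁ *
            (Y.map fun z => htlDist w.1 z (fun l => χ (φ l))).prod) ∧
      htlSup w.1 u * htlSup w.1 (fun l => χ (φ l)) ^ m₁ *
          (Y.map fun z => htlDist w.1 z (fun l => χ (φ l))).prod ≤
        Cs.val w.1 * w.1 (∑ i, u i * χ (ψ i))) := by
  obtain ⟨CF, hFU, hFL⟩ := mw17so_F_bounds c hc eF heF hz
  obtain ⟨CG, hGU, hGL⟩ := mw17so_G_bounds φ hgen i₀ top h0 hpow p hp eG heG haff hinf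
  have hy : ∀ χ : B →ₐ[K] K, (fun l => χ (φ l)) ≠ 0 := by
    intro χ h
    have := congrFun h i₀
    simp [h0] at this
  exact ⟨mw17so_M (k + m₁) (fun u => ∑ ν, monomial (eF ν) (eval u (c ν))) CF hFU hFL,
    mw17so_off hn rfl (fun χ : B →ₐ[K] K => fun l => χ (φ l)) hy
      (fun u χ => ∑ i, u i * χ (ψ i)) (fun u => ∑ ν, monomial (eF ν) (eval u (c ν)))
      (fun u χ => ∑ ν, monomial (eG ν) (eval (Sum.elim u (fun l => χ (φ l))) (p ν)))
      CF CG hFU hFL hGU hGL hG1⟩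

end Main

end Fermat.Agent.MW17
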