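import Fermat.Agent.MW17.Spec
import Fermat.Agent.MW17.Star.OffBounds
import Fermat.Agent.MW17.Star.Extract

/-!
# Program MW (S17), heights half (A): (M) with the constant of (G-DATA)

`mw17st_MLocF : Mw17GData T n t m₁ → (every u ≠ 0 has a zero multiset) → Mw17MLocF T n t m₁ D.F`.

Gauss norm in `y` of `F(u, ·)`: `≍ |c| ∏ ‖φq‖` by Gelfond (product of `m` linear forms), and
`≍ ‖u‖ ^ n` (upper: trivial; lower: projective Nullstellensatz for the coefficient forms, which
have no common zero because `F(u, ·) ≠ 0` for `u ≠ 0`).  Spare of helper13's `MW17/Star/M.lean`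
(written by helper6 on top of `OffChain`/`OffBounds`/`Extract`); prefix `mw17st_M`.
-/

set_option autoImplicit false

noncomputable section

namespace Fermat.Agent.MW17

open Fermat.Agent.V Fermat.Agent.HT MvPolynomial

variable {K : Type*} [Field K] {δ : V27pShape} (T : V27pTable K δ)

/-- the polynomial form of (R-prod): `F(u, ·) = C c * ∏_{z ∈ Y} ⟨·, z⟩` with
`Y = (m - |Z|) · e_t + {φq : q ∈ Z}`. -/
theorem mw17st_M_poly [Infinite K] {n : ℕ} (t : Mw17Idx δ n) {m₁ : ℕ}
    (F : MvPolynomial (Mw17Idx δ (n * m₁) ⊕ Mw17Idx δ n) K)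
    (u : Mw17Idx δ (n * m₁) → K) (Z : Multiset (Mw17Pt T)) (c : K)
    (h : ∀ y : Mw17Idx δ n → K, eval (Sum.elim u y) F =
      c * y t ^ (n * m₁ - Z.card) *
        (Z.map fun q : Mw17Pt T => ∑ j, y j * mw17Psi T n q j).prod) :
    mw17exEval u F = C c *
      ((Multiset.replicate (n * m₁ - Z.card) (Pi.single t (1 : K)) +
        Z.map (fun q : Mw17Pt T => mw17Psi T n q)).map htggLin).prod := by
  classical
  refine MvPolynomial.funext fun y => ?_
  rw [mw17ex_eval_eval, h y, map_mul, eval_C, Multiset.map_add, Multiset.prod_add,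
    Multiset.map_replicate, Multiset.prod_replicate, Multiset.map_map, map_mul, map_pow,
    map_multiset_prod, Multiset.map_map, htggLin_eval, mul_assoc]
  congr 2
  · simp [Pi.single_apply]
  · refine congrArg Multiset.prod (Multiset.map_congr rfl fun q _ => ?_)
    simp only [Function.comp_apply, htggLin_eval]
    exact Finset.sum_congr rfl fun j _ => mul_comm _ _

variable [IsAlgClosed K]

/-- **(M) with the constant of (G-DATA)** (`Mw17MLocF`). -/
theorem mw17st_MLocF {n : ℕ} {t : Mw17Idx δ n} {m₁ : ℕ} (D : Mw17GData T n t m₁)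
    (hz : ∀ u : Mw17Idx δ (n * m₁) → K, u ≠ 0 →
      ∃ Z : Multiset (Mw17Pt T), Mw17IsZeros T (mw17Sec T (n * m₁) u) Z) :
    Mw17MLocF T n t m₁ D.F := by
  classical
  -- degree `n` in `u`
  have hbi : HtlbBihom D.F n (n * m₁) := htlb_bihom_of_weighted D.hF
  have hc : ∀ μ : mw17exIdx D.F, (mw17exCoeff D.F μ.1).IsHomogeneous n := fun μ =>
    mw17ex_coeff_isHomogeneous D.F (fun m hm => (hbi m hm).1) μ.1
  -- nonzero linear forms
  have hlin : ∀ y : Mw17Idx δ n → K, y ≠ 0 → htggLin y ≠ 0 := fun y hy h =>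
    hy ((htggLin_eq_zero_iff y).mp h)
  -- no common zero
  have hzero : ∀ u : Mw17Idx δ (n * m₁) → K,
      (∀ μ : mw17exIdx D.F, eval u (mw17exCoeff D.F μ.1) = 0) → u = 0 := by
    intro u hu0
    by_contra hu
    obtain ⟨Z, hZ⟩ := hz u hu
    obtain ⟨c, hc0, hR, -⟩ := D.prod u hu Z hZ
    have hpoly := mw17st_M_poly T t D.F u Z c hR
    rw [(mw17ex_eval_eq_zero_iff D.F u).mpr hu0] at hpoly
    have hne : C c * ((Multiset.replicate (n * m₁ - Z.card) (Pi.single t (1 : K)) +
        Z.map (fun q : Mw17Pt T => mw17Psi T n q)).map htggLin).prod ≠ 0 := by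
      refine mul_ne_zero (by simpa using hc0) (Multiset.prod_ne_zero ?_)
      intro h0
      obtain ⟨y, hy, hy0⟩ := Multiset.mem_map.mp h0
      rw [Multiset.mem_add] at hy
      rcases hy with hy | hy
      · rw [Multiset.eq_of_mem_replicate hy] at hy0
        refine hlin _ ?_ hy0
        intro h
        have := congrFun h t
        simp at this
      · obtain ⟨q, -, rfl⟩ := Multiset.mem_map.mp hy
        exact hlin _ (mw17Psi_ne_zero T n q) hy0
    exact hne hpoly.symm
  obtain ⟨CF, hFU, hFL⟩ := mw17so_F_bounds (fun μ : mw17exIdx D.F => mw17exCoeff D.F μ.1) hc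
    (fun μ : mw17exIdx D.F => μ.1) Subtype.val_injective hzero
  have hFu : ∀ u : Mw17Idx δ (n * m₁) → K,
      (∑ μ : mw17exIdx D.F, monomial μ.1 (eval u (mw17exCoeff D.F μ.1))) = mw17exEval u D.F :=
    fun u => (mw17ex_eval_eq D.F u).symm
  obtain ⟨CM, hCM⟩ := mw17so_M (n * m₁) (fun u => mw17exEval u D.F) CF
    (fun w u => by rw [← hFu]; exact hFU w u) (fun w u hu => by rw [← hFu]; exact hFL w u hu)
  refine ⟨CM, fun u hu Z c hZc hc0 hR w => ?_⟩
  have hYc : Multiset.card (Multiset.replicate (n * m₁ - Z.card) (Pi.single t (1 : K)) +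
      Z.map (fun q : Mw17Pt T => mw17Psi T n q)) ≤ n * m₁ := by
    rw [Multiset.card_add, Multiset.card_replicate, Multiset.card_map]
    omega
  have := hCM w u hu c _ hYc (mw17st_M_poly T t D.F u Z c hR)
  have hprod : ((Multiset.replicate (n * m₁ - Z.card) (Pi.single t (1 : K)) +
      Z.map (fun q : Mw17Pt T => mw17Psi T n q)).map fun z => htlSup w.1 z).prod =
      (Z.map fun P : Mw17Pt T => htlSup w.1 (mw17Psi T n P)).prod := by
    rw [Multiset.map_add, Multiset.prod_add, Multiset.map_replicate, Multiset.prod_replicate,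
      Multiset.map_map]
    have h1 : htlSup w.1 (Pi.single t (1 : K)) = 1 := by
      refine le_antisymm (htlSup_le zero_le_one fun i => ?_) ?_
      · by_cases h : i = t
        · subst h; simp
        · simp [Pi.single_eq_of_ne h]
      · have := htl_le_sup w.1 (Pi.single t (1 : K)) t
        simpa using this
    rw [h1, one_pow, one_mul]
    rfl
  rw [hprod] at this
  exact this

/-- **(M)** in the existential form of the Spec (`Mw17MLoc`). -/
theorem mw17st_MLoc {n : ℕ} {t : Mw17Idx δ n} {m₁ : ℕ} (D : Mw17GData T n t m₁)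
    (hle : ∀ u : Mw17Idx δ (n * m₁) → K, v27pOrd (mw17Sec T (n * m₁) u) ≤ n * m₁)
    (hz : ∀ u : Mw17Idx δ (n * m₁) → K, u ≠ 0 →
      ∃ Z : Multiset (Mw17Pt T), Mw17IsZeros T (mw17Sec T (n * m₁) u) Z) :
    Mw17MLoc T n m₁ := by
  obtain ⟨C, hC⟩ := mw17st_MLocF T D hz
  refine ⟨C, fun u hu Z hZ => ?_⟩
  obtain ⟨c, hc0, hR, -⟩ := D.prod u hu Z hZ
  exact ⟨c, hc0, fun w => hC u hu Z c (by rw [hZ.1]; exact hle u) hc0 hR w⟩

end Fermat.Agent.MW17
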