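import Fermat.Agent.MW17.Star.Off
import Fermat.Agent.MW17.Star.MOff

/-!
# Program MW (S17), heights half (A): (M) and (★-off) from (G-DATA) alone

`mw17st_main : Mw17GData T n t m₁ → (every u ≠ 0 has a zero multiset) →
  Mw17MLocF T n t m₁ D.F ∧ Mw17MLoc T n m₁ ∧ Mw17StarOff T n t m₁`.
-/

set_option autoImplicit false

namespace Fermat.Agent.MW17

open Fermat.Agent.V Fermat.Agent.HT

variable {K : Type*} [Field K] [IsAlgClosed K] {δ : V27pShape} (T : V27pTable K δ)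

/-- **(M) and (★-off), both two-sided, from the algebraic core alone.** -/
theorem mw17st_main {n : ℕ} (hN : δ.N ≤ n) (hn : 2 * δ.bound ≤ n) (hn1 : 1 ≤ n)
    (t : Mw17Idx δ n) (ht : mw17Wt t = n) {m₁ : ℕ} (D : Mw17GData T n t m₁)
    (hz : ∀ u : Mw17Idx δ (n * m₁) → K, u ≠ 0 →
      ∃ Z : Multiset (Mw17Pt T), Mw17IsZeros T (mw17Sec T (n * m₁) u) Z) :
    Mw17MLocF T n t m₁ D.F ∧ Mw17MLoc T n m₁ ∧ Mw17StarOff T n t m₁ :=
  ⟨mw17st_MLocF T D hz,
    mw17st_MLoc T D (fun u => mw17so_ord_sec_le T _ u) hz,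
    mw17st_off' T hN hn hn1 t ht D (mw17st_MLocF T D hz)⟩

end Fermat.Agent.MW17
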