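import Fermat.Agent.MW17.Star.TanInst
import Fermat.Agent.MW17.Star.OffMain
import Fermat.Agent.MW17.P0Loc
import Fermat.Agent.MW17.InstZeros

/-!
# Program MW (S17), heights half, §5: the LOCAL WIRING THEOREM

Owner: helper5.  Namespace `Fermat.Agent.MW17`, prefix `mw17sl`.

All four local interface statements of helper16's `MW17/Spec.lean` at the canonical top index
`mw17tbTop δ n`, from the single algebraic input `D : Mw17GData T n (mw17tbTop δ n) m₁`:

* (★-off) `Mw17StarOff`  : helper6's `mw17st_off` (`MW17/Star/Off.lean`);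
* (★-tan) `Mw17StarTan`  : helper5's `mw17st_tan_inst` (`MW17/Star/TanInst.lean`);
* (M)     `Mw17MLoc`     : helper6's `mw17st_MLoc` (`MW17/Star/MOff.lean`);
* (P0)    `Mw17P0Loc`    : helper28's `mw17pz_main_top` (`MW17/P0Loc.lean`);

zero multisets: helper4's `mw17in_exists_zeros` (`MW17/InstZeros.lean`).
-/

set_option autoImplicit false

noncomputable section

namespace Fermat.Agent.MW17

open Fermat.Agent.HT Fermat.Agent.V

variable {K : Type*} [Field K] [IsAlgClosed K] {δ : V27pShape} (T : V27pTable K δ)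
  [IsDedekindDomain (V27pB T)] {n : ℕ} {m₁ : ℕ}

/-- every nonzero section has a zero multiset -/
theorem mw17sl_hz (m : ℕ) (u : Mw17Idx δ m → K) (hu : u ≠ 0) :
    ∃ Z : Multiset (Mw17Pt T), Mw17IsZeros T (mw17Sec T m u) Z :=
  mw17in_exists_zeros T (fun h => hu ((mw17in_sec_eq_zero_iff T m u).1 h))

/-- **local wiring, with (M) for the constant of `D` as an input** (architect's literal). -/
theorem mw17sl_main (hn : δ.N + 2 * δ.bound + 1 ≤ n) (D : Mw17GData T n (mw17tbTop δ n) m₁)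
    (hM : Mw17MLocF T n (mw17tbTop δ n) m₁ D.F) :
    Mw17StarOff T n (mw17tbTop δ n) m₁ ∧ Mw17StarTan T n (mw17tbTop δ n) m₁ ∧
      Mw17MLoc T n m₁ ∧ Mw17P0Loc T n (mw17tbTop δ n) := by
  have hb : δ.bound ≤ n := by omega
  refine ⟨mw17st_off T (by omega) (by omega) (by omega) D hM,
    mw17st_tan_inst T (by omega) (mw17tbTop δ n) (mw17tbTop_wt hb) D hM, ?_,
    mw17pz_main_top T (by omega)⟩
  obtain ⟨C, hC⟩ := hM
  refine ⟨C, fun u hu Z hZ => ?_⟩
  obtain ⟨c, hc0, hR, -⟩ := D.prod u hu Z hZ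
  refine ⟨c, hc0, fun w => hC u hu Z c ?_ hc0 hR w⟩
  rw [hZ.1]
  exact mw17tn_ord_sec_le T (n * m₁) u

/-- **local wiring from `D` alone**: (M) for the constant of `D` is helper6's `mw17st_MLocF`. -/
theorem mw17sl_main' (hn : δ.N + 2 * δ.bound + 1 ≤ n) (D : Mw17GData T n (mw17tbTop δ n) m₁) :
    Mw17StarOff T n (mw17tbTop δ n) m₁ ∧ Mw17StarTan T n (mw17tbTop δ n) m₁ ∧
      Mw17MLoc T n m₁ ∧ Mw17P0Loc T n (mw17tbTop δ n) :=
  mw17sl_main T hn D (mw17st_MLocF T D (mw17sl_hz T (n * m₁)))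

/-- the same for ANY top index `t` -/
theorem mw17sl_main_top (hn : δ.N + 2 * δ.bound + 1 ≤ n) (t : Mw17Idx δ n)
    (ht : mw17Wt t = n) (D : Mw17GData T n t m₁) :
    Mw17StarOff T n t m₁ ∧ Mw17StarTan T n t m₁ ∧ Mw17MLoc T n m₁ ∧ Mw17P0Loc T n t := by
  have hb : δ.bound ≤ n := by omega
  have htop : t = mw17tbTop δ n :=
    mw17tb_wt_injective (ht.trans (mw17tbTop_wt hb).symm)
  subst htop
  exact mw17sl_main' T hn D

end Fermat.Agent.MW17
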