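import Fermat.Agent.MW17.Spec
import Fermat.Agent.MW17.Loc2
import Fermat.Agent.MW17.Star.OffChain

/-!
# Program MW (S17), heights half (A): (★-off), two-sided (blueprint S17-heights §5)

`mw17st_off : Mw17GData T n t m₁ → Mw17MLocF T n t m₁ D.F → Mw17StarOff T n t m₁`
(`t` the top index of `Mw17Idx δ n`, `n ≥ max(δ.N, 2 δ.bound, 1)`).

Proof: Gauss norms in `s` of both sides of (G12); Gelfond (`htgg_chow_loc_multiset`) on the right;
on the left `max_ν |p_ν(u, φR)| ≍ ‖u‖^{n-1} ‖φR‖^{m-m₁}` (upper: `htlb_eval_le`, lower: LOC-2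
`mw17tb_loc2` with (G3) = `D.nonvan`); divide by (M).  Owner: helper6.  Prefix `mw17st`.
-/

set_option autoImplicit false

noncomputable section

namespace Fermat.Agent.MW17

open Fermat.Agent.V Fermat.Agent.HT MvPolynomial

variable {K : Type*} [Field K] {δ : V27pShape} (T : V27pTable K δ)

/-- `mw17LinForm` (Spec) and `htggLin` (HT/GelfondLin) are the same polynomial. -/
theorem mw17st_linForm_eq {σ : Type*} [Fintype σ] (a : σ → K) : mw17LinForm a = htggLin a := rfl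

/-- the sup norm of `e_t` is `1` -/
theorem mw17st_sup_single {ι : Type*} [Finite ι] [DecidableEq ι] (w : AbsoluteValue K ℝ) (t : ι) :
    htlSup w (Pi.single t (1 : K)) = 1 := by
  refine le_antisymm (htlSup_le zero_le_one fun i => ?_) ?_
  · by_cases h : i = t
    · subst h; simp
    · simp [Pi.single_eq_of_ne h]
  · have := htl_le_sup w (Pi.single t (1 : K)) t
    simpa using this

theorem mw17so_ord_sec_le (m : ℕ) (u : Mw17Idx δ m → K) : v27pOrd (mw17Sec T m u) ≤ m :=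
  (v27pOrd_le_iff _ _).mpr (mw17tb_sec_le T m u)

variable [IsAlgClosed K]

/-- **(GN)**: the Gauss norm in `s` of `G(u; ·)(φR)` is `≍ ‖u‖ ^ (n - 1) * ‖φR‖ ^ (m - m₁)`. -/
theorem mw17st_GN {n : ℕ} (hN : δ.N ≤ n) (hn : 2 * δ.bound ≤ n) {m₁ : ℕ}
    (D : Mw17GData T n (mw17tbTop δ n) m₁) :
    ∃ CG : HtConst K,
      (∀ (w : HtAbs K) (u : Mw17Idx δ (n * m₁) → K) (R : Mw17Pt T),
        htggSup w.1 (∑ ν ∈ D.Nu, monomial ν (eval (Sum.elim u (mw17Psi T n R)) (D.p ν))) ≤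
          CG.val w.1 *
            (htlSup w.1 u ^ (n - 1) * htlSup w.1 (mw17Psi T n R) ^ (n * m₁ - m₁))) ∧
      (∀ (w : HtAbs K) (u : Mw17Idx δ (n * m₁) → K) (R : Mw17Pt T), u ≠ 0 →
        htlSup w.1 u ^ (n - 1) * htlSup w.1 (mw17Psi T n R) ^ (n * m₁ - m₁) ≤
          CG.val w.1 *
            htggSup w.1 (∑ ν ∈ D.Nu, monomial ν
              (eval (Sum.elim u (mw17Psi T n R)) (D.p ν)))) := by
  classical
  -- the family indexed by the subtype `D.Nu`
  set p' : D.Nu → MvPolynomial (Mw17Idx δ (n * m₁) ⊕ Mw17Idx δ n) K := fun ν => D.p ν.1 with hp'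
  have hbi : ∀ ν : D.Nu, IsWeightedHomogeneous
      (htnsBiw (Mw17Idx δ (n * m₁)) (Mw17Idx δ n)) (p' ν) (n - 1, n * m₁ - m₁) :=
    fun ν => D.hp ν.1 ν.2
  have hsum : ∀ (u : Mw17Idx δ (n * m₁) → K) (y : Mw17Idx δ n → K),
      (∑ ν ∈ D.Nu, monomial ν (eval (Sum.elim u y) (D.p ν))) =
        ∑ ν : D.Nu, monomial ν.1 (eval (Sum.elim u y) (p' ν)) :=
    fun u y => (Finset.sum_coe_sort D.Nu fun ν => monomial ν (eval (Sum.elim u y) (D.p ν))).symm
  obtain ⟨C₁, h₁⟩ := htlb_eval_le p' (fun ν => htlb_bihom_of_weighted (hbi ν))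
  obtain ⟨C₂, h₂⟩ := mw17tb_loc2 T hN hn p' hbi
    (fun u hu q => by
      obtain ⟨ν, hν, h⟩ := D.nonvan u hu (some q)
      exact ⟨⟨ν, hν⟩, by simpa using h⟩)
    (fun u hu => by
      obtain ⟨ν, hν, h⟩ := D.nonvan u hu none
      exact ⟨⟨ν, hν⟩, by simpa using h⟩)
  refine ⟨C₁.mul C₂, fun w u R => ?_, fun w u R hu => ?_⟩
  · rw [hsum, htggSup_sum_monomial w.1 (fun ν : D.Nu => ν.1) Subtype.val_injective]
    have h0' : 0 ≤ htlSup w.1 u ^ (n - 1) * htlSup w.1 (mw17Psi T n R) ^ (n * m₁ - m₁) :=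
      mul_nonneg (pow_nonneg (htlSup_nonneg _ _) _) (pow_nonneg (htlSup_nonneg _ _) _)
    refine Real.iSup_le (fun ν => (h₁ w.1 u _ ν).trans ?_) (mul_nonneg (htl_val_nonneg _ _) h0')
    exact mul_le_mul_of_nonneg_right (htl_val_le_mul_left C₁ C₂ w.1) h0'
  · rw [hsum, htggSup_sum_monomial w.1 (fun ν : D.Nu => ν.1) Subtype.val_injective]
    refine (h₂ w.1 u R hu).trans (mul_le_mul_of_nonneg_right (htl_val_le_mul_right C₁ C₂ w.1) ?_)
    exact Real.iSup_nonneg fun ν => w.1.nonneg _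

/-- **(★-off), two-sided.** -/
theorem mw17st_off {n : ℕ} (hN : δ.N ≤ n) (hn : 2 * δ.bound ≤ n) (hn1 : 1 ≤ n) {m₁ : ℕ}
    (D : Mw17GData T n (mw17tbTop δ n) m₁) (hM : Mw17MLocF T n (mw17tbTop δ n) m₁ D.F) :
    Mw17StarOff T n (mw17tbTop δ n) m₁ := by
  classical
  obtain ⟨CG, hGU, hGL⟩ := mw17st_GN T hN hn D
  obtain ⟨CM, hCM⟩ := hM
  obtain ⟨CW, hCW⟩ := htgg_chow_loc_multiset (Mw17Idx δ n × Mw17Idx δ n) K (n * m₁)
  refine ⟨(CW.mul CG).mul CM, fun w u hu Z hZ R => ?_⟩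
  have hZc : Z.card ≤ n * m₁ := by
    rw [hZ.1]; exact mw17so_ord_sec_le T _ u
  obtain ⟨c, hc, hRprod, hG12⟩ := D.prod u hu Z hZ
  obtain ⟨m1, m2⟩ := hCM u hu Z c hZc hc hRprod w
  -- the multiset of `m` vectors
  set Y : Multiset (Mw17Idx δ n → K) :=
    Multiset.replicate (n * m₁ - Z.card) (Pi.single (mw17tbTop δ n) (1 : K)) +
      Z.map (fun q : Mw17Pt T => mw17Psi T n q) with hY
  have hYc : Multiset.card Y = n * m₁ := by
    rw [hY, Multiset.card_add, Multiset.card_replicate, Multiset.card_map]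
    omega
  have hY0 : ∀ z ∈ Y, z ≠ 0 := by
    intro z hz
    rw [hY, Multiset.mem_add] at hz
    rcases hz with hz | hz
    · rw [Multiset.eq_of_mem_replicate hz]
      intro h
      have := congrFun h (mw17tbTop δ n)
      simp at this
    · obtain ⟨q, -, rfl⟩ := Multiset.mem_map.mp hz
      exact mw17Psi_ne_zero T n q
  have hprodY : ∀ f : (Mw17Idx δ n → K) → ℝ, (Y.map f).prod =
      f (Pi.single (mw17tbTop δ n) 1) ^ (n * m₁ - Z.card) *
        (Z.map fun q : Mw17Pt T => f (mw17Psi T n q)).prod := by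
    intro f
    rw [hY, Multiset.map_add, Multiset.prod_add, Multiset.map_replicate,
      Multiset.prod_replicate, Multiset.map_map]
    rfl
  have hG12' : C (R (mw17Sec T (n * m₁) u)) *
      (∑ ν ∈ D.Nu, monomial ν (eval (Sum.elim u (mw17Psi T n R)) (D.p ν))) =
      C c * (Y.map fun z => htggLin (htlWedge (mw17Psi T n R) z)).prod := by
    rw [hG12, hY, Multiset.map_add, Multiset.prod_add, Multiset.map_replicate,
      Multiset.prod_replicate, Multiset.map_map, mw17Phi_none, mul_assoc]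
    rfl
  have hm1 : htlSup w.1 u ^ n ≤ CM.val w.1 * (w.1 c * (Y.map fun z => htlSup w.1 z).prod) := by
    rw [hprodY, mw17st_sup_single, one_pow, one_mul]; exact m1
  have hm2 : w.1 c * (Y.map fun z => htlSup w.1 z).prod ≤ CM.val w.1 * htlSup w.1 u ^ n := by
    rw [hprodY, mw17st_sup_single, one_pow, one_mul]; exact m2
  have hmk : n * m₁ = (n * m₁ - m₁) + m₁ := by
    have : m₁ ≤ n * m₁ := Nat.le_mul_of_pos_left m₁ hn1
    omega
  have hmain := mw17so_off_point (n := n) (k := n * m₁ - m₁) (m₁ := m₁) (m := n * m₁) hn1 hmk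
    CW CG CM w (fun Y hY a => hCW w Y hY a) hu (mw17Psi_ne_zero T n R)
    (R (mw17Sec T (n * m₁) u))
    (∑ ν ∈ D.Nu, monomial ν (eval (Sum.elim u (mw17Psi T n R)) (D.p ν))) c Y hYc hY0 hG12'
    (hGU w u R) (hGL w u R hu) hm1 hm2
  have hrhs : mw17StarRhs T n (mw17tbTop δ n) m₁ w.1 u Z R =
      htlSup w.1 u * htlSup w.1 (mw17Psi T n R) ^ m₁ *
        (Y.map fun z => htlDist w.1 z (mw17Psi T n R)).prod := by
    rw [hprodY]
    unfold mw17StarRhs mw17Dl
    rw [mw17Phi_none]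
    simp only [mw17Phi_some]
    ring
  rw [hrhs]
  exact hmain

/-- **(★-off), two-sided**, for any top index `t` (`mw17Wt t = n`). -/
theorem mw17st_off' {n : ℕ} (hN : δ.N ≤ n) (hn : 2 * δ.bound ≤ n) (hn1 : 1 ≤ n)
    (t : Mw17Idx δ n) (ht : mw17Wt t = n) {m₁ : ℕ}
    (D : Mw17GData T n t m₁) (hM : Mw17MLocF T n t m₁ D.F) : Mw17StarOff T n t m₁ := by
  have htop : t = mw17tbTop δ n :=
    mw17tb_wt_injective (ht.trans (mw17tbTop_wt (by omega)).symm)
  subst htop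
  exact mw17st_off T hN hn hn1 D hM

/-- (GN) for any top index `t`. -/
theorem mw17st_GN' {n : ℕ} (hN : δ.N ≤ n) (hn : 2 * δ.bound ≤ n)
    (t : Mw17Idx δ n) (ht : mw17Wt t = n) {m₁ : ℕ} (D : Mw17GData T n t m₁) :
    ∃ CG : HtConst K,
      (∀ (w : HtAbs K) (u : Mw17Idx δ (n * m₁) → K) (R : Mw17Pt T),
        htggSup w.1 (∑ ν ∈ D.Nu, monomial ν (eval (Sum.elim u (mw17Psi T n R)) (D.p ν))) ≤
          CG.val w.1 *
            (htlSup w.1 u ^ (n - 1) * htlSup w.1 (mw17Psi T n R) ^ (n * m₁ - m₁))) ∧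
      (∀ (w : HtAbs K) (u : Mw17Idx δ (n * m₁) → K) (R : Mw17Pt T), u ≠ 0 →
        htlSup w.1 u ^ (n - 1) * htlSup w.1 (mw17Psi T n R) ^ (n * m₁ - m₁) ≤
          CG.val w.1 *
            htggSup w.1 (∑ ν ∈ D.Nu, monomial ν
              (eval (Sum.elim u (mw17Psi T n R)) (D.p ν)))) := by
  have htop : t = mw17tbTop δ n :=
    mw17tb_wt_injective (ht.trans (mw17tbTop_wt (by omega)).symm)
  subst htop
  exact mw17st_GN T hN hn D

end Fermat.Agent.MW17
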