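import Fermat.Agent.MW17.ResPoly
import Fermat.Agent.MW17.Star.G3
import Fermat.Agent.MW17.GenPos

/-!
# Program MW (S17), heights half (A): the plug of (RES-POLY) into the `G`-leaf

Owner: helper4.  Namespace `Fermat.Agent.MW17`, prefix `mw17sf`.

`F := mw17rpRes V m n` (helper17's concrete resultant polynomial on `B = V27pB T`) satisfies every
hypothesis of helper24's `MW17/Star/G.lean`:

* `mw17sf_eval_zero`  : `F(0, t) = 0`;
* `mw17sf_hvan`       : `F(u, t) = 0` whenever `sec u`, `sec t` have a common zero;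
* `mw17sf_homU`, `mw17sf_homS` : the two homogeneities;
* `mw17sf_hdiv`       : `H = 𝐮 · G`;
* `mw17sf_G_homU`, `mw17sf_G_homS`, `mw17sf_G_le`;
* `mw17sf_prodU`      : (R-prod) in helper24's `Mw17stProdU` literal;
* `mw17sf_G2B_val`    : (G2B) at a value `s`: `sec u · G(u; s) = c · ℓ_top(s)^{m-|Z|} ∏ ℓ_P(s)` in `B`;
* `mw17sf_G3_fin`     : (G3) at a finite point;
* `mw17sf_G3_inf`     : (G3) at `P0`: exact order `m n - m`.
-/

set_option autoImplicit false

noncomputable section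

namespace Fermat.Agent.MW17

open Fermat.Agent.V Fermat.Agent.MW MvPolynomial

variable {K : Type*} [Field K] {δ : V27pShape} {T : V27pTable K δ}

/-! ### a polynomial of positive degree in the first group vanishes at `(0, t)` -/

theorem mw17sf_eval_zero_of_hom {ι κ : Type*} [Fintype ι] [Fintype κ]
    {F : MvPolynomial (ι ⊕ κ) K} {a : ℕ} (ha : 0 < a)
    (hF : IsWeightedHomogeneous (Sum.elim (fun _ : ι => (1 : ℕ)) (fun _ : κ => (0 : ℕ))) F a)
    (t : κ → K) : eval (Sum.elim (0 : ι → K) t) F = 0 := by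
  classical
  rw [eval_eq']
  refine Finset.sum_eq_zero fun d hd => ?_
  have hw := hF (mem_support_iff.mp hd)
  rw [Finsupp.weight_apply, Finsupp.sum_fintype _ _ (fun i => by simp), Fintype.sum_sum_type] at hw
  simp only [Sum.elim_inl, Sum.elim_inr, smul_eq_mul, mul_one, mul_zero, Finset.sum_const_zero,
    add_zero] at hw
  have hex : ∃ i : ι, d (Sum.inl i) ≠ 0 := by
    by_contra hne
    push Not at hne
    rw [Finset.sum_eq_zero fun i _ => hne i] at hw
    omega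
  obtain ⟨i, hi⟩ := hex
  rw [Finset.prod_eq_zero (Finset.mem_univ (Sum.inl i : ι ⊕ κ)), mul_zero]
  rw [Sum.elim_inl, Pi.zero_apply, zero_pow hi]

variable (V : MwrsVal K (V27pB T)) (hV : ∀ b, V.ord b = v27pOrd b)

section Closed

variable [IsAlgClosed K] [IsDedekindDomain (V27pB T)] {m n : ℕ} (hm : 0 < m) (hn : 0 < n)
  (hgm : Mw17rpNonGap δ m) (hgn : Mw17rpNonGap δ n)

include hV hm hn hgm hgn

theorem mw17sf_homU :
    IsWeightedHomogeneous
      (Sum.elim (fun _ : Mw17Idx δ m => (1 : ℕ)) (fun _ : Mw17Idx δ n => (0 : ℕ)))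
      (mw17rpRes V m n) n :=
  (mw17rpRes_bihom V hV hm hn hgm hgn).1

theorem mw17sf_homS :
    IsWeightedHomogeneous
      (Sum.elim (fun _ : Mw17Idx δ m => (0 : ℕ)) (fun _ : Mw17Idx δ n => (1 : ℕ)))
      (mw17rpRes V m n) m :=
  (mw17rpRes_bihom V hV hm hn hgm hgn).2

theorem mw17sf_eval_zero (t : Mw17Idx δ n → K) :
    eval (Sum.elim (0 : Mw17Idx δ m → K) t) (mw17rpRes V m n) = 0 :=
  mw17sf_eval_zero_of_hom hn (mw17sf_homU V hV hm hn hgm hgn) t

/-- `hvan` of `mw17st_exists_G` -/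
theorem mw17sf_hvan (u : Mw17Idx δ m → K) (t : Mw17Idx δ n → K) (q : Mw17Pt T)
    (hu : q (mw17Sec T m u) = 0) (ht : q (mw17Sec T n t) = 0) :
    eval (Sum.elim u t) (mw17rpRes V m n) = 0 := by
  by_cases h0 : u = 0
  · rw [h0]; exact mw17sf_eval_zero V hV hm hn hgm hgn t
  · exact (mw17rpRes_eq_zero_iff V hV hm hn hgm hgn h0 t).mpr (Or.inl ⟨q, hu, ht⟩)

/-- (G1) for the resultant polynomial -/
theorem mw17sf_hdiv :
    mw17stH T m n (mw17rpRes V m n) = mw17stU T m n * mw17stG T m n (mw17rpRes V m n) :=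
  mw17st_H_eq (mw17sf_hvan V hV hm hn hgm hgn)

theorem mw17sf_G_homU :
    IsWeightedHomogeneous (mw17stWU m n) (mw17stG T m n (mw17rpRes V m n)) (n - 1) :=
  mw17stG_homU hn (mw17sf_hdiv V hV hm hn hgm hgn) (mw17sf_homU V hV hm hn hgm hgn)

theorem mw17sf_G_homS :
    IsWeightedHomogeneous (mw17stWS m n) (mw17stG T m n (mw17rpRes V m n)) m :=
  mw17stG_homS (mw17sf_hdiv V hV hm hn hgm hgn) (mw17sf_homS V hV hm hn hgm hgn)

theorem mw17sf_G_le : Mw17stLe (mw17stG T m n (mw17rpRes V m n)) (m * n - m) := by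
  obtain ⟨top, htop⟩ := hgm
  exact mw17stG_le hm top htop (mw17sf_hdiv V hV hm hn ⟨top, htop⟩ hgn)
    (mw17sf_homS V hV hm hn ⟨top, htop⟩ hgn)

/-- (R-prod) in helper24's `Mw17stProdU` literal, `c := mw17rpC V m n top u` -/
theorem mw17sf_prodU (top : Mw17Idx δ n) (htop : mw17Wt top = n) {u : Mw17Idx δ m → K}
    (hu : u ≠ 0) {Z : Multiset (Mw17Pt T)} (hZ : Mw17IsZeros T (mw17Sec T m u) Z) :
    Mw17stProdU (mw17rpRes V m n) top u (mw17rpC V m n top u) Z := by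
  intro t
  rw [mw17rpRes_prod_top V hV hm hn hgm top htop hu hZ t]
  congr 1
  exact congrArg Multiset.prod (Multiset.map_congr rfl fun q _ => (mw17Sec_apply T n t q).symm)

/-- (R-prod') in helper24's `Mw17stProdT` literal -/
theorem mw17sf_prodT : Mw17stProdT T m n (mw17rpRes V m n) := by
  classical
  intro t htord
  have hsec : mw17Sec T n t ≠ 0 := by
    intro h0
    rw [h0, v27pOrd_zero] at htord
    omega
  have ht0 : t ≠ 0 := fun h => hsec ((mw17in_sec_eq_zero_iff T n t).mpr h)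
  have hZt := mw17in_isZeros T hsec
  refine ⟨(((mwrsSign m n : ℤˣ) : ℤ) : K)
      * (((mwrsSign (v27pOrd (mw17Sec T n t)) m : ℤˣ) : ℤ) : K) * V.lc (mw17Sec T n t) ^ m,
    mw17inZeros T (mw17Sec T n t), ?_, fun q => mw17in_mem_zeros_iff T hsec q, ?_, ?_⟩
  · exact mul_ne_zero (mul_ne_zero (mw17rp_sign_ne_zero (K := K) _)
      (mw17rp_sign_ne_zero (K := K) _)) (pow_ne_zero _ (V.lc_ne_zero hsec))
  · intro q hq hsq
    have hle : 1 ≤ Multiset.count q (mw17inZeros T (mw17Sec T n t)) := by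
      rw [mw17in_le_count_zeros_iff T hsec q 1, pow_one, RingHom.mem_ker]
      exact hq
    have hlt : ¬ 2 ≤ Multiset.count q (mw17inZeros T (mw17Sec T n t)) := by
      rw [mw17in_le_count_zeros_iff T hsec q 2]
      exact hsq
    have hmem : q ∈ mw17inZeros T (mw17Sec T n t) := Multiset.count_pos.mp (by omega)
    refine ⟨(mw17inZeros T (mw17Sec T n t)).erase q, (Multiset.cons_erase hmem).symm, ?_⟩
    rw [← Multiset.count_eq_zero, Multiset.count_erase_self]
    omega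
  · intro u'
    rw [mw17rpRes_prod' V hV hm hn hgm hgn ht0 hZt u', htord, Nat.sub_self, pow_zero, mul_one]

/-- general position (helper26's `mw17gen_exists`) in helper24's `Mw17stGenPos` literal -/
theorem mw17sf_genPos (hN : δ.N ≤ n) (hbn : δ.bound ≤ n) : Mw17stGenPos T n := by
  have : Infinite K := IsAlgClosed.instInfinite
  intro R S hRS
  exact mw17gen_exists T hN hbn hn R S hRS

/-- **(G2)** for the resultant polynomial -/
theorem mw17sf_G2 (top : Mw17Idx δ n) (htop : mw17Wt top = n) {u : Mw17Idx δ m → K}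
    (hu : u ≠ 0) {Z : Multiset (Mw17Pt T)} (hZ : Mw17IsZeros T (mw17Sec T m u) Z)
    (R : Mw17Pt T) :
    C (R (mw17Sec T m u)) * mw17stEv u R (mw17stG T m n (mw17rpRes V m n)) =
      C (mw17rpC V m n top u) *
        mw17stLin (mw17stWedge (mw17Psi T n R) (Pi.single top 1)) ^ (m - Z.card) *
        (Z.map fun q : Mw17Pt T =>
          mw17stLin (mw17stWedge (mw17Psi T n R) (mw17Psi T n q))).prod := by
  have : Infinite K := IsAlgClosed.instInfinite
  exact mw17st_G2 (mw17sf_hdiv V hV hm hn hgm hgn)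
    (mw17sf_prodU V hV hm hn hgm hgn top htop hu hZ) R

/-- **(G3), finite points**, for the resultant polynomial -/
theorem mw17sf_G3_fin_res (hN : δ.N ≤ n) (hbn : δ.bound ≤ n) {u : Mw17Idx δ m → K}
    (hu : u ≠ 0) (R : Mw17Pt T) :
    mw17stEv u R (mw17stG T m n (mw17rpRes V m n)) ≠ 0 := by
  have : Infinite K := IsAlgClosed.instInfinite
  have hb : mw17Sec T m u ≠ 0 := fun h => hu ((mw17in_sec_eq_zero_iff T m u).mp h)
  exact mw17st_G3_fin (mw17sf_hdiv V hV hm hn hgm hgn) (mw17sf_prodT V hV hm hn hgm hgn)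
    (mw17sf_genPos V hV hm hn hgm hgn hN hbn) u (mw17inZeros T (mw17Sec T m u))
    (fun q hq => (mw17in_mem_zeros_iff T hb q).mpr hq) R

/-- **(G3) at `P0`**, for the resultant polynomial: exact order `m n - m` -/
theorem mw17sf_G3_inf_res {top top' : Mw17Idx δ n} (htop : mw17Wt top = n)
    (htop' : mw17Wt top' = n - 1) {u : Mw17Idx δ m → K} (hu : u ≠ 0) :
    ∃ s : Mw17stS δ n → K,
      v27pOrd (eval (fun p => algebraMap K (V27pB T) (s p))
        (mw17stEvB u (mw17stG T m n (mw17rpRes V m n)))) = m * n - m := by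
  have hb : mw17Sec T m u ≠ 0 := fun h => hu ((mw17in_sec_eq_zero_iff T m u).mp h)
  have hZ := mw17in_isZeros T hb
  exact mw17st_G3_inf hn htop htop' hu (mw17rpC_ne_zero V m n top hu) hZ.1
    (mw17sf_hdiv V hV hm hn hgm hgn) (mw17sf_prodU V hV hm hn hgm hgn top htop hu hZ)

end Closed

/-! ### additive functions on the non-zero elements of a domain -/

theorem mw17sf_val_pow {B : Type*} [CommRing B] [IsDomain B] (ν : B → ℕ) (h1 : ν 1 = 0)
    (hmul : ∀ a b : B, a ≠ 0 → b ≠ 0 → ν (a * b) = ν a + ν b) {a : B} (ha : a ≠ 0) (k : ℕ) :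
    ν (a ^ k) = k * ν a := by
  induction k with
  | zero => simp [h1]
  | succ k ih =>
    rw [pow_succ, hmul _ _ (pow_ne_zero k ha) ha, ih]
    ring

theorem mw17sf_val_multiset_prod {B α : Type*} [CommRing B] [IsDomain B] (ν : B → ℕ)
    (h1 : ν 1 = 0) (hmul : ∀ a b : B, a ≠ 0 → b ≠ 0 → ν (a * b) = ν a + ν b)
    (Z : Multiset α) (f : α → B) (hf : ∀ P ∈ Z, f P ≠ 0) :
    ν ((Z.map f).prod) = (Z.map fun P => ν (f P)).sum := by
  induction Z using Multiset.induction_on with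
  | empty => simp [h1]
  | cons P Z ih =>
    have hZ : ∀ Q ∈ Z, f Q ≠ 0 := fun Q hQ => hf Q (Multiset.mem_cons_of_mem hQ)
    have hne : (Z.map f).prod ≠ 0 := by
      apply Multiset.prod_ne_zero
      rw [Multiset.mem_map]
      rintro ⟨Q, hQ, h0⟩
      exact hZ Q hQ h0
    rw [Multiset.map_cons, Multiset.prod_cons, Multiset.map_cons, Multiset.sum_cons,
      hmul _ _ (hf P (Multiset.mem_cons_self P Z)) hne, ih hZ]

theorem mw17sf_sum_ite_eq_count {α : Type*} [DecidableEq α] (R : α) (Z : Multiset α) :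
    (Z.map fun P => if P = R then 1 else 0).sum = Z.count R := by
  induction Z using Multiset.induction_on with
  | empty => simp
  | cons P Z ih =>
    rw [Multiset.map_cons, Multiset.sum_cons, ih, Multiset.count_cons, add_comm]
    congr 1
    by_cases h : P = R
    · rw [if_pos h, if_pos h.symm]
    · rw [if_neg h, if_neg (fun h' => h h'.symm)]

/-! ### evaluation of `u` and `s`, coefficients kept in `B` -/

section EvB

variable {m n : ℕ}

/-- evaluate `u` and `s` at constants, keep the coefficients in `B` -/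
def mw17sfEvB (u : Mw17Idx δ m → K) (s : Mw17stS δ n → K) : Mw17stA T m n →+* V27pB T :=
  eval (Sum.elim (fun i => algebraMap K (V27pB T) (u i)) (fun p => algebraMap K (V27pB T) (s p)))

theorem mw17sf_apply_evB (q : Mw17Pt T) (u : Mw17Idx δ m → K) (s : Mw17stS δ n → K)
    (P : Mw17stA T m n) :
    q (mw17sfEvB u s P) = eval (Sum.elim u s) (map (q : V27pB T →+* K) P) := by
  have h := eval₂_comp_left (q : V27pB T →+* K) (RingHom.id (V27pB T))
    (Sum.elim (fun i => algebraMap K (V27pB T) (u i)) (fun p => algebraMap K (V27pB T) (s p))) P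
  rw [eval_map]
  have hfun : ((q : V27pB T →+* K) ∘
      Sum.elim (fun i => algebraMap K (V27pB T) (u i)) (fun p => algebraMap K (V27pB T) (s p)))
      = Sum.elim u s := by
    funext i
    rcases i with i | p
    · simp
    · simp
  rw [RingHom.comp_id, hfun] at h
  exact h

theorem mw17sf_evB_U (u : Mw17Idx δ m → K) (s : Mw17stS δ n → K) :
    mw17sfEvB u s (mw17stU T m n) = mw17Sec T m u := by
  unfold mw17sfEvB mw17stU mw17Sec
  rw [map_sum]
  refine Finset.sum_congr rfl fun i _ => ?_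
  rw [map_mul, eval_C, eval_X, Sum.elim_inl, Algebra.smul_def, mul_comm]

/-- the section `ℓ_y(s) ∈ L_n`: `ℓ_y(s)(q) = ⟨s, φq ∧ y⟩` -/
def mw17sfEll (T : V27pTable K δ) (s : Mw17stS δ n → K) (y : Mw17Idx δ n → K) : V27pB T :=
  -mw17Sec T n (mw17stT s y)

theorem mw17sf_apply_ell (q : Mw17Pt T) (s : Mw17stS δ n → K) (y : Mw17Idx δ n → K) :
    q (mw17sfEll T s y) = ∑ c, mw17stT s (mw17Psi T n q) c * y c := by
  rw [mw17sfEll, map_neg, mw17Sec_apply, mw17stT_swap s (mw17Psi T n q) y]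

/-- **(G2B) at a value of `s`**: `sec u · G(u; s) = c · ℓ_top(s)^{m - |Z|} · ∏_{P ∈ Z} ℓ_P(s)` in `B` -/
theorem mw17sf_G2B_val [IsAlgClosed K] {F : MvPolynomial (Mw17Idx δ m ⊕ Mw17Idx δ n) K}
    (hdiv : mw17stH T m n F = mw17stU T m n * mw17stG T m n F) (top : Mw17Idx δ n)
    {u : Mw17Idx δ m → K} {c : K} {Z : Multiset (Mw17Pt T)}
    (hP : ∀ t : Mw17Idx δ n → K, eval (Sum.elim u t) F =
      c * t top ^ (m - Z.card) * (Z.map fun q : Mw17Pt T => q (mw17Sec T n t)).prod)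
    (s : Mw17stS δ n → K) :
    mw17Sec T m u * mw17sfEvB u s (mw17stG T m n F) =
      algebraMap K (V27pB T) c * mw17sfEll T s (Pi.single top 1) ^ (m - Z.card) *
        (Z.map fun P : Mw17Pt T => mw17sfEll T s (mw17Psi T n P)).prod := by
  classical
  rw [← mw17sf_evB_U u s, ← map_mul, ← hdiv, ← sub_eq_zero]
  refine mw17st_points_sep T _ fun q => ?_
  rw [map_sub, sub_eq_zero, mw17sf_apply_evB, mw17st_eval_H]
  simp only [Sum.elim_inl, Sum.elim_inr]
  rw [hP, map_mul, map_mul, map_pow, AlgHom.commutes, mw17sf_apply_ell, map_multiset_prod,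
    Multiset.map_map]
  congr 1
  · congr 2
    rw [Finset.sum_eq_single top]
    · rw [Pi.single_eq_same, mul_one]
    · intro j _ hj
      rw [Pi.single_eq_of_ne hj, mul_zero]
    · intro h
      exact absurd (Finset.mem_univ _) h
  · refine congrArg Multiset.prod (Multiset.map_congr rfl fun P _ => ?_)
    rw [Function.comp_apply, mw17sf_apply_ell, mw17Sec_apply]

end EvB

/-! ### multiplicities at a point -/

section Cnt

variable [IsAlgClosed K] [IsDedekindDomain (V27pB T)] [DecidableEq (Mw17Pt T)]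

/-- the multiplicity of `R` in the zero cycle of `b` -/
def mw17sfCnt (R : Mw17Pt T) (b : V27pB T) : ℕ := Multiset.count R (mw17inZeros T b)

theorem mw17sfCnt_algebraMap (R : Mw17Pt T) {c : K} (hc : c ≠ 0) :
    mw17sfCnt R (algebraMap K (V27pB T) c) = 0 := by
  unfold mw17sfCnt
  rw [mw17inZeros_algebraMap T hc, Multiset.count_zero]

theorem mw17sfCnt_one (R : Mw17Pt T) : mw17sfCnt R (1 : V27pB T) = 0 := by
  rw [← map_one (algebraMap K (V27pB T))]
  exact mw17sfCnt_algebraMap R one_ne_zero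

theorem mw17sfCnt_mul (R : Mw17Pt T) {a b : V27pB T} (ha : a ≠ 0) (hb : b ≠ 0) :
    mw17sfCnt R (a * b) = mw17sfCnt R a + mw17sfCnt R b := by
  unfold mw17sfCnt
  rw [mw17inZeros_mul T ha hb, Multiset.count_add]

theorem mw17sfCnt_eq_zero_iff (R : Mw17Pt T) {b : V27pB T} (hb : b ≠ 0) :
    mw17sfCnt R b = 0 ↔ R b ≠ 0 := by
  unfold mw17sfCnt
  rw [Multiset.count_eq_zero, mw17in_mem_zeros_iff T hb]

theorem mw17sfCnt_neg (R : Mw17Pt T) {b : V27pB T} (hb : b ≠ 0) :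
    mw17sfCnt R (-b) = mw17sfCnt R b := by
  have h1 : (-1 : K) ≠ 0 := neg_ne_zero.mpr one_ne_zero
  have h2 : algebraMap K (V27pB T) (-1) ≠ 0 := by
    rw [ne_eq, ← map_zero (algebraMap K (V27pB T)), (algebraMap K (V27pB T)).injective.eq_iff]
    exact h1
  have : -b = algebraMap K (V27pB T) (-1) * b := by rw [map_neg, map_one, neg_one_mul]
  rw [this, mw17sfCnt_mul R h2 hb, mw17sfCnt_algebraMap R h1, zero_add]

theorem mw17sfCnt_eq_one (R : Mw17Pt T) {b : V27pB T} (h1 : R b = 0)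
    (h2 : b ∉ RingHom.ker (R : V27pB T →+* K) ^ 2) : mw17sfCnt R b = 1 := by
  have hb : b ≠ 0 := by
    rintro rfl
    exact h2 (zero_mem _)
  unfold mw17sfCnt
  have hle : 1 ≤ Multiset.count R (mw17inZeros T b) := by
    rw [mw17in_le_count_zeros_iff T hb R 1, pow_one, RingHom.mem_ker]
    exact h1
  have hlt : ¬ 2 ≤ Multiset.count R (mw17inZeros T b) := by
    rw [mw17in_le_count_zeros_iff T hb R 2]
    exact h2
  omega

end Cnt

/-! ### (G3) -/

section G3

variable [IsAlgClosed K] [IsDedekindDomain (V27pB T)] {m n : ℕ}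

/-- **(G3) at a finite point** `R` (a zero of `u` or not): some value `G(u; s)(R)` does not vanish. -/
theorem mw17sf_G3_fin {F : MvPolynomial (Mw17Idx δ m ⊕ Mw17Idx δ n) K}
    (hdiv : mw17stH T m n F = mw17stU T m n * mw17stG T m n F)
    (hN : δ.N ≤ n) (hn : δ.bound ≤ n) (hn1 : 1 ≤ n) (top : Mw17Idx δ n) (htop : mw17Wt top = n)
    {u : Mw17Idx δ m → K} (hu : u ≠ 0) {c : K} (hc : c ≠ 0) {Z : Multiset (Mw17Pt T)}
    (hZ : Mw17IsZeros T (mw17Sec T m u) Z)
    (hP : ∀ t : Mw17Idx δ n → K, eval (Sum.elim u t) F =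
      c * t top ^ (m - Z.card) * (Z.map fun q : Mw17Pt T => q (mw17Sec T n t)).prod)
    (R : Mw17Pt T) :
    ∃ s : Mw17stS δ n → K, R (mw17sfEvB u s (mw17stG T m n F)) ≠ 0 := by
  classical
  have : Infinite K := IsAlgClosed.instInfinite
  have hb : mw17Sec T m u ≠ 0 := fun h => hu ((mw17in_sec_eq_zero_iff T m u).mp h)
  obtain ⟨t, htR, htord, htS, htsq⟩ :=
    mw17gen_exists T hN hn hn1 R (Z.toFinset.erase R) (Finset.notMem_erase R _)
  have hsec_ne : mw17Sec T n t ≠ 0 := by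
    intro h0
    apply htsq
    rw [h0]
    exact zero_mem _
  have httop : t top ≠ 0 := (mw17in_ord_sec_eq_iff T top htop t).mp ⟨hsec_ne, htord⟩
  obtain ⟨s, hs⟩ := mw17stT_exists (mw17Psi T n R) (mw17IdxZero δ n) (mw17Psi_zero T n R) t
    (by rw [← mw17Sec_apply]; exact htR)
  refine ⟨s, ?_⟩
  have key := mw17sf_G2B_val hdiv top hP s
  set g := mw17sfEvB u s (mw17stG T m n F) with hg
  have hellR : mw17sfEll T s (mw17Psi T n R) = -mw17Sec T n t := by rw [mw17sfEll, hs]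
  have hell_top : R (mw17sfEll T s (Pi.single top 1)) ≠ 0 := by
    rw [mw17sf_apply_ell, hs, Finset.sum_eq_single top]
    · rw [Pi.single_eq_same, mul_one]
      exact httop
    · intro j _ hj
      rw [Pi.single_eq_of_ne hj, mul_zero]
    · intro h
      exact absurd (Finset.mem_univ _) h
  have hellP : ∀ P ∈ Z, P ≠ R → R (mw17sfEll T s (mw17Psi T n P)) ≠ 0 := by
    intro P hPZ hne
    rw [mw17sf_apply_ell, hs, ← mw17Sec_apply]
    exact htS P (Finset.mem_erase.mpr ⟨hne, Multiset.mem_toFinset.mpr hPZ⟩)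
  have hell_ne : ∀ P ∈ Z, mw17sfEll T s (mw17Psi T n P) ≠ 0 := by
    intro P hPZ
    by_cases hPR : P = R
    · rw [hPR, hellR]
      exact neg_ne_zero.mpr hsec_ne
    · intro h0
      exact hellP P hPZ hPR (by rw [h0, map_zero])
  have htop_ne : mw17sfEll T s (Pi.single top 1) ≠ 0 := fun h0 =>
    hell_top (by rw [h0, map_zero])
  have hc' : algebraMap K (V27pB T) c ≠ 0 := by
    rw [ne_eq, ← map_zero (algebraMap K (V27pB T)), (algebraMap K (V27pB T)).injective.eq_iff]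
    exact hc
  have hprod_ne : (Z.map fun P : Mw17Pt T => mw17sfEll T s (mw17Psi T n P)).prod ≠ 0 := by
    apply Multiset.prod_ne_zero
    rw [Multiset.mem_map]
    rintro ⟨Q, hQ, h0⟩
    exact hell_ne Q hQ h0
  have hpow_ne : mw17sfEll T s (Pi.single top 1) ^ (m - Z.card) ≠ 0 := pow_ne_zero _ htop_ne
  have hg_ne : g ≠ 0 := by
    intro h0
    rw [h0, mul_zero] at key
    exact mul_ne_zero (mul_ne_zero hc' hpow_ne) hprod_ne key.symm
  have hmulR : ∀ a b : V27pB T, a ≠ 0 → b ≠ 0 →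
      mw17sfCnt R (a * b) = mw17sfCnt R a + mw17sfCnt R b := fun a b ha hb => mw17sfCnt_mul R ha hb
  have hcount := congrArg (mw17sfCnt R) key
  rw [mw17sfCnt_mul R hb hg_ne, mw17sfCnt_mul R (mul_ne_zero hc' hpow_ne) hprod_ne,
    mw17sfCnt_mul R hc' hpow_ne, mw17sfCnt_algebraMap R hc,
    mw17sf_val_pow (mw17sfCnt R) (mw17sfCnt_one R) hmulR htop_ne,
    (mw17sfCnt_eq_zero_iff R htop_ne).mpr hell_top,
    mw17sf_val_multiset_prod (mw17sfCnt R) (mw17sfCnt_one R) hmulR Z _ hell_ne] at hcount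
  have hsum : (Z.map fun P : Mw17Pt T => mw17sfCnt R (mw17sfEll T s (mw17Psi T n P)))
      = Z.map fun P : Mw17Pt T => if P = R then 1 else 0 :=
    Multiset.map_congr rfl fun P hPZ => by
      by_cases hPR : P = R
      · rw [if_pos hPR, hPR, hellR, mw17sfCnt_neg R hsec_ne, mw17sfCnt_eq_one R htR htsq]
      · rw [if_neg hPR]
        exact (mw17sfCnt_eq_zero_iff R (hell_ne P hPZ)).mpr (hellP P hPZ hPR)
  rw [hsum, mw17sf_sum_ite_eq_count] at hcount
  have hcu : mw17sfCnt R (mw17Sec T m u) = Z.count R := by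
    unfold mw17sfCnt
    rw [← mw17in_isZeros_unique T hb hZ]
  rw [hcu, mul_zero, zero_add, zero_add] at hcount
  have h0 : mw17sfCnt R g = 0 := by omega
  exact (mw17sfCnt_eq_zero_iff R hg_ne).mp h0

/-- the same in the evaluated-polynomial form -/
theorem mw17sf_G3_fin' {F : MvPolynomial (Mw17Idx δ m ⊕ Mw17Idx δ n) K}
    (hdiv : mw17stH T m n F = mw17stU T m n * mw17stG T m n F)
    (hN : δ.N ≤ n) (hn : δ.bound ≤ n) (hn1 : 1 ≤ n) (top : Mw17Idx δ n) (htop : mw17Wt top = n)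
    {u : Mw17Idx δ m → K} (hu : u ≠ 0) {c : K} (hc : c ≠ 0) {Z : Multiset (Mw17Pt T)}
    (hZ : Mw17IsZeros T (mw17Sec T m u) Z)
    (hP : ∀ t : Mw17Idx δ n → K, eval (Sum.elim u t) F =
      c * t top ^ (m - Z.card) * (Z.map fun q : Mw17Pt T => q (mw17Sec T n t)).prod)
    (R : Mw17Pt T) :
    ∃ s : Mw17stS δ n → K,
      eval (Sum.elim u s) (map (R : V27pB T →+* K) (mw17stG T m n F)) ≠ 0 := by
  obtain ⟨s, hs⟩ := mw17sf_G3_fin hdiv hN hn hn1 top htop hu hc hZ hP R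
  exact ⟨s, by rw [← mw17sf_apply_evB]; exact hs⟩

end G3

/-! ### the canonical instance: `F := Res_{n m₁, n}` for `mw17inVal T`, `top := mw17tbTop δ n` -/

section Can

/-- the index of weight `n - 1` in `L_n` (`δ.bound ≤ n - 1`) -/
def mw17sfTop' (δ : V27pShape) (n : ℕ) : Mw17Idx δ n :=
  mw17IdxIncl (Nat.sub_le n 1) (mw17tbTop δ (n - 1))

theorem mw17sf_wt_incl {k k' : ℕ} (h : k ≤ k') (i : Mw17Idx δ k) :
    mw17Wt (mw17IdxIncl h i) = mw17Wt i := rfl

theorem mw17sfTop'_wt {n : ℕ} (hn : δ.bound ≤ n - 1) : mw17Wt (mw17sfTop' δ n) = n - 1 := by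
  rw [mw17sfTop', mw17sf_wt_incl]
  exact mw17tbTop_wt hn

theorem mw17sf_nonGap {k : ℕ} (hk : δ.bound ≤ k) : Mw17rpNonGap δ k :=
  ⟨mw17tbTop δ k, mw17tbTop_wt hk⟩

variable (T) [IsAlgClosed K] [IsDedekindDomain (V27pB T)]

/-- the resultant polynomial used in `Mw17GData` -/
def mw17sfF (n m₁ : ℕ) : MvPolynomial (Mw17Idx δ (n * m₁) ⊕ Mw17Idx δ n) K :=
  haveI : Infinite K := IsAlgClosed.instInfinite
  mw17rpRes (mw17inVal T) (n * m₁) n

variable {n m₁ : ℕ} (hbn : δ.bound + 1 ≤ n) (hm₁ : 0 < m₁)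

include hbn hm₁

theorem mw17sf_can_aux : 0 < n * m₁ ∧ 0 < n ∧ Mw17rpNonGap δ (n * m₁) ∧ Mw17rpNonGap δ n := by
  have h1 : n ≤ n * m₁ := Nat.le_mul_of_pos_right n hm₁
  exact ⟨by omega, by omega, mw17sf_nonGap (by omega), mw17sf_nonGap (by omega)⟩

/-- field `hF` of `Mw17GData` -/
theorem mw17sf_can_hF :
    IsWeightedHomogeneous (Fermat.Agent.HT.htlBiw (Mw17Idx δ (n * m₁)) (Mw17Idx δ n))
      (mw17sfF T n m₁) (n, n * m₁) := by
  obtain ⟨h1, h2, h3, _⟩ := mw17sf_can_aux (δ := δ) hbn hm₁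
  exact mw17rpRes_hF (mw17inVal T) (fun _ => rfl) h1 h2 h3 (mw17tbTop δ n)
    (mw17tbTop_wt (by omega))

theorem mw17sf_can_hdiv :
    mw17stH T (n * m₁) n (mw17sfF T n m₁) =
      mw17stU T (n * m₁) n * mw17stG T (n * m₁) n (mw17sfF T n m₁) := by
  obtain ⟨h1, h2, h3, h4⟩ := mw17sf_can_aux (δ := δ) hbn hm₁
  exact mw17sf_hdiv (mw17inVal T) (fun _ => rfl) h1 h2 h3 h4

theorem mw17sf_can_G_homU :
    IsWeightedHomogeneous (mw17stWU (n * m₁) n) (mw17stG T (n * m₁) n (mw17sfF T n m₁))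
      (n - 1) := by
  obtain ⟨h1, h2, h3, h4⟩ := mw17sf_can_aux (δ := δ) hbn hm₁
  exact mw17sf_G_homU (mw17inVal T) (fun _ => rfl) h1 h2 h3 h4

theorem mw17sf_can_G_homS :
    IsWeightedHomogeneous (mw17stWS (n * m₁) n) (mw17stG T (n * m₁) n (mw17sfF T n m₁))
      (n * m₁) := by
  obtain ⟨h1, h2, h3, h4⟩ := mw17sf_can_aux (δ := δ) hbn hm₁
  exact mw17sf_G_homS (mw17inVal T) (fun _ => rfl) h1 h2 h3 h4

theorem mw17sf_can_G_le :
    Mw17stLe (mw17stG T (n * m₁) n (mw17sfF T n m₁)) (n * m₁ * n - n * m₁) := by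
  obtain ⟨h1, h2, h3, h4⟩ := mw17sf_can_aux (δ := δ) hbn hm₁
  exact mw17sf_G_le (mw17inVal T) (fun _ => rfl) h1 h2 h3 h4

/-- the constant of (R-prod)/(G12) -/
def mw17sfC (n m₁ : ℕ) (u : Mw17Idx δ (n * m₁) → K) : K :=
  mw17rpC (mw17inVal T) (n * m₁) n (mw17tbTop δ n) u

omit hbn hm₁ [IsDedekindDomain (V27pB T)] in
theorem mw17sfC_ne_zero {u : Mw17Idx δ (n * m₁) → K} (hu : u ≠ 0) : mw17sfC T n m₁ u ≠ 0 :=
  mw17rpC_ne_zero (mw17inVal T) (n * m₁) n (mw17tbTop δ n) hu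

theorem mw17sf_can_prodU {u : Mw17Idx δ (n * m₁) → K} (hu : u ≠ 0)
    {Z : Multiset (Mw17Pt T)} (hZ : Mw17IsZeros T (mw17Sec T (n * m₁) u) Z) :
    Mw17stProdU (mw17sfF T n m₁) (mw17tbTop δ n) u (mw17sfC T n m₁ u) Z := by
  obtain ⟨h1, h2, h3, h4⟩ := mw17sf_can_aux (δ := δ) hbn hm₁
  exact mw17sf_prodU (mw17inVal T) (fun _ => rfl) h1 h2 h3 h4 (mw17tbTop δ n)
    (mw17tbTop_wt (by omega)) hu hZ

/-- first conjunct of `Mw17GData.prod` -/
theorem mw17sf_can_prod {u : Mw17Idx δ (n * m₁) → K} (hu : u ≠ 0)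
    {Z : Multiset (Mw17Pt T)} (hZ : Mw17IsZeros T (mw17Sec T (n * m₁) u) Z)
    (y : Mw17Idx δ n → K) :
    eval (Sum.elim u y) (mw17sfF T n m₁) =
      mw17sfC T n m₁ u * y (mw17tbTop δ n) ^ (n * m₁ - Z.card) *
        (Z.map fun q : Mw17Pt T => ∑ j, y j * mw17Psi T n q j).prod := by
  obtain ⟨h1, h2, h3, _⟩ := mw17sf_can_aux (δ := δ) hbn hm₁
  exact mw17rpRes_prod_top (mw17inVal T) (fun _ => rfl) h1 h2 h3 (mw17tbTop δ n)
    (mw17tbTop_wt (by omega)) hu hZ y

/-- (G12) with helper24's `mw17stEv`, `mw17stLin`, `mw17stWedge` -/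
theorem mw17sf_can_G2 {u : Mw17Idx δ (n * m₁) → K} (hu : u ≠ 0)
    {Z : Multiset (Mw17Pt T)} (hZ : Mw17IsZeros T (mw17Sec T (n * m₁) u) Z) (R : Mw17Pt T) :
    C (R (mw17Sec T (n * m₁) u)) * mw17stEv u R (mw17stG T (n * m₁) n (mw17sfF T n m₁)) =
      C (mw17sfC T n m₁ u) *
        mw17stLin (mw17stWedge (mw17Psi T n R) (Pi.single (mw17tbTop δ n) 1))
          ^ (n * m₁ - Z.card) *
        (Z.map fun q : Mw17Pt T =>
          mw17stLin (mw17stWedge (mw17Psi T n R) (mw17Psi T n q))).prod := by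
  obtain ⟨h1, h2, h3, h4⟩ := mw17sf_can_aux (δ := δ) hbn hm₁
  exact mw17sf_G2 (mw17inVal T) (fun _ => rfl) h1 h2 h3 h4 (mw17tbTop δ n)
    (mw17tbTop_wt (by omega)) hu hZ R

theorem mw17sf_can_G3_fin (hN : δ.N ≤ n) {u : Mw17Idx δ (n * m₁) → K} (hu : u ≠ 0)
    (R : Mw17Pt T) : mw17stEv u R (mw17stG T (n * m₁) n (mw17sfF T n m₁)) ≠ 0 := by
  obtain ⟨h1, h2, h3, h4⟩ := mw17sf_can_aux (δ := δ) hbn hm₁
  exact mw17sf_G3_fin_res (mw17inVal T) (fun _ => rfl) h1 h2 h3 h4 hN (by omega) hu R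

theorem mw17sf_can_G3_inf {u : Mw17Idx δ (n * m₁) → K} (hu : u ≠ 0) :
    ∃ s : Mw17stS δ n → K,
      v27pOrd (eval (fun p => algebraMap K (V27pB T) (s p))
        (mw17stEvB u (mw17stG T (n * m₁) n (mw17sfF T n m₁)))) = n * m₁ * n - n * m₁ := by
  obtain ⟨h1, h2, h3, h4⟩ := mw17sf_can_aux (δ := δ) hbn hm₁
  exact mw17sf_G3_inf_res (mw17inVal T) (fun _ => rfl) h1 h2 h3 h4
    (mw17tbTop_wt (by omega)) (mw17sfTop'_wt (by omega)) hu

end Can

end Fermat.Agent.MW17
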