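import Fermat.Agent.MW17.Star.PlugRes
import Fermat.Agent.MW17.Star.PlugF
import Fermat.Agent.MW17.Star.G4

/-!
# Program MW (S17), heights half (A), core leaf (★): THE TERM `D : Mw17GData T n (mw17tbTop δ n) m₁`

Owner: helper6.  Namespace `Fermat.Agent.MW17`, prefix `mw17sg`.

`F := mw17rpRes (mw17inVal T) (n * m₁) n` (helper17's resultant polynomial at helper4's valuation),
`G := mw17stG T (n * m₁) n F` (helper24's (G1) quotient).

* `mw17sg_exists_of_G4` : `Nonempty (Mw17GData …)` from a `B`-level regrouping `(I, p)` (spare route);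
* **`mw17sg_exists`** : `Nonempty (Mw17GData T n (mw17tbTop δ n) m₁)` for `δ.N ≤ n`, `2 δ.bound ≤ n`,
  `2 ≤ n`, `0 < m₁`, through helper24's `mw17st_G4_level`;
* **`mw17sg_data`** : the term; **`mw17sg_all`** : the form `∀ m₁, 0 < m₁ → Nonempty …` consumed by the
  global wiring (`δ.N + 2 δ.bound + 1 ≤ n`).

Inputs: (R-prod) `mw17rpRes_prod_top`, (R-prod') helper4's `mw17sf_prodT`, (G1)–(G3) helper24's
`Star/{G,G2,G3}.lean`, general position helper26's `mw17gen_exists`, projective normality helper26's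
`mw17tb_exists_homogeneous`, (G4) helper24's `mw17st_G4_level`.
-/

set_option autoImplicit false

noncomputable section

namespace Fermat.Agent.MW17

open Fermat.Agent.V Fermat.Agent.HT Fermat.Agent.MW MvPolynomial

variable {K : Type*} [Field K] [IsAlgClosed K] {δ : V27pShape} (T : V27pTable K δ)
  [IsDedekindDomain (V27pB T)] {n m₁ : ℕ}

/-- (R-prod') for the resultant (helper4's `mw17sf_prodT`) -/
theorem mw17sg_prodT (hn : δ.bound ≤ n) (hn1 : 1 ≤ n) (hm₁ : 0 < m₁) :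
    Mw17stProdT T (n * m₁) n (mw17sgF T n m₁) := by
  have : Infinite K := IsAlgClosed.instInfinite
  exact mw17sf_prodT (mw17inVal T) (fun _ => rfl) (mw17sg_pos hn hn1 hm₁) hn1
    (mw17sg_nonGap hn hn1 hm₁) (mw17sg_nonGap' hn hn1 hm₁)

/-- **`Mw17GData` from a `B`-level (G4) regrouping alone** (spare route). -/
theorem mw17sg_exists_of_G4 (hN : δ.N ≤ n) (hn : 2 * δ.bound ≤ n) (hn1 : 1 ≤ n) (hm₁ : 0 < m₁)
    (hG4 : ∃ (I : Finset (Mw17stS δ n →₀ ℕ))
      (p : (Mw17stS δ n →₀ ℕ) → MvPolynomial (Mw17Idx δ (n * m₁) ⊕ Mw17Idx δ n) K),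
      (∀ β ∈ I, IsWeightedHomogeneous (htlBiw (Mw17Idx δ (n * m₁)) (Mw17Idx δ n)) (p β)
        (n - 1, n * m₁ - m₁)) ∧
      (∀ β, β ∉ I → p β = 0) ∧
      ∀ (u : Mw17Idx δ (n * m₁) → K) (β : Mw17stS δ n →₀ ℕ),
        aeval (Sum.elim (fun i => algebraMap K (V27pB T) (u i)) (mw17Mon T (m := n))) (p β) =
          coeff β (mw17stEvB u (mw17stG T (n * m₁) n (mw17sgF T n m₁)))) :
    Nonempty (Mw17GData T n (mw17tbTop δ n) m₁) :=
  mw17sg_exists_res T hN hn hn1 hm₁ (mw17sg_prodT T (by omega) hn1 hm₁) hG4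

/-- **THE ALGEBRAIC CORE EXISTS**: `Mw17GData T n (mw17tbTop δ n) m₁` for the resultant. -/
theorem mw17sg_exists (hN : δ.N ≤ n) (hn : 2 * δ.bound ≤ n) (hn2 : 2 ≤ n) (hm₁ : 0 < m₁) :
    Nonempty (Mw17GData T n (mw17tbTop δ n) m₁) := by
  have : Infinite K := IsAlgClosed.instInfinite
  have hn' : δ.bound ≤ n := by omega
  have hn1 : 1 ≤ n := by omega
  have hdiv := mw17sg_hdiv T hn' hn1 hm₁
  have hbi := mw17sg_bihom T hn' hn1 hm₁
  have hfin := mw17sg_hfin T hn' hn1 hm₁ hN (mw17sg_prodT T hn' hn1 hm₁)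
  have hbm : δ.bound ≤ n * m₁ := hn'.trans (Nat.le_mul_of_pos_right n hm₁)
  obtain ⟨I, p, hp, hI, hcoef, -, -, hinf⟩ :=
    mw17st_G4_level hm₁ hn2 (mw17stG T (n * m₁) n (mw17sgF T n m₁))
      (fun b hb => mw17tb_exists_homogeneous T hn (n * m₁ - m₁) b hb)
      (mw17stG_le (mw17sg_pos hn' hn1 hm₁) (mw17tbTop δ (n * m₁)) (mw17tbTop_wt hbm) hdiv hbi.2)
      (mw17stG_homU hn1 hdiv hbi.1)
      (mw17tbTop δ n) (mw17tbTop_wt hn') hfin (mw17sg_hinfB T hn hn1 hm₁)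
  exact mw17sg_exists_K T (mw17tbTop δ n) (mw17sgF T n m₁) (mw17sg_hF T hn' hn1 hm₁) hdiv
    (mw17rpC (mw17inVal T) (n * m₁) n (mw17tbTop δ n))
    (fun u hu => mw17rpC_ne_zero (mw17inVal T) (n * m₁) n (mw17tbTop δ n) hu)
    (mw17sg_prodU T hn' hn1 hm₁) hfin I p (fun β _ => hp β) hI hcoef hinf

/-- **THE TERM `D`** (helper16's `mw17sg_data`; `2 ≤ n` instead of `1 ≤ n`). -/
def mw17sg_data (hN : δ.N ≤ n) (hn : 2 * δ.bound ≤ n) (hn2 : 2 ≤ n) (hm₁ : 0 < m₁) :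
    Mw17GData T n (mw17tbTop δ n) m₁ :=
  Classical.choice (mw17sg_exists T hN hn hn2 hm₁)

/-- the form consumed by the global wiring (`hD` of helper22's `mw17g_all`). -/
theorem mw17sg_all (hn : δ.N + 2 * δ.bound + 1 ≤ n) :
    ∀ m₁ : ℕ, 0 < m₁ → Nonempty (Mw17GData T n (mw17tbTop δ n) m₁) := by
  intro m₁ hm₁
  have := δ.hN
  exact mw17sg_exists T (by omega) (by omega) (by omega) hm₁

end Fermat.Agent.MW17
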