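import Fermat.Agent.MW17.Spec
import Fermat.Agent.MW17.Star.G3
import Fermat.Agent.MW17.PnTop

/-!
# Program MW (S17), heights half (A), core leaf (★): the assembly of `Mw17GData` (abstract part)

Owner: helper6.  Namespace `Fermat.Agent.MW17`, prefix `mw17sg`.

`F` is an ARBITRARY polynomial; the properties of the resultant enter as hypotheses in the literals of
helper24's `Star/{G,G2,G3}.lean`; the regrouping (G4) enters as an existential `(I, p)`.

* `mw17sg_sum_monomial` : `X = Σ_{β ∈ I} monomial β (coeff β X)` if `supp X ⊆ I`;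
* `mw17sg_eval_indep`   : a form of bidegree `(a, 0)` does not depend on the second group;
* **`mw17sg_exists_K`** : `Nonempty (Mw17GData T n t m₁)` from (R-prod), (G1), (G2), (G3_fin), the
  `K`-level (G4) identity and `hinf`;
* **`mw17sg_exists_B`** : the same from the `B`-level (G4) identity and (G3_inf) (`hinf` is derived
  by helper26's `mw17tb_bi_exists_eval_ne_zero`).
-/

set_option autoImplicit false

noncomputable section

namespace Fermat.Agent.MW17

open Fermat.Agent.V Fermat.Agent.HT MvPolynomial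

variable {K : Type*} [Field K] {δ : V27pShape}

/-- a polynomial is the sum of its monomials over any finset containing its support -/
theorem mw17sg_sum_monomial {σ A : Type*} [CommSemiring A] (X : MvPolynomial σ A)
    (I : Finset (σ →₀ ℕ)) (hI : ∀ β, β ∉ I → coeff β X = 0) :
    ∑ β ∈ I, monomial β (coeff β X) = X := by
  classical
  ext d
  rw [coeff_sum]
  simp only [coeff_monomial]
  rw [Finset.sum_ite_eq']
  split_ifs with h
  · rfl
  · exact (hI d h).symm

/-- a form of bidegree `(a, 0)` does not depend on the second group of variables -/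
theorem mw17sg_eval_indep {ι κ : Type*} [Fintype ι] [Fintype κ] {a : ℕ}
    {p : MvPolynomial (ι ⊕ κ) K} (hp : IsWeightedHomogeneous (htlBiw ι κ) p (a, 0))
    (u : ι → K) (y y' : κ → K) :
    eval (Sum.elim u y) p = eval (Sum.elim u y') p := by
  classical
  rw [eval_eq', eval_eq']
  refine Finset.sum_congr rfl fun d hd => ?_
  have h0 := hp (mem_support_iff.mp hd)
  rw [htl_weight_biw, Prod.mk.injEq] at h0
  have hz : ∀ j, d (Sum.inr j) = 0 := by
    intro j
    have := (Finset.sum_eq_zero_iff.mp h0.2) j (Finset.mem_univ j)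
    exact this
  rw [Fintype.prod_sum_type, Fintype.prod_sum_type]
  simp only [Sum.elim_inl, Sum.elim_inr, hz, pow_zero, Finset.prod_const_one]

section Abs

variable (T : V27pTable K δ) {n m₁ : ℕ}

/-- **assembly of `Mw17GData`, `K`-level form of (G4)** -/
theorem mw17sg_exists_K [Infinite K] (t : Mw17Idx δ n)
    (F : MvPolynomial (Mw17Idx δ (n * m₁) ⊕ Mw17Idx δ n) K)
    (hF : IsWeightedHomogeneous (htlBiw (Mw17Idx δ (n * m₁)) (Mw17Idx δ n)) F (n, n * m₁))
    (hdiv : mw17stH T (n * m₁) n F = mw17stU T (n * m₁) n * mw17stG T (n * m₁) n F)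
    (cst : (Mw17Idx δ (n * m₁) → K) → K) (hcst : ∀ u, u ≠ 0 → cst u ≠ 0)
    (hprodU : ∀ u : Mw17Idx δ (n * m₁) → K, u ≠ 0 → ∀ Z : Multiset (Mw17Pt T),
      Mw17IsZeros T (mw17Sec T (n * m₁) u) Z → Mw17stProdU F t u (cst u) Z)
    (hfin : ∀ u : Mw17Idx δ (n * m₁) → K, u ≠ 0 → ∀ R : Mw17Pt T,
      mw17stEv u R (mw17stG T (n * m₁) n F) ≠ 0)
    (I : Finset (Mw17stS δ n →₀ ℕ))
    (p : (Mw17stS δ n →₀ ℕ) → MvPolynomial (Mw17Idx δ (n * m₁) ⊕ Mw17Idx δ n) K)
    (hp : ∀ β ∈ I, IsWeightedHomogeneous (htlBiw (Mw17Idx δ (n * m₁)) (Mw17Idx δ n)) (p β)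
      (n - 1, n * m₁ - m₁))
    (hI : ∀ β, β ∉ I → p β = 0)
    (hcoef : ∀ (u : Mw17Idx δ (n * m₁) → K) (R : Mw17Pt T) (β : Mw17stS δ n →₀ ℕ),
      eval (Sum.elim u (mw17Psi T n R)) (p β) =
        coeff β (mw17stEv u R (mw17stG T (n * m₁) n F)))
    (hinf : ∀ u : Mw17Idx δ (n * m₁) → K, u ≠ 0 → ∃ β ∈ I,
      eval (Sum.elim u (Pi.single t (1 : K))) (p β) ≠ 0) :
    Nonempty (Mw17GData T n t m₁) := by
  classical
  have hsum : ∀ (u : Mw17Idx δ (n * m₁) → K) (R : Mw17Pt T),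
      ∑ ν ∈ I, monomial ν (eval (Sum.elim u (mw17Psi T n R)) (p ν)) =
        mw17stEv u R (mw17stG T (n * m₁) n F) := by
    intro u R
    rw [← mw17sg_sum_monomial (mw17stEv u R (mw17stG T (n * m₁) n F)) I (fun β hβ => by
      rw [← hcoef, hI β hβ, map_zero])]
    exact Finset.sum_congr rfl fun β _ => by rw [hcoef]
  refine ⟨{ F := F, Nu := I, p := p, hF := hF, hp := hp, prod := ?_, nonvan := ?_ }⟩
  · intro u hu Z hZ
    have hP := hprodU u hu Z hZ
    refine ⟨cst u, hcst u hu, fun y => ?_, fun R => ?_⟩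
    · rw [hP y]
      congr 1
      exact congrArg Multiset.prod (Multiset.map_congr rfl fun q _ => mw17Sec_apply T n y q)
    · rw [hsum, mw17Phi_none]
      exact mw17st_G2 hdiv hP R
  · intro u hu R
    cases R with
    | none =>
      obtain ⟨β, hβ, h⟩ := hinf u hu
      exact ⟨β, hβ, by rwa [mw17Phi_none]⟩
    | some R =>
      obtain ⟨β, hβ⟩ := MvPolynomial.ne_zero_iff.mp (hfin u hu R)
      have hβI : β ∈ I := by
        by_contra h
        apply hβ
        rw [← hcoef, hI β h, map_zero]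
      exact ⟨β, hβI, by rw [mw17Phi_some, hcoef]; exact hβ⟩

/-- the `B`-level (G4) identity implies the `K`-level one -/
theorem mw17sg_coef_K_of_B (F : MvPolynomial (Mw17Idx δ (n * m₁) ⊕ Mw17Idx δ n) K)
    (p : (Mw17stS δ n →₀ ℕ) → MvPolynomial (Mw17Idx δ (n * m₁) ⊕ Mw17Idx δ n) K)
    (hcoefB : ∀ (u : Mw17Idx δ (n * m₁) → K) (β : Mw17stS δ n →₀ ℕ),
      aeval (Sum.elim (fun i => algebraMap K (V27pB T) (u i)) (mw17Mon T (m := n))) (p β) =
        coeff β (mw17stEvB u (mw17stG T (n * m₁) n F)))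
    (u : Mw17Idx δ (n * m₁) → K) (R : Mw17Pt T) (β : Mw17stS δ n →₀ ℕ) :
    eval (Sum.elim u (mw17Psi T n R)) (p β) =
      coeff β (mw17stEv u R (mw17stG T (n * m₁) n F)) := by
  rw [← mw17st_map_EvB, coeff_map, ← hcoefB, RingHom.coe_coe, comp_aeval_apply, ← aeval_eq_eval]
  congr 2
  funext i
  cases i with
  | inl i => simp
  | inr j => rfl

/-- **assembly of `Mw17GData`, `B`-level form of (G4)**: `hinf` from (G3_inf) -/
theorem mw17sg_exists_B [Infinite K] (t : Mw17Idx δ n) (ht : mw17Wt t = n) (hn1 : 1 ≤ n)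
    (F : MvPolynomial (Mw17Idx δ (n * m₁) ⊕ Mw17Idx δ n) K)
    (hF : IsWeightedHomogeneous (htlBiw (Mw17Idx δ (n * m₁)) (Mw17Idx δ n)) F (n, n * m₁))
    (hdiv : mw17stH T (n * m₁) n F = mw17stU T (n * m₁) n * mw17stG T (n * m₁) n F)
    (cst : (Mw17Idx δ (n * m₁) → K) → K) (hcst : ∀ u, u ≠ 0 → cst u ≠ 0)
    (hprodU : ∀ u : Mw17Idx δ (n * m₁) → K, u ≠ 0 → ∀ Z : Multiset (Mw17Pt T),
      Mw17IsZeros T (mw17Sec T (n * m₁) u) Z → Mw17stProdU F t u (cst u) Z)
    (hfin : ∀ u : Mw17Idx δ (n * m₁) → K, u ≠ 0 → ∀ R : Mw17Pt T,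
      mw17stEv u R (mw17stG T (n * m₁) n F) ≠ 0)
    (hinfB : ∀ u : Mw17Idx δ (n * m₁) → K, u ≠ 0 → ∃ s : Mw17stS δ n → K,
      v27pOrd (eval (fun q => algebraMap K (V27pB T) (s q))
        (mw17stEvB u (mw17stG T (n * m₁) n F))) = n * m₁ * n - n * m₁)
    (hpt : Nonempty (Mw17Pt T))
    (I : Finset (Mw17stS δ n →₀ ℕ))
    (p : (Mw17stS δ n →₀ ℕ) → MvPolynomial (Mw17Idx δ (n * m₁) ⊕ Mw17Idx δ n) K)
    (hp : ∀ β ∈ I, IsWeightedHomogeneous (htlBiw (Mw17Idx δ (n * m₁)) (Mw17Idx δ n)) (p β)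
      (n - 1, n * m₁ - m₁))
    (hI : ∀ β, β ∉ I → p β = 0)
    (hcoefB : ∀ (u : Mw17Idx δ (n * m₁) → K) (β : Mw17stS δ n →₀ ℕ),
      aeval (Sum.elim (fun i => algebraMap K (V27pB T) (u i)) (mw17Mon T (m := n))) (p β) =
        coeff β (mw17stEvB u (mw17stG T (n * m₁) n F))) :
    Nonempty (Mw17GData T n t m₁) := by
  classical
  have hcoef := mw17sg_coef_K_of_B T F p hcoefB
  refine mw17sg_exists_K T t F hF hdiv cst hcst hprodU hfin I p hp hI hcoef fun u hu => ?_
  -- two cases: `n * m₁ - m₁ = 0` (then `n = 1` and nothing depends on `y`) or not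
  rcases Nat.eq_zero_or_pos (n * m₁ - m₁) with hb0 | hbpos
  · -- use a finite point
    obtain ⟨R⟩ := hpt
    obtain ⟨β, hβ⟩ := MvPolynomial.ne_zero_iff.mp (hfin u hu R)
    have hβI : β ∈ I := by
      by_contra h
      apply hβ
      rw [← hcoef, hI β h, map_zero]
    refine ⟨β, hβI, ?_⟩
    have hpβ := hp β hβI
    rw [hb0] at hpβ
    rw [mw17sg_eval_indep hpβ u _ (mw17Psi T n R), hcoef]
    exact hβ
  · obtain ⟨s, hs⟩ := hinfB u hu
    -- expand the evaluation at `s`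
    have hIB : ∀ β, β ∉ I → coeff β (mw17stEvB u (mw17stG T (n * m₁) n F)) = 0 := by
      intro β hβ
      rw [← hcoefB, hI β hβ, map_zero]
    have hexp : eval (fun q => algebraMap K (V27pB T) (s q))
        (mw17stEvB u (mw17stG T (n * m₁) n F)) =
        ∑ β ∈ I, (β.prod fun q e => s q ^ e) •
          aeval (Sum.elim (fun i => algebraMap K (V27pB T) (u i)) (mw17Mon T (m := n))) (p β) := by
      conv_lhs => rw [← mw17sg_sum_monomial (mw17stEvB u (mw17stG T (n * m₁) n F)) I hIB]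
      rw [map_sum]
      refine Finset.sum_congr rfl fun β _ => ?_
      rw [eval_monomial, hcoefB, Algebra.smul_def, mul_comm, map_finsuppProd]
      congr 1
      refine Finsupp.prod_congr fun q _ => ?_
      rw [map_pow]
    rw [hexp] at hs
    have harith : n * m₁ * n - n * m₁ = (n * m₁ - m₁) * n := by
      rw [Nat.sub_mul]
      congr 1
      ring
    rw [harith] at hs
    exact mw17tb_bi_exists_eval_ne_zero T t ht (Nat.mul_pos hbpos hn1) I p hp u _ hs

end Abs

end Fermat.Agent.MW17
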