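import Fermat.Agent.MW17.Star.PlugAbs
import Fermat.Agent.MW17.ResPoly

/-!
# Program MW (S17), heights half (A), core leaf (★): `Mw17GData` for the resultant polynomial

Owner: helper6.  Namespace `Fermat.Agent.MW17`, prefix `mw17sg`.

`F := mw17rpRes (mw17inVal T) (n * m₁) n` (helper17's resultant polynomial for helper4's valuation).
All `F`-side hypotheses of helper24's `Star/{G,G2,G3}.lean` which are one-liners from helper17's
`MW17/ResPoly.lean` and helper26's `MW17/GenPos.lean` are discharged here: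

* `mw17sgF`, `mw17sg_hdiv` (G1), `mw17sg_prodU` (R-prod), `mw17sg_genPos`, `mw17sg_hfin` (G3_fin, from
  `Mw17stProdT`), `mw17sg_hinfB` (G3_inf);
* **`mw17sg_exists_res`** : `Nonempty (Mw17GData T n (mw17tbTop δ n) m₁)` from `Mw17stProdT` and the
  `B`-level (G4) existential.
-/

set_option autoImplicit false
set_option linter.unusedSectionVars false

noncomputable section

namespace Fermat.Agent.MW17

open Fermat.Agent.V Fermat.Agent.HT Fermat.Agent.MW MvPolynomial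

variable {K : Type*} [Field K] [IsAlgClosed K] {δ : V27pShape} (T : V27pTable K δ)
  [IsDedekindDomain (V27pB T)]

/-- the resultant polynomial of bidegree `(n, n m₁)` -/
def mw17sgF (n m₁ : ℕ) : MvPolynomial (Mw17Idx δ (n * m₁) ⊕ Mw17Idx δ n) K :=
  have : Infinite K := IsAlgClosed.instInfinite
  mw17rpRes (mw17inVal T) (n * m₁) n

section

variable {n m₁ : ℕ} (hn : δ.bound ≤ n) (hn1 : 1 ≤ n) (hm₁ : 0 < m₁)

include hn hn1 hm₁

theorem mw17sg_pos : 0 < n * m₁ := Nat.mul_pos hn1 hm₁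

theorem mw17sg_nonGap : Mw17rpNonGap δ (n * m₁) :=
  mw17tb_exists_idx_of_bound (hn.trans (Nat.le_mul_of_pos_right n hm₁)) le_rfl

theorem mw17sg_nonGap' : Mw17rpNonGap δ n := ⟨mw17tbTop δ n, mw17tbTop_wt hn⟩

theorem mw17sg_hF :
    IsWeightedHomogeneous (htlBiw (Mw17Idx δ (n * m₁)) (Mw17Idx δ n)) (mw17sgF T n m₁)
      (n, n * m₁) := by
  have : Infinite K := IsAlgClosed.instInfinite
  exact mw17rpRes_hF (mw17inVal T) (fun _ => rfl) (mw17sg_pos hn hn1 hm₁) hn1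
    (mw17sg_nonGap hn hn1 hm₁) (mw17tbTop δ n) (mw17tbTop_wt hn)

theorem mw17sg_bihom : MwrpBihom (mw17sgF T n m₁) n (n * m₁) := by
  have : Infinite K := IsAlgClosed.instInfinite
  exact mw17rpRes_bihom (mw17inVal T) (fun _ => rfl) (mw17sg_pos hn hn1 hm₁) hn1
    (mw17sg_nonGap hn hn1 hm₁) (mw17sg_nonGap' hn hn1 hm₁)

/-- (G1) for the resultant -/
theorem mw17sg_hdiv :
    mw17stH T (n * m₁) n (mw17sgF T n m₁) =
      mw17stU T (n * m₁) n * mw17stG T (n * m₁) n (mw17sgF T n m₁) := by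
  have : Infinite K := IsAlgClosed.instInfinite
  exact mw17st_H_eq fun u t q h1 h2 =>
    mw17rpRes_hvan (mw17inVal T) (fun _ => rfl) (mw17sg_pos hn hn1 hm₁) hn1
      (mw17sg_nonGap hn hn1 hm₁) (mw17sg_nonGap' hn hn1 hm₁) u t q h1 h2

/-- (R-prod) for the resultant, in helper24's literal -/
theorem mw17sg_prodU (u : Mw17Idx δ (n * m₁) → K) (hu : u ≠ 0) (Z : Multiset (Mw17Pt T))
    (hZ : Mw17IsZeros T (mw17Sec T (n * m₁) u) Z) :
    Mw17stProdU (mw17sgF T n m₁) (mw17tbTop δ n) u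
      (mw17rpC (mw17inVal T) (n * m₁) n (mw17tbTop δ n) u) Z := by
  have : Infinite K := IsAlgClosed.instInfinite
  intro y
  have h := mw17rpRes_prod_top (mw17inVal T) (fun _ => rfl) (mw17sg_pos hn hn1 hm₁) hn1
    (mw17sg_nonGap hn hn1 hm₁) (mw17tbTop δ n) (mw17tbTop_wt hn) hu hZ y
  rw [mw17sgF, h]
  congr 1
  exact congrArg Multiset.prod (Multiset.map_congr rfl fun q _ => (mw17Sec_apply T n y q).symm)

omit hm₁ in
/-- general position (helper26's `mw17gen_exists`) in helper24's literal -/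
theorem mw17sg_genPos (hN : δ.N ≤ n) : Mw17stGenPos T n := by
  have : Infinite K := IsAlgClosed.instInfinite
  intro R S hS
  exact mw17gen_exists T hN hn hn1 R S hS

/-- (G3_fin) for the resultant, from (R-prod') -/
theorem mw17sg_hfin (hN : δ.N ≤ n)
    (hT : Mw17stProdT T (n * m₁) n (mw17sgF T n m₁))
    (u : Mw17Idx δ (n * m₁) → K) (hu : u ≠ 0) (R : Mw17Pt T) :
    mw17stEv u R (mw17stG T (n * m₁) n (mw17sgF T n m₁)) ≠ 0 := by
  have : Infinite K := IsAlgClosed.instInfinite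
  have hb : mw17Sec T (n * m₁) u ≠ 0 := by rw [ne_eq, mw17in_sec_eq_zero_iff]; exact hu
  exact mw17st_G3_fin (mw17sg_hdiv T hn hn1 hm₁) hT (mw17sg_genPos T hn hn1 hN) u
    (mw17inZeros T (mw17Sec T (n * m₁) u))
    (fun q hq => (mw17in_mem_zeros_iff T hb q).mpr hq) R

end

section

variable {n m₁ : ℕ}

/-- (G3_inf) for the resultant -/
theorem mw17sg_hinfB (hn : 2 * δ.bound ≤ n) (hn1 : 1 ≤ n) (hm₁ : 0 < m₁)
    (u : Mw17Idx δ (n * m₁) → K) (hu : u ≠ 0) :
    ∃ s : Mw17stS δ n → K,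
      v27pOrd (eval (fun q => algebraMap K (V27pB T) (s q))
        (mw17stEvB u (mw17stG T (n * m₁) n (mw17sgF T n m₁)))) = n * m₁ * n - n * m₁ := by
  have hn' : δ.bound ≤ n := by omega
  have hb : mw17Sec T (n * m₁) u ≠ 0 := by rw [ne_eq, mw17in_sec_eq_zero_iff]; exact hu
  obtain ⟨top', htop'⟩ := mw17tb_exists_idx_of_bound (δ := δ) (m := n) (k := n - 1)
    (by omega) (by omega)
  have hZ := mw17in_isZeros T hb
  exact mw17st_G3_inf (top := mw17tbTop δ n) (top' := top') hn1 (mw17tbTop_wt hn') htop' hu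
    (mw17rpC_ne_zero (mw17inVal T) (n * m₁) n (mw17tbTop δ n) hu) hZ.1
    (mw17sg_hdiv T hn' hn1 hm₁) (mw17sg_prodU T hn' hn1 hm₁ u hu _ hZ)

theorem mw17sg_nonempty_pt : Nonempty (Mw17Pt T) := by
  by_contra h
  rw [not_nonempty_iff] at h
  exact one_ne_zero (mw17st_points_sep T (1 : V27pB T) fun q => (h.false q).elim)

/-- **`Mw17GData` for the resultant**, from (R-prod') `Mw17stProdT` and the `B`-level (G4)
regrouping. -/
theorem mw17sg_exists_res (hN : δ.N ≤ n) (hn : 2 * δ.bound ≤ n) (hn1 : 1 ≤ n) (hm₁ : 0 < m₁)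
    (hT : Mw17stProdT T (n * m₁) n (mw17sgF T n m₁))
    (hG4 : ∃ (I : Finset (Mw17stS δ n →₀ ℕ))
      (p : (Mw17stS δ n →₀ ℕ) → MvPolynomial (Mw17Idx δ (n * m₁) ⊕ Mw17Idx δ n) K),
      (∀ β ∈ I, IsWeightedHomogeneous (htlBiw (Mw17Idx δ (n * m₁)) (Mw17Idx δ n)) (p β)
        (n - 1, n * m₁ - m₁)) ∧
      (∀ β, β ∉ I → p β = 0) ∧
      ∀ (u : Mw17Idx δ (n * m₁) → K) (β : Mw17stS δ n →₀ ℕ),
        aeval (Sum.elim (fun i => algebraMap K (V27pB T) (u i)) (mw17Mon T (m := n))) (p β) =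
          coeff β (mw17stEvB u (mw17stG T (n * m₁) n (mw17sgF T n m₁)))) :
    Nonempty (Mw17GData T n (mw17tbTop δ n) m₁) := by
  have : Infinite K := IsAlgClosed.instInfinite
  have hn' : δ.bound ≤ n := by omega
  obtain ⟨I, p, hp, hI, hcoefB⟩ := hG4
  exact mw17sg_exists_B T (mw17tbTop δ n) (mw17tbTop_wt hn') hn1 (mw17sgF T n m₁)
    (mw17sg_hF T hn' hn1 hm₁) (mw17sg_hdiv T hn' hn1 hm₁)
    (mw17rpC (mw17inVal T) (n * m₁) n (mw17tbTop δ n))
    (fun u hu => mw17rpC_ne_zero (mw17inVal T) (n * m₁) n (mw17tbTop δ n) hu)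
    (mw17sg_prodU T hn' hn1 hm₁)
    (mw17sg_hfin T hn' hn1 hm₁ hN hT)
    (mw17sg_hinfB T hn hn1 hm₁)
    (mw17sg_nonempty_pt T) I p hp hI hcoefB

end

end Fermat.Agent.MW17
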