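import Fermat.Agent.MW17.Star.TanAlg
import Fermat.Agent.MW17.Star.Chain
import Fermat.Agent.MW17.Setup
import Fermat.Agent.HT.GelfondLoc

/-!
# Program MW (S17), heights half, §5: (★-tan), plug form

Owner: helper5.  Namespace `Fermat.Agent.MW17`, prefix `mw17tn`.

* `mw17tn_gelfond` : the Gelfond step: from a polynomial identity
  `c · G = a · ∏_{v ∈ V} ⟨s, v⟩` in `K[s]` (at most `D` linear factors) the two-sided estimate
  `w c · ‖G‖ ≍ w a · ∏ ‖v‖`, in the `∃ C : HtConst K, ∀ w : HtAbs K` shape.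
* `mw17tn_main` : (★-tan) two-sided, from the specialised algebraic identities (G1s), (G2s) of
  the G-leaf and the four analytic inputs (M), (GN), (PN), (E∞) of the Off-leaf, all taken as
  hypotheses in their natural literal shape (so that this file has no coupling).
-/

set_option autoImplicit false
set_option linter.unusedSectionVars false

noncomputable section

namespace Fermat.Agent.MW17

open MvPolynomial Fermat.Agent.HT Fermat.Agent.V

section Gelfond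

variable {K : Type*} [Field K] {σ : Type*}

theorem mw17tn_sup_C_mul (v : AbsoluteValue K ℝ) (c : K) (f : MvPolynomial σ K) :
    htggSup v (C c * f) = v c * htggSup v f := by
  unfold htggSup
  simp only [coeff_C_mul, map_mul]
  rw [Real.mul_iSup_of_nonneg (v.nonneg c)]

/-- **the Gelfond step** -/
theorem mw17tn_gelfond (σ : Type*) [Fintype σ] (K : Type*) [Field K] (D : ℕ) :
    ∃ Cg : HtConst K, ∀ (w : HtAbs K) (c a : K) (Gq : MvPolynomial σ K)
      (V : Multiset (σ → K)), V.card ≤ D →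
      C c * Gq = C a * (V.map htggLin).prod →
      w.1 c * htggSup w.1 Gq ≤ Cg.val w.1 * (w.1 a * (V.map (htlSup w.1)).prod) ∧
      w.1 a * (V.map (htlSup w.1)).prod ≤ Cg.val w.1 * (w.1 c * htggSup w.1 Gq) := by
  obtain ⟨Cg, hC⟩ := htgg_chow_loc_multiset σ K D
  refine ⟨Cg, fun w c a Gq V hV hid => ?_⟩
  have h := hC w V hV (fun v => v)
  have e1 : w.1 c * htggSup w.1 Gq = w.1 a * htggSup w.1 (V.map htggLin).prod := by
    rw [← mw17tn_sup_C_mul, hid, mw17tn_sup_C_mul]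
  have ha : 0 ≤ w.1 a := w.1.nonneg a
  rw [e1]
  constructor
  · calc w.1 a * htggSup w.1 (V.map htggLin).prod
        ≤ w.1 a * (Cg.val w.1 * (V.map (htlSup w.1)).prod) :=
          mul_le_mul_of_nonneg_left h.2 ha
      _ = Cg.val w.1 * (w.1 a * (V.map (htlSup w.1)).prod) := by ring
  · calc w.1 a * (V.map (htlSup w.1)).prod
        ≤ w.1 a * (Cg.val w.1 * htggSup w.1 (V.map htggLin).prod) :=
          mul_le_mul_of_nonneg_left h.1 ha
      _ = Cg.val w.1 * (w.1 a * htggSup w.1 (V.map htggLin).prod) := by ring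

end Gelfond

section Consts

variable {K : Type*} [Field K]

/-- five constants into one -/
theorem mw17tn_val_mul5 (C₁ C₂ C₃ C₄ C₅ : HtConst K) (w : AbsoluteValue K ℝ) :
    C₁.val w * C₂.val w * C₃.val w * C₄.val w * C₅.val w ≤
      (C₁.mul (C₂.mul (C₃.mul (C₄.mul C₅)))).val w := by
  have h45 := htl_val_mul_le C₄ C₅ w
  have h345 := htl_val_mul_le C₃ (C₄.mul C₅) w
  have h2345 := htl_val_mul_le C₂ (C₃.mul (C₄.mul C₅)) w
  have h12345 := htl_val_mul_le C₁ (C₂.mul (C₃.mul (C₄.mul C₅))) w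
  have p1 := htl_val_nonneg C₁ w
  have p2 := htl_val_nonneg C₂ w
  have p3 := htl_val_nonneg C₃ w
  have p4 := htl_val_nonneg C₄ w
  calc C₁.val w * C₂.val w * C₃.val w * C₄.val w * C₅.val w
      = C₁.val w * (C₂.val w * (C₃.val w * (C₄.val w * C₅.val w))) := by ring
    _ ≤ C₁.val w * (C₂.val w * (C₃.val w * (C₄.mul C₅).val w)) := by gcongr
    _ ≤ C₁.val w * (C₂.val w * (C₃.mul (C₄.mul C₅)).val w) := by gcongr
    _ ≤ C₁.val w * (C₂.mul (C₃.mul (C₄.mul C₅))).val w := by gcongr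
    _ ≤ _ := h12345

end Consts

section Main

variable {K : Type*} [Field K] {δ : V27pShape} (T : V27pTable K δ) (m n : ℕ)

theorem mw17tn_mon_eq_smul {m : ℕ} (i : Mw17Idx δ m) :
    mw17Mon T i = (Polynomial.X ^ (i.1.2 : ℕ) : Polynomial K) • V27pB.e (T := T) i.1.1 := by
  unfold mw17Mon V27pB.x
  rw [← map_pow, ← Algebra.smul_def]

theorem mw17tn_ord_mon {m : ℕ} (i : Mw17Idx δ m) : v27pOrd (mw17Mon T i) = mw17Wt i := by
  rw [mw17tn_mon_eq_smul, v27pOrd_smul_e _ (pow_ne_zero _ Polynomial.X_ne_zero),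
    Polynomial.natDegree_X_pow]
  rfl

/-- sections of `L_m` have pole order at most `m` -/
theorem mw17tn_ord_sec_le (u : Mw17Idx δ m → K) : v27pOrd (mw17Sec T m u) ≤ m := by
  classical
  rw [v27pOrd_le_iff]
  unfold mw17Sec
  have key : ∀ s : Finset (Mw17Idx δ m), V27pLe (∑ i ∈ s, u i • mw17Mon T i) m := by
    intro s
    induction s using Finset.induction_on with
    | empty => rw [Finset.sum_empty]; exact V27pLe.zero m
    | insert i s hi ih =>
      rw [Finset.sum_insert hi]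
      refine V27pLe.add (V27pLe.smul_const ?_ _) ih
      rw [← v27pOrd_le_iff, mw17tn_ord_mon]
      exact mw17Wt_le i
  exact key Finset.univ

/-- the vector `φ'(q)` of the first jets of the monomial basis of `L_n` -/
def mw17tnDphi (q : Mw17Pt T) (τ : V27pB T) : Mw17Idx δ n → K :=
  fun i => mw17jtJet q τ (mw17Mon T i)

/-- **(★-tan), plug form.**  `IsZ u Z` = "`Z` is the zero multiset of `sec u`"; `Hs u`, `Gs u` =
the polynomials `H(u;s)`, `G(u;s)` of the G-leaf with the `u`-variables specialised;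
`a u = ± lc(sec u)^n`; `Einf = ℓ_∞(s)`, `vinf q` the coefficient vector of `ℓ_∞(s)(q)`. -/
theorem mw17tn_main (hn : 1 ≤ n)
    (IsZ : (Mw17Idx δ m → K) → Multiset (Mw17Pt T) → Prop)
    (Hs Gs : (Mw17Idx δ m → K) → MvPolynomial (Mw17Idx δ n × Mw17Idx δ n) (V27pB T))
    (Einf : MvPolynomial (Mw17Idx δ n × Mw17Idx δ n) (V27pB T))
    (vinf : Mw17Pt T → (Mw17Idx δ n × Mw17Idx δ n → K))
    (a : (Mw17Idx δ m → K) → K)
    (hzero : ∀ u Z, IsZ u Z → ∀ P ∈ Z, (P : Mw17Pt T) (mw17Sec T m u) = 0)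
    (hcard : ∀ u Z, u ≠ 0 → IsZ u Z → Z.card = v27pOrd (mw17Sec T m u))
    (hG1 : ∀ u, Hs u = C (mw17Sec T m u) * Gs u)
    (hG2 : ∀ u Z, u ≠ 0 → IsZ u Z →
      Hs u = C (algebraMap K (V27pB T) (a u)) * Einf ^ (m - v27pOrd (mw17Sec T m u)) *
        (Z.map fun P : Mw17Pt T =>
          mw17tnEll (fun i : Mw17Idx δ n => mw17Mon T i) (mw17Psi T n P)).prod)
    (hinf : ∀ q : Mw17Pt T, map (q : V27pB T →+* K) Einf = htggLin (vinf q))
    (HM : ∃ C₃ : HtConst K, ∀ (w : HtAbs K) (u : Mw17Idx δ m → K) (Z : Multiset (Mw17Pt T)),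
      u ≠ 0 → IsZ u Z →
        htlSup w.1 u ^ n ≤
          C₃.val w.1 * (w.1 (a u) * (Z.map fun P => htlSup w.1 (mw17Psi T n P)).prod) ∧
        w.1 (a u) * (Z.map fun P => htlSup w.1 (mw17Psi T n P)).prod ≤
          C₃.val w.1 * htlSup w.1 u ^ n)
    (HGN : ∃ C₂ : HtConst K, ∀ (w : HtAbs K) (u : Mw17Idx δ m → K) (q : Mw17Pt T), u ≠ 0 →
        htggSup w.1 (map (q : V27pB T →+* K) (Gs u)) ≤
          C₂.val w.1 * (htlSup w.1 u ^ (n - 1) * htlSup w.1 (mw17Psi T (m * n - m) q)) ∧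
        htlSup w.1 u ^ (n - 1) * htlSup w.1 (mw17Psi T (m * n - m) q) ≤
          C₂.val w.1 * htggSup w.1 (map (q : V27pB T →+* K) (Gs u)))
    (HPN : ∃ C₄ : HtConst K, ∀ (w : HtAbs K) (q : Mw17Pt T),
        htlSup w.1 (mw17Psi T (m * n - m) q) * htlSup w.1 (mw17Psi T m q) ≤
          C₄.val w.1 * htlSup w.1 (mw17Psi T n q) ^ m ∧
        htlSup w.1 (mw17Psi T n q) ^ m ≤
          C₄.val w.1 * (htlSup w.1 (mw17Psi T (m * n - m) q) * htlSup w.1 (mw17Psi T m q)))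
    (HE : ∃ C₅ : HtConst K, ∀ (w : HtAbs K) (q : Mw17Pt T),
        htlSup w.1 (vinf q) ≤ C₅.val w.1 * htlSup w.1 (mw17Psi T (n - 1) q) ∧
        htlSup w.1 (mw17Psi T (n - 1) q) ≤ C₅.val w.1 * htlSup w.1 (vinf q)) :
    ∃ Ct : HtConst K, ∀ (w : HtAbs K) (u : Mw17Idx δ m → K), u ≠ 0 → ∀ (q : Mw17Pt T)
      (τ : V27pB T), Mw17jtParam q τ → ∀ Z' : Multiset (Mw17Pt T), IsZ u (q ::ₘ Z') →
      w.1 (mw17jtJet q τ (mw17Sec T m u)) *
          (htlSup w.1 (mw17Psi T n q) ^ m *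
            (htlSup w.1 (mw17Psi T n q) * (Z'.map fun P => htlSup w.1 (mw17Psi T n P)).prod)) ≤
        Ct.val w.1 * (htlSup w.1 u * htlSup w.1 (mw17Psi T m q) *
          (htlSup w.1 (mw17Psi T (n - 1) q) ^ (m - v27pOrd (mw17Sec T m u)) *
            htlSup w.1 (htlWedge (mw17Psi T n q) (mw17tnDphi T n q τ)) *
            (Z'.map fun P => htlSup w.1 (htlWedge (mw17Psi T n P) (mw17Psi T n q))).prod)) ∧
      htlSup w.1 u * htlSup w.1 (mw17Psi T m q) *
          (htlSup w.1 (mw17Psi T (n - 1) q) ^ (m - v27pOrd (mw17Sec T m u)) *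
            htlSup w.1 (htlWedge (mw17Psi T n q) (mw17tnDphi T n q τ)) *
            (Z'.map fun P => htlSup w.1 (htlWedge (mw17Psi T n P) (mw17Psi T n q))).prod) ≤
        Ct.val w.1 * (w.1 (mw17jtJet q τ (mw17Sec T m u)) *
          (htlSup w.1 (mw17Psi T n q) ^ m *
            (htlSup w.1 (mw17Psi T n q) *
              (Z'.map fun P => htlSup w.1 (mw17Psi T n P)).prod))) := by
  classical
  obtain ⟨C₁, hC₁⟩ := mw17tn_gelfond (Mw17Idx δ n × Mw17Idx δ n) K m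
  obtain ⟨C₂, hC₂⟩ := HGN
  obtain ⟨C₃, hC₃⟩ := HM
  obtain ⟨C₄, hC₄⟩ := HPN
  obtain ⟨C₅, hC₅⟩ := HE
  refine ⟨C₁.mul (C₂.mul (C₃.mul (C₄.mul (C₅.pow m)))), ?_⟩
  intro w u hu q τ hτ Z' hZ
  -- notation
  set b := mw17Sec T m u with hb
  set k := m - v27pOrd b with hk
  have hkm : k ≤ m := Nat.sub_le _ _
  have hb0 : q b = 0 := hzero u _ hZ q (Multiset.mem_cons_self q Z')
  set mon : Mw17Idx δ n → V27pB T := fun i => mw17Mon T i with hmon
  -- the algebraic identity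
  have hG2' : Hs u = C (algebraMap K (V27pB T) (a u)) * Einf ^ k *
      mw17tnEll mon (fun i => q (mon i)) *
      ((Z'.map (mw17Psi T n)).map (mw17tnEll mon)).prod := by
    rw [hG2 u (q ::ₘ Z') hu hZ, Multiset.map_cons, Multiset.prod_cons, Multiset.map_map,
      ← mul_assoc]
    rfl
  have hid := mw17tn_identity hτ mon hb0 (Hs u) (Gs u) Einf (hG1 u) (a u) k
    (Z'.map (mw17Psi T n)) hG2'
  rw [hinf q, Multiset.map_map] at hid
  -- the multiset of wedge vectors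
  set wt : Mw17Idx δ n × Mw17Idx δ n → K :=
    htlWedge (mw17Psi T n q) (mw17tnDphi T n q τ) with hwt
  set Wv : Multiset (Mw17Idx δ n × Mw17Idx δ n → K) :=
    Z'.map fun P => htlWedge (mw17Psi T n P) (mw17Psi T n q) with hWv
  set V : Multiset (Mw17Idx δ n × Mw17Idx δ n → K) :=
    Multiset.replicate k (vinf q) + (wt ::ₘ Wv) with hV
  have hVprod : (V.map htggLin).prod =
      htggLin (vinf q) ^ k * (htggLin wt * (Wv.map htggLin).prod) := by
    rw [hV, Multiset.map_add, Multiset.prod_add, Multiset.map_replicate, Multiset.prod_replicate,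
      Multiset.map_cons, Multiset.prod_cons]
  have hVsup : (V.map (htlSup w.1)).prod =
      htlSup w.1 (vinf q) ^ k * (htlSup w.1 wt * (Wv.map (htlSup w.1)).prod) := by
    rw [hV, Multiset.map_add, Multiset.prod_add, Multiset.map_replicate, Multiset.prod_replicate,
      Multiset.map_cons, Multiset.prod_cons]
  have hVcard : V.card ≤ m := by
    have hc : (q ::ₘ Z').card = v27pOrd b := hcard u _ hu hZ
    rw [Multiset.card_cons] at hc
    have ho : v27pOrd b ≤ m := mw17tn_ord_sec_le T m u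
    rw [hV, Multiset.card_add, Multiset.card_replicate, Multiset.card_cons, hWv,
      Multiset.card_map]
    omega
  have hid' : C (mw17jtJet q τ b) * map (q : V27pB T →+* K) (Gs u) =
      C (a u) * (V.map htggLin).prod := by
    rw [hVprod, hid, hWv, Multiset.map_map]
    simp only [mul_assoc]
    rfl
  obtain ⟨g1, g2⟩ := hC₁ w (mw17jtJet q τ b) (a u) _ V hVcard hid'
  rw [hVsup, hWv, Multiset.map_map] at g1 g2
  obtain ⟨n1, n2⟩ := hC₂ w u q hu
  obtain ⟨m1, m2⟩ := hC₃ w u _ hu hZ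
  rw [Multiset.map_cons, Multiset.prod_cons] at m1 m2
  obtain ⟨p1, p2⟩ := hC₄ w q
  obtain ⟨e1, e2⟩ := hC₅ w q
  -- real numbers
  set J := w.1 (mw17jtJet q τ b) with hJ
  set Gn := htggSup w.1 (map (q : V27pB T →+* K) (Gs u)) with hGn
  set A := w.1 (a u) with hA
  set E := htlSup w.1 (vinf q) with hE
  set Ninf := htlSup w.1 (mw17Psi T (n - 1) q) with hNinf
  set Wt := htlSup w.1 wt with hWt
  set PW := (Z'.map ((htlSup w.1) ∘ fun P => htlWedge (mw17Psi T n P) (mw17Psi T n q))).prod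
    with hPW
  set U := htlSup w.1 u with hU
  set N1 := htlSup w.1 (mw17Psi T (m * n - m) q) with hN1
  set N2 := htlSup w.1 (mw17Psi T m q) with hN2
  set F := htlSup w.1 (mw17Psi T n q) with hF
  set Pi := (Z'.map fun P => htlSup w.1 (mw17Psi T n P)).prod with hPi
  have hJ0 : 0 ≤ J := w.1.nonneg _
  have hE0 : 0 ≤ E := htlSup_nonneg _ _
  have hNinf0 : 0 ≤ Ninf := htlSup_nonneg _ _
  have hWt0 : 0 ≤ Wt := htlSup_nonneg _ _
  have hPW0 : 0 ≤ PW := by
    apply Multiset.prod_nonneg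
    intro x hx
    obtain ⟨P, -, rfl⟩ := Multiset.mem_map.1 hx
    exact htlSup_nonneg _ _
  have hU0 : 0 < U := htlSup_pos_iff.2 hu
  have hN20 : 0 ≤ N2 := htlSup_nonneg _ _
  have hF0 : 0 ≤ F := htlSup_nonneg _ _
  have hPi0 : 0 ≤ Pi := by
    apply Multiset.prod_nonneg
    intro x hx
    obtain ⟨P, -, rfl⟩ := Multiset.mem_map.1 hx
    exact htlSup_nonneg _ _
  have c1 := htl_val_nonneg C₁ w.1
  have c2 := htl_val_nonneg C₂ w.1
  have c3 := htl_val_nonneg C₃ w.1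
  have c4 := htl_val_nonneg C₄ w.1
  have c5 := htl_val_nonneg C₅ w.1
  have c5one := htl_one_le_val C₅ w.1
  have hX0 : 0 ≤ E ^ k * (Wt * PW) := mul_nonneg (pow_nonneg hE0 _) (mul_nonneg hWt0 hPW0)
  have hX'0 : 0 ≤ Ninf ^ k * Wt * PW :=
    mul_nonneg (mul_nonneg (pow_nonneg hNinf0 _) hWt0) hPW0
  -- the two chains
  have hle := mw17ch_le (J := J) (Gn := Gn) (A := A) (X := E ^ k * (Wt * PW)) (U := U) (N1 := N1)
    (N2 := N2) (Fm := F ^ m) (Pi' := F * Pi) (n := n) hn hJ0 hX0 hU0 hN20 (mul_nonneg hF0 hPi0)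
    c1 c2 c4 g1 n2 m2 p2
  have hge := mw17ch_ge (J := J) (Gn := Gn) (A := A) (X := E ^ k * (Wt * PW)) (U := U) (N1 := N1)
    (N2 := N2) (Fm := F ^ m) (Pi' := F * Pi) (n := n) hn hJ0 hX0 hU0 hN20 (mul_nonneg hF0 hPi0)
    c1 c2 c3 g2 n1 m1 p1
  -- compare `E` with `Ninf`
  have hpowle : C₅.val w.1 ^ k ≤ C₅.val w.1 ^ m := pow_le_pow_right₀ c5one hkm
  have hEk : E ^ k ≤ C₅.val w.1 ^ m * Ninf ^ k := by
    calc E ^ k ≤ (C₅.val w.1 * Ninf) ^ k := pow_le_pow_left₀ hE0 e1 k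
      _ = C₅.val w.1 ^ k * Ninf ^ k := mul_pow _ _ _
      _ ≤ C₅.val w.1 ^ m * Ninf ^ k :=
          mul_le_mul_of_nonneg_right hpowle (pow_nonneg hNinf0 _)
  have hNk : Ninf ^ k ≤ C₅.val w.1 ^ m * E ^ k := by
    calc Ninf ^ k ≤ (C₅.val w.1 * E) ^ k := pow_le_pow_left₀ hNinf0 e2 k
      _ = C₅.val w.1 ^ k * E ^ k := mul_pow _ _ _
      _ ≤ C₅.val w.1 ^ m * E ^ k :=
          mul_le_mul_of_nonneg_right hpowle (pow_nonneg hE0 _)
  have hconst := mw17tn_val_mul5 C₁ C₂ C₃ C₄ (C₅.pow m) w.1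
  rw [htl_val_pow_eq] at hconst
  have hWP0 : 0 ≤ Wt * PW := mul_nonneg hWt0 hPW0
  have hUN0 : 0 ≤ U * N2 := mul_nonneg hU0.le hN20
  constructor
  · calc J * (F ^ m * (F * Pi))
        ≤ C₁.val w.1 * C₂.val w.1 * C₃.val w.1 * C₄.val w.1 * (U * N2 * (E ^ k * (Wt * PW))) := hle
      _ ≤ C₁.val w.1 * C₂.val w.1 * C₃.val w.1 * C₄.val w.1 *
            (U * N2 * (C₅.val w.1 ^ m * Ninf ^ k * (Wt * PW))) := by gcongr
      _ = C₁.val w.1 * C₂.val w.1 * C₃.val w.1 * C₄.val w.1 * C₅.val w.1 ^ m *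
            (U * N2 * (Ninf ^ k * Wt * PW)) := by ring
      _ ≤ _ := mul_le_mul_of_nonneg_right hconst (mul_nonneg hUN0 hX'0)
  · have hJF0 : 0 ≤ J * (F ^ m * (F * Pi)) :=
      mul_nonneg hJ0 (mul_nonneg (pow_nonneg hF0 _) (mul_nonneg hF0 hPi0))
    calc U * N2 * (Ninf ^ k * Wt * PW)
        = U * N2 * (Ninf ^ k * (Wt * PW)) := by ring
      _ ≤ U * N2 * (C₅.val w.1 ^ m * E ^ k * (Wt * PW)) := by gcongr
      _ = C₅.val w.1 ^ m * (U * N2 * (E ^ k * (Wt * PW))) := by ring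
      _ ≤ C₅.val w.1 ^ m * (C₁.val w.1 * C₂.val w.1 * C₃.val w.1 * C₄.val w.1 *
            (J * (F ^ m * (F * Pi)))) :=
          mul_le_mul_of_nonneg_left hge (pow_nonneg c5 _)
      _ = C₁.val w.1 * C₂.val w.1 * C₃.val w.1 * C₄.val w.1 * C₅.val w.1 ^ m *
            (J * (F ^ m * (F * Pi))) := by ring
      _ ≤ _ := mul_le_mul_of_nonneg_right hconst hJF0

end Main

end Fermat.Agent.MW17
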