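import Fermat.Agent.MW17.Jet
import Fermat.Agent.HT.GelfondLin
import Fermat.Agent.HT.Loc

/-!
# Program MW (S17), heights half, §5 (★-tan): the algebraic identity

Owner: helper5.  Namespace `Fermat.Agent.MW17`, prefix `mw17tn`.  Imports: helper14's
`MW17/Jet.lean` (first jets, Leibniz) and helper6's `HT/GelfondLin.lean` (`htggLin`), helper13's `HT/Loc.lean` (`htlWedge`).

Abstract setting: `B` a commutative `K`-algebra, `q : B →ₐ[K] K` a point with local parameter
`τ`, `mon : ι → B` a finite family (the monomial basis `φ` of `L_n`).  For a vector `y : ι → K`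
put `ℓ_y(s) := Σ_{(a,b)} s_{ab} (y_a mon_b − y_b mon_a) ∈ B[s]` (`mw17tnEll`); for a point `P`,
`ℓ_P := ℓ_{φ(P)}` vanishes at `P`.

`mw17tn_identity` : if `H = b · G` in `B[s]` with `q b = 0`, and
`H = a · E^k · ℓ_{φ(q)} · ∏_{y ∈ Z'} ℓ_y`, then in `K[s]`

  `jet b · G(q) = a · E(q)^k · ⟨s, φ(q) ∧ φ'(q)⟩ · ∏_{y ∈ Z'} ⟨s, y ∧ φ(q)⟩`.
-/

set_option autoImplicit false
set_option linter.unusedSectionVars false

noncomputable section

namespace Fermat.Agent.MW17

open MvPolynomial Fermat.Agent.HT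

variable {K B : Type*} [Field K] [CommRing B] [Algebra K B] {ι : Type*} [Fintype ι]

/-- `ℓ_y(s) = Σ_{(a,b)} s_{ab} (y_a mon_b − y_b mon_a)` -/
def mw17tnEll (mon : ι → B) (y : ι → K) : MvPolynomial (ι × ι) B :=
  ∑ p : ι × ι, C (y p.1 • mon p.2 - y p.2 • mon p.1) * X p

theorem mw17tn_map_ell (q : B →ₐ[K] K) (mon : ι → B) (y : ι → K) :
    map (q : B →+* K) (mw17tnEll mon y) =
      htggLin (htlWedge y (fun i => q (mon i))) := by
  unfold mw17tnEll htggLin
  rw [map_sum]
  refine Finset.sum_congr rfl fun p _ => ?_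
  rw [map_mul, map_C, map_X]
  congr 2
  simp only [htlWedge, RingHom.coe_coe, map_sub, map_smul, smul_eq_mul]

theorem mw17tn_map_ell_self (q : B →ₐ[K] K) (mon : ι → B) :
    map (q : B →+* K) (mw17tnEll mon (fun i => q (mon i))) = 0 := by
  rw [mw17tn_map_ell, htlWedge_self]
  simp [htggLin]

theorem mw17tn_jetPoly_X {q : B →ₐ[K] K} {τ : B} (h : Mw17jtParam q τ) (p : ι × ι) :
    mw17jtJetPoly q τ (X p : MvPolynomial (ι × ι) B) = 0 := by
  have := mw17jt_jetPoly_map_algebraMap h (X p : MvPolynomial (ι × ι) K)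
  rwa [map_X] at this

theorem mw17tn_jetPoly_ell {q : B →ₐ[K] K} {τ : B} (h : Mw17jtParam q τ) (mon : ι → B)
    (y : ι → K) :
    mw17jtJetPoly q τ (mw17tnEll mon y) =
      htggLin (htlWedge y (fun i => mw17jtJet q τ (mon i))) := by
  unfold mw17tnEll htggLin
  rw [mw17jt_jetPoly_sum]
  refine Finset.sum_congr rfl fun p _ => ?_
  rw [mw17jt_jetPoly_mul h, mw17tn_jetPoly_X h, mul_zero, zero_add, map_X, mw17jt_jetPoly_C,
    mul_comm]
  congr 2
  simp only [htlWedge, map_sub, map_smul, smul_eq_mul]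

/-- the jet of `b · G` at a zero of `b` -/
theorem mw17tn_jetPoly_C_mul {q : B →ₐ[K] K} {τ : B} (h : Mw17jtParam q τ) {b : B}
    (hb : q b = 0) (G : MvPolynomial (ι × ι) B) :
    mw17jtJetPoly q τ (C b * G) = C (mw17jtJet q τ b) * map (q : B →+* K) G := by
  rw [mw17jt_jetPoly_mul h, map_C, RingHom.coe_coe, hb, map_zero, zero_mul, zero_add,
    mw17jt_jetPoly_C, mul_comm]

/-- the jet of a product one of whose factors vanishes at `q` -/
theorem mw17tn_jetPoly_mul_of_zero {q : B →ₐ[K] K} {τ : B} (h : Mw17jtParam q τ)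
    {P : MvPolynomial (ι × ι) B} (hP : map (q : B →+* K) P = 0) (Q : MvPolynomial (ι × ι) B) :
    mw17jtJetPoly q τ (P * Q) = mw17jtJetPoly q τ P * map (q : B →+* K) Q := by
  rw [mw17jt_jetPoly_mul h, hP, zero_mul, zero_add, mul_comm]

/-- **the algebraic identity behind (★-tan)** -/
theorem mw17tn_identity {q : B →ₐ[K] K} {τ : B} (h : Mw17jtParam q τ) (mon : ι → B)
    {b : B} (hb : q b = 0) (H G E : MvPolynomial (ι × ι) B) (hG1 : H = C b * G)
    (a : K) (k : ℕ) (Z' : Multiset (ι → K))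
    (hG2 : H = C (algebraMap K B a) * E ^ k * mw17tnEll mon (fun i => q (mon i)) *
      (Z'.map (mw17tnEll mon)).prod) :
    C (mw17jtJet q τ b) * map (q : B →+* K) G =
      C a * map (q : B →+* K) E ^ k *
        htggLin (htlWedge (fun i => q (mon i)) (fun i => mw17jtJet q τ (mon i))) *
        (Z'.map fun y => htggLin (htlWedge y (fun i => q (mon i)))).prod := by
  rw [← mw17tn_jetPoly_C_mul h hb, ← hG1, hG2]
  have e : C (algebraMap K B a) * E ^ k * mw17tnEll mon (fun i => q (mon i)) *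
      (Z'.map (mw17tnEll mon)).prod =
      mw17tnEll mon (fun i => q (mon i)) *
        (C (algebraMap K B a) * E ^ k * (Z'.map (mw17tnEll mon)).prod) := by ring
  rw [e, mw17tn_jetPoly_mul_of_zero h (mw17tn_map_ell_self q mon), mw17tn_jetPoly_ell h,
    map_mul, map_mul, map_C, map_pow, map_multiset_prod, Multiset.map_map]
  have e2 : (q : B →+* K) (algebraMap K B a) = a := by simp
  rw [e2]
  have e3 : Multiset.map ((map (q : B →+* K)) ∘ mw17tnEll mon) Z' =
      Z'.map fun y => htggLin (htlWedge y (fun i => q (mon i))) :=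
    Multiset.map_congr rfl fun y _ => mw17tn_map_ell q mon y
  rw [e3]
  ring

end Fermat.Agent.MW17
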