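import Fermat.Agent.MW17.Star.Tan
import Fermat.Agent.MW17.Spec

/-!
# Program MW (S17), heights half, §5: (★-tan) from the algebraic core `Mw17GData`

Owner: helper5.  Namespace `Fermat.Agent.MW17`, prefix `mw17tg` (final theorem: `mw17st_tan`).

`mw17st_tan D hM hloc2 hpts : Mw17StarTan T n t m₁` (helper16's `MW17/Spec.lean` literal), from
* `D : Mw17GData T n t m₁` (the algebraic core: (R-prod) + (G12) with ONE constant `c`, (G3));
* `hM : Mw17MLocF T n t m₁ D.F` ((M) for the constant of `D.prod`);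
* `hloc2` : the LOC-2 lower bound for the family `D.p` on `D.Nu`;
* `hpts` : the points separate the elements of `B` ("enough points").

Proof: lift (G12) to `B[s]` (`hpts`), take the coefficientwise first jet at `R`
(helper14's `mw17jtJetPoly`, Leibniz), then Gauss norms (Gelfond, helper6) and the pure
real-number chain `mw17ch_le / mw17ch_ge`.
-/

set_option autoImplicit false
set_option linter.unusedSectionVars false

noncomputable section

namespace Fermat.Agent.MW17

open MvPolynomial Fermat.Agent.HT Fermat.Agent.V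

section Lift

variable {K : Type*} [Field K] {δ : V27pShape} (T : V27pTable K δ) (n : ℕ)

theorem mw17tg_linForm {σ : Type*} [Fintype σ] (a : σ → K) : mw17LinForm a = htggLin a := rfl

/-- the `B`-lift of the linear form `s ↦ ⟨s, φ(·) ∧ y⟩` -/
def mw17tgEll (y : Mw17Idx δ n → K) :
    MvPolynomial (Mw17Idx δ n × Mw17Idx δ n) (V27pB T) :=
  ∑ p : Mw17Idx δ n × Mw17Idx δ n,
    C (y p.2 • mw17Mon T p.1 - y p.1 • mw17Mon T p.2) * X p

theorem mw17tg_map_ell (χ : Mw17Pt T) (y : Mw17Idx δ n → K) :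
    map (χ : V27pB T →+* K) (mw17tgEll T n y) =
      mw17LinForm (htlWedge (mw17Psi T n χ) y) := by
  unfold mw17tgEll mw17LinForm
  rw [map_sum]
  refine Finset.sum_congr rfl fun p _ => ?_
  rw [map_mul, map_C, map_X]
  congr 2
  simp only [htlWedge, mw17Psi, RingHom.coe_coe, map_sub, map_smul, smul_eq_mul]
  ring

theorem mw17tg_map_ell_self (χ : Mw17Pt T) :
    map (χ : V27pB T →+* K) (mw17tgEll T n (mw17Psi T n χ)) = 0 := by
  rw [mw17tg_map_ell, htlWedge_self]
  simp [mw17LinForm]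

theorem mw17tg_jetPoly_X {q : Mw17Pt T} {τ : V27pB T} (h : Mw17jtParam q τ)
    (p : Mw17Idx δ n × Mw17Idx δ n) :
    mw17jtJetPoly q τ (X p : MvPolynomial (Mw17Idx δ n × Mw17Idx δ n) (V27pB T)) = 0 := by
  have := mw17jt_jetPoly_map_algebraMap h (X p : MvPolynomial (Mw17Idx δ n × Mw17Idx δ n) K)
  rwa [map_X] at this

theorem mw17tg_jetPoly_ell {q : Mw17Pt T} {τ : V27pB T} (h : Mw17jtParam q τ)
    (y : Mw17Idx δ n → K) :
    mw17jtJetPoly q τ (mw17tgEll T n y) =
      mw17LinForm (htlWedge (fun i : Mw17Idx δ n => mw17jtJet q τ (mw17Mon T i)) y) := by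
  unfold mw17tgEll mw17LinForm
  rw [mw17jt_jetPoly_sum]
  refine Finset.sum_congr rfl fun p _ => ?_
  rw [mw17jt_jetPoly_mul h, mw17tg_jetPoly_X T n h, mul_zero, zero_add, map_X, mw17jt_jetPoly_C,
    mul_comm]
  congr 2
  simp only [htlWedge, map_sub, map_smul, smul_eq_mul]
  ring

/-- two polynomials over `B` that agree at every point are equal ("enough points") -/
theorem mw17tg_ext (hpts : ∀ b : V27pB T, (∀ χ : Mw17Pt T, χ b = 0) → b = 0) {σ : Type*}
    (P Q : MvPolynomial σ (V27pB T))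
    (h : ∀ χ : Mw17Pt T, map (χ : V27pB T →+* K) P = map (χ : V27pB T →+* K) Q) : P = Q := by
  refine MvPolynomial.ext _ _ fun m => ?_
  rw [← sub_eq_zero]
  refine hpts _ fun χ => ?_
  have := congrArg (coeff m) (h χ)
  rw [coeff_map, coeff_map] at this
  rw [map_sub, sub_eq_zero]
  exact this

variable {n} {t : Mw17Idx δ n} {m₁ : ℕ}

/-- the `B`-lift of `G(u; s)` -/
def mw17tgG (D : Mw17GData T n t m₁) (u : Mw17Idx δ (n * m₁) → K) :
    MvPolynomial (Mw17Idx δ n × Mw17Idx δ n) (V27pB T) :=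
  ∑ ν ∈ D.Nu, monomial ν
    (aeval (Sum.elim (fun i => algebraMap K (V27pB T) (u i)) (fun i => mw17Mon T i)) (D.p ν))

theorem mw17tg_map_G (D : Mw17GData T n t m₁) (u : Mw17Idx δ (n * m₁) → K) (χ : Mw17Pt T) :
    map (χ : V27pB T →+* K) (mw17tgG T D u) =
      ∑ ν ∈ D.Nu, monomial ν (eval (Sum.elim u (mw17Psi T n χ)) (D.p ν)) := by
  unfold mw17tgG
  rw [map_sum]
  refine Finset.sum_congr rfl fun ν _ => ?_
  rw [map_monomial]
  congr 1
  rw [RingHom.coe_coe, comp_aeval_apply, aeval_eq_eval]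
  congr 2
  funext i
  cases i with
  | inl i => simp
  | inr i => simp [mw17Psi]

end Lift

section Identity

variable {K : Type*} [Field K] {δ : V27pShape} (T : V27pTable K δ) {n : ℕ} {t : Mw17Idx δ n}
  {m₁ : ℕ}

/-- `R (sec u) = 0` from (G12) at a point of the zero multiset and (G3) -/
theorem mw17tg_zero (D : Mw17GData T n t m₁) {u : Mw17Idx δ (n * m₁) → K} (hu : u ≠ 0)
    {R : Mw17Pt T} {Z' : Multiset (Mw17Pt T)} {c : K} {k : ℕ}
    (h12 : C (R (mw17Sec T (n * m₁) u)) *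
        ∑ ν ∈ D.Nu, monomial ν (eval (Sum.elim u (mw17Psi T n R)) (D.p ν)) =
      C c * mw17LinForm (htlWedge (mw17Psi T n R) (mw17Phi T n t none)) ^ k *
        ((R ::ₘ Z').map fun q : Mw17Pt T =>
          mw17LinForm (htlWedge (mw17Psi T n R) (mw17Psi T n q))).prod) :
    R (mw17Sec T (n * m₁) u) = 0 := by
  classical
  have h0 : mw17LinForm (htlWedge (mw17Psi T n R) (mw17Psi T n R)) = 0 := by
    rw [htlWedge_self]; simp [mw17LinForm]
  rw [Multiset.map_cons, Multiset.prod_cons, h0, zero_mul, mul_zero] at h12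
  obtain ⟨ν, hν, hne⟩ := D.nonvan u hu (some R)
  rw [mw17Phi_some] at hne
  have := congrArg (coeff ν) h12
  rw [coeff_C_mul, coeff_sum, coeff_zero] at this
  simp only [coeff_monomial] at this
  rw [Finset.sum_ite_eq' D.Nu ν, if_pos hν] at this
  exact (mul_eq_zero.1 this).resolve_right hne

variable [IsDedekindDomain (V27pB T)]

/-- **the tangent identity**: the first jet at `R` of the lifted (G12) -/
theorem mw17tg_identity (D : Mw17GData T n t m₁)
    (hpts : ∀ b : V27pB T, (∀ χ : Mw17Pt T, χ b = 0) → b = 0)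
    {u : Mw17Idx δ (n * m₁) → K} (hu : u ≠ 0) {R : Mw17Pt T} {Z' : Multiset (Mw17Pt T)}
    (hZ : Mw17IsZeros T (mw17Sec T (n * m₁) u) (R ::ₘ Z')) (hR : R ∉ mw17jtRamX T) :
    ∃ c : K, c ≠ 0 ∧
      (∀ y : Mw17Idx δ n → K, eval (Sum.elim u y) D.F =
        c * y t ^ (n * m₁ - (R ::ₘ Z').card) *
          ((R ::ₘ Z').map fun q : Mw17Pt T => ∑ j, y j * mw17Psi T n q j).prod) ∧
      C (mw17jtJetT T R (mw17Sec T (n * m₁) u)) *
          ∑ ν ∈ D.Nu, monomial ν (eval (Sum.elim u (mw17Psi T n R)) (D.p ν)) =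
        C c * ((htlWedge (mw17jtPsiD T n R) (mw17Psi T n R) ::ₘ
          (Multiset.replicate (n * m₁ - (Z'.card + 1))
              (htlWedge (mw17Psi T n R) (mw17Phi T n t none)) +
            Z'.map fun q : Mw17Pt T => htlWedge (mw17Psi T n R) (mw17Psi T n q))).map
              htggLin).prod := by
  obtain ⟨c, hc, hprod, h12⟩ := D.prod u hu _ hZ
  refine ⟨c, hc, hprod, ?_⟩
  have hpar := mw17jt_param_T T hR
  have hb : R (mw17Sec T (n * m₁) u) = 0 := mw17tg_zero T D hu (h12 R)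
  have hcard : (R ::ₘ Z').card = Z'.card + 1 := Multiset.card_cons R Z'
  rw [hcard] at h12
  -- the lifted identity in `B[s]`
  have hlift : C (mw17Sec T (n * m₁) u) * mw17tgG T D u =
      C (algebraMap K (V27pB T) c) *
        mw17tgEll T n (mw17Phi T n t none) ^ (n * m₁ - (Z'.card + 1)) *
        ((R ::ₘ Z').map fun q : Mw17Pt T => mw17tgEll T n (mw17Psi T n q)).prod := by
    refine mw17tg_ext T hpts _ _ fun χ => ?_
    rw [map_mul, map_C, mw17tg_map_G, map_mul, map_mul, map_C, map_pow, mw17tg_map_ell,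
      map_multiset_prod, Multiset.map_map]
    have h := h12 χ
    have e1 : (χ : V27pB T →+* K) (algebraMap K (V27pB T) c) = c := by simp
    rw [e1]
    have e2 : Multiset.map ((map (χ : V27pB T →+* K)) ∘ fun q : Mw17Pt T =>
        mw17tgEll T n (mw17Psi T n q)) (R ::ₘ Z') =
        (R ::ₘ Z').map fun q : Mw17Pt T =>
          mw17LinForm (htlWedge (mw17Psi T n χ) (mw17Psi T n q)) :=
      Multiset.map_congr rfl fun q _ => mw17tg_map_ell T n χ _
    rw [e2]
    exact h
  have hj := congrArg (mw17jtJetPoly R (mw17jtTau (V27pB.x : V27pB T) R)) hlift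
  have e : C (algebraMap K (V27pB T) c) *
        mw17tgEll T n (mw17Phi T n t none) ^ (n * m₁ - (Z'.card + 1)) *
        ((R ::ₘ Z').map fun q : Mw17Pt T => mw17tgEll T n (mw17Psi T n q)).prod =
      mw17tgEll T n (mw17Psi T n R) *
        (C (algebraMap K (V27pB T) c) *
          mw17tgEll T n (mw17Phi T n t none) ^ (n * m₁ - (Z'.card + 1)) *
          (Z'.map fun q : Mw17Pt T => mw17tgEll T n (mw17Psi T n q)).prod) := by
    rw [Multiset.map_cons, Multiset.prod_cons]; ring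
  rw [mw17tn_jetPoly_C_mul hpar hb, mw17tg_map_G, e,
    mw17tn_jetPoly_mul_of_zero hpar (mw17tg_map_ell_self T n R), mw17tg_jetPoly_ell T n hpar,
    map_mul, map_mul, map_C, map_pow, mw17tg_map_ell, map_multiset_prod, Multiset.map_map] at hj
  have e1 : (R : V27pB T →+* K) (algebraMap K (V27pB T) c) = c := by simp
  have e2 : Multiset.map ((map (R : V27pB T →+* K)) ∘ fun q : Mw17Pt T =>
      mw17tgEll T n (mw17Psi T n q)) Z' =
      Z'.map fun q : Mw17Pt T => mw17LinForm (htlWedge (mw17Psi T n R) (mw17Psi T n q)) :=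
    Multiset.map_congr rfl fun q _ => mw17tg_map_ell T n R _
  rw [e1, e2] at hj
  have hj' : C (mw17jtJetT T R (mw17Sec T (n * m₁) u)) *
      ∑ ν ∈ D.Nu, monomial ν (eval (Sum.elim u (mw17Psi T n R)) (D.p ν)) =
      mw17LinForm (htlWedge (mw17jtPsiD T n R) (mw17Psi T n R)) *
        (C c * mw17LinForm (htlWedge (mw17Psi T n R) (mw17Phi T n t none)) ^
            (n * m₁ - (Z'.card + 1)) *
          (Z'.map fun q : Mw17Pt T =>
            mw17LinForm (htlWedge (mw17Psi T n R) (mw17Psi T n q))).prod) := hj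
  rw [hj', Multiset.map_cons, Multiset.prod_cons, Multiset.map_add, Multiset.prod_add,
    Multiset.map_replicate, Multiset.prod_replicate, Multiset.map_map]
  simp only [mw17tg_linForm, Function.comp_def]
  ring

end Identity

section Analytic

variable {K : Type*} [Field K]

theorem mw17tg_sup_wedge_comm {ι : Type*} [Finite ι] (w : AbsoluteValue K ℝ) (a b : ι → K) :
    htlSup w (htlWedge a b) = htlSup w (htlWedge b a) := by
  rw [htlWedge_swap b a, htlSup_neg]

theorem mw17tg_sup_single {ι : Type*} [Finite ι] [DecidableEq ι] (w : AbsoluteValue K ℝ)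
    (t : ι) : htlSup w (Pi.single t (1 : K)) = 1 := by
  refine le_antisymm (htlSup_le zero_le_one fun i => ?_) (htl_one_le_sup (i := t) (by simp))
  by_cases h : i = t
  · subst h; simp
  · simp [Pi.single_eq_of_ne h]

theorem mw17tg_dist_prod {ι α : Type*} [Finite ι] (w : AbsoluteValue K ℝ) (y : ι → K)
    (hy : y ≠ 0) (f : α → ι → K) (hf : ∀ q, f q ≠ 0) (Z' : Multiset α) :
    (Z'.map fun q => htlDist w (f q) y).prod *
        (htlSup w y ^ Z'.card * (Z'.map fun q => htlSup w (f q)).prod) =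
      (Z'.map fun q => htlSup w (htlWedge (f q) y)).prod := by
  induction Z' using Multiset.induction_on with
  | empty => simp
  | cons a s ih =>
    rw [Multiset.map_cons, Multiset.prod_cons, Multiset.card_cons, Multiset.map_cons,
      Multiset.prod_cons, Multiset.map_cons, Multiset.prod_cons, ← ih,
      ← htlDist_mul w (hf a) hy]
    ring

theorem mw17tg_real {J S Dn Y Cc : ℝ} (hD : 0 < Dn) (hkey : S * Dn = Y) :
    (J * Dn ≤ Cc * Y → J ≤ Cc * S) ∧ (Y ≤ Cc * (J * Dn) → S ≤ Cc * J) := by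
  constructor
  · intro h
    refine le_of_mul_le_mul_right ?_ hD
    calc J * Dn ≤ Cc * Y := h
      _ = Cc * S * Dn := by rw [← hkey]; ring
  · intro h
    refine le_of_mul_le_mul_right ?_ hD
    calc S * Dn = Y := hkey
      _ ≤ Cc * (J * Dn) := h
      _ = Cc * J * Dn := by ring

end Analytic

section Main

variable {K : Type*} [Field K] {δ : V27pShape} (T : V27pTable K δ) {n : ℕ} {t : Mw17Idx δ n}
  {m₁ : ℕ} [IsDedekindDomain (V27pB T)]

/-- three constants into one -/
theorem mw17tg_val_mul3 (C₁ C₂ C₃ : HtConst K) (w : AbsoluteValue K ℝ) :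
    C₁.val w * C₂.val w * C₃.val w * 1 ≤ (C₁.mul (C₂.mul C₃)).val w := by
  have h23 := htl_val_mul_le C₂ C₃ w
  have h123 := htl_val_mul_le C₁ (C₂.mul C₃) w
  have p1 := htl_val_nonneg C₁ w
  calc C₁.val w * C₂.val w * C₃.val w * 1 = C₁.val w * (C₂.val w * C₃.val w) := by ring
    _ ≤ C₁.val w * (C₂.mul C₃).val w := by gcongr
    _ ≤ _ := h123

/-- **(★-tan)** in helper16's `Spec` literal, from the algebraic core `Mw17GData`, (M) and LOC-2. -/
theorem mw17st_tan (D : Mw17GData T n t m₁) (hM : Mw17MLocF T n t m₁ D.F)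
    (hloc2 : ∃ C : HtConst K, ∀ (w : HtAbs K) (u : Mw17Idx δ (n * m₁) → K) (q : Mw17Pt T),
      u ≠ 0 → htlSup w.1 u ^ (n - 1) * htlSup w.1 (mw17Psi T n q) ^ (n * m₁ - m₁) ≤
        C.val w.1 * ⨆ ν : D.Nu, w.1 (eval (Sum.elim u (mw17Psi T n q)) (D.p ν)))
    (hpts : ∀ b : V27pB T, (∀ χ : Mw17Pt T, χ b = 0) → b = 0) :
    Mw17StarTan T n t m₁ := by
  classical
  obtain ⟨CM, hCM⟩ := hM
  obtain ⟨CL, hCL⟩ := hloc2
  obtain ⟨Cg, hCg⟩ := mw17tn_gelfond (Mw17Idx δ n × Mw17Idx δ n) K (n * m₁ + 1)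
  obtain ⟨CU, hCU⟩ := htl_val_finset D.Nu (fun ν => htlPolyConst (D.p ν))
  refine ⟨(Cg.mul (CL.mul CM)).mul (Cg.mul (CU.mul CM)), fun w u hu R Z' hZ hR => ?_⟩
  obtain ⟨c, hc, hprod, hid⟩ := mw17tg_identity T D hpts hu hZ hR
  have hcard : Z'.card + 1 = v27pOrd (mw17Sec T (n * m₁) u) := by
    rw [← hZ.1, Multiset.card_cons]
  have hle : Z'.card + 1 ≤ n * m₁ := by
    rw [hcard]; exact mw17tn_ord_sec_le T (n * m₁) u
  have hn : 1 ≤ n := by
    rcases Nat.eq_zero_or_pos n with h | h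
    · subst h; simp at hle
    · exact h
  have hm₁ : m₁ ≤ n * m₁ := Nat.le_mul_of_pos_left m₁ hn
  have hφ : mw17Psi T n R ≠ 0 := mw17Psi_ne_zero T n R
  have hFpos : 0 < htlSup w.1 (mw17Psi T n R) := htlSup_pos_iff.2 hφ
  have hUpos : 0 < htlSup w.1 u := htlSup_pos_iff.2 hu
  have he : mw17Phi T n t none ≠ 0 := mw17Phi_ne_zero T n t none
  have he1 : htlSup w.1 (mw17Phi T n t none) = 1 := by
    rw [mw17Phi_none]; exact mw17tg_sup_single w.1 t
  -- the Gauss norm of `G(u; s)(φR)`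
  have hGn : htggSup w.1 (∑ ν ∈ D.Nu,
      monomial ν (eval (Sum.elim u (mw17Psi T n R)) (D.p ν))) =
      ⨆ ν : D.Nu, w.1 (eval (Sum.elim u (mw17Psi T n R)) (D.p ν)) := by
    rw [← Finset.sum_coe_sort D.Nu]
    exact htggSup_sum_monomial w.1 (fun ν : D.Nu => (ν : Mw17Idx δ n × Mw17Idx δ n →₀ ℕ))
      Subtype.val_injective _
  -- (M)
  have hMw := hCM u hu (R ::ₘ Z') c (by rw [Multiset.card_cons]; exact hle) hc hprod w
  rw [Multiset.map_cons, Multiset.prod_cons] at hMw
  -- Gelfond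
  have hVcard : (htlWedge (mw17jtPsiD T n R) (mw17Psi T n R) ::ₘ
      (Multiset.replicate (n * m₁ - (Z'.card + 1))
          (htlWedge (mw17Psi T n R) (mw17Phi T n t none)) +
        Z'.map fun q : Mw17Pt T => htlWedge (mw17Psi T n R) (mw17Psi T n q))).card ≤
      n * m₁ + 1 := by
    rw [Multiset.card_cons, Multiset.card_add, Multiset.card_replicate, Multiset.card_map]
    omega
  have hG := hCg w _ c _ _ hVcard hid
  have hX : ((htlWedge (mw17jtPsiD T n R) (mw17Psi T n R) ::ₘ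
      (Multiset.replicate (n * m₁ - (Z'.card + 1))
          (htlWedge (mw17Psi T n R) (mw17Phi T n t none)) +
        Z'.map fun q : Mw17Pt T => htlWedge (mw17Psi T n R) (mw17Psi T n q))).map
          (htlSup w.1)).prod =
      htlSup w.1 (htlWedge (mw17Psi T n R) (mw17jtPsiD T n R)) *
        (htlSup w.1 (htlWedge (mw17Phi T n t none) (mw17Psi T n R)) ^
            (n * m₁ - (Z'.card + 1)) *
          (Z'.map fun q : Mw17Pt T =>
            htlSup w.1 (htlWedge (mw17Psi T n q) (mw17Psi T n R))).prod) := by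
    rw [Multiset.map_cons, Multiset.prod_cons, Multiset.map_add, Multiset.prod_add,
      Multiset.map_replicate, Multiset.prod_replicate, Multiset.map_map,
      mw17tg_sup_wedge_comm w.1 (mw17jtPsiD T n R),
      mw17tg_sup_wedge_comm w.1 (mw17Psi T n R) (mw17Phi T n t none)]
    congr 3
    refine Multiset.map_congr rfl fun q _ => ?_
    exact mw17tg_sup_wedge_comm w.1 _ _
  rw [hX] at hG
  -- the upper bound for the Gauss norm
  have hGU : htggSup w.1 (∑ ν ∈ D.Nu,
      monomial ν (eval (Sum.elim u (mw17Psi T n R)) (D.p ν))) ≤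
      CU.val w.1 * (htlSup w.1 u ^ (n - 1) * htlSup w.1 (mw17Psi T n R) ^ (n * m₁ - m₁)) := by
    rw [hGn]
    refine Real.iSup_le (fun ν => ?_) (mul_nonneg (htl_val_nonneg _ _)
      (mul_nonneg (pow_nonneg (htlSup_nonneg _ _) _) (pow_nonneg (htlSup_nonneg _ _) _)))
    exact (htl_eval_le_bi (D.hp ν ν.2) w.1 u (mw17Psi T n R)).trans
      (mul_le_mul_of_nonneg_right (hCU ν ν.2 w.1)
        (mul_nonneg (pow_nonneg (htlSup_nonneg _ _) _) (pow_nonneg (htlSup_nonneg _ _) _)))
  have hGL := hCL w u R hu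
  rw [← hGn] at hGL
  -- the key identity between the right-hand side of `Spec` and the cleared form
  have hexp : n * m₁ + 1 = 2 + (n * m₁ - (Z'.card + 1)) + Z'.card := by omega
  have hPi'pos : 0 < (Z'.map fun P : Mw17Pt T => htlSup w.1 (mw17Psi T n P)).prod :=
    Multiset.prod_pos fun x hx => by
      obtain ⟨q, _, rfl⟩ := Multiset.mem_map.1 hx
      exact htlSup_pos_iff.2 (mw17Psi_ne_zero T n q)
  have hDn : 0 < htlSup w.1 (mw17Psi T n R) ^ (n * m₁) *
      (htlSup w.1 (mw17Psi T n R) *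
        (Z'.map fun P : Mw17Pt T => htlSup w.1 (mw17Psi T n P)).prod) :=
    mul_pos (pow_pos hFpos _) (mul_pos hFpos hPi'pos)
  have hTw : mw17Tw T n w.1 R * htlSup w.1 (mw17Psi T n R) ^ 2 =
      htlSup w.1 (htlWedge (mw17Psi T n R) (mw17jtPsiD T n R)) := by
    unfold mw17Tw
    exact div_mul_cancel₀ _ (pow_pos hFpos 2).ne'
  have hd0 : mw17Dl T n t w.1 none (some R) * htlSup w.1 (mw17Psi T n R) =
      htlSup w.1 (htlWedge (mw17Phi T n t none) (mw17Psi T n R)) := by
    have := htlDist_mul w.1 he hφ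
    rw [he1, one_mul] at this
    exact this
  have hdP := mw17tg_dist_prod w.1 (mw17Psi T n R) hφ (fun q : Mw17Pt T => mw17Psi T n q)
    (fun q => mw17Psi_ne_zero T n q) Z'
  have hkey : mw17Tw T n w.1 R *
        (htlSup w.1 u * htlSup w.1 (mw17Psi T n R) ^ m₁ *
          mw17Dl T n t w.1 none (some R) ^ (n * m₁ - (Z'.card + 1)) *
          (Z'.map fun P : Mw17Pt T => mw17Dl T n t w.1 (some P) (some R)).prod) *
      (htlSup w.1 (mw17Psi T n R) ^ (n * m₁) *
        (htlSup w.1 (mw17Psi T n R) *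
          (Z'.map fun P : Mw17Pt T => htlSup w.1 (mw17Psi T n P)).prod)) =
      htlSup w.1 u * htlSup w.1 (mw17Psi T n R) ^ m₁ *
        (htlSup w.1 (htlWedge (mw17Psi T n R) (mw17jtPsiD T n R)) *
          (htlSup w.1 (htlWedge (mw17Phi T n t none) (mw17Psi T n R)) ^
              (n * m₁ - (Z'.card + 1)) *
            (Z'.map fun q : Mw17Pt T =>
              htlSup w.1 (htlWedge (mw17Psi T n q) (mw17Psi T n R))).prod)) := by
    have e1 : htlSup w.1 (mw17Psi T n R) ^ (n * m₁) * (htlSup w.1 (mw17Psi T n R) *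
        (Z'.map fun P : Mw17Pt T => htlSup w.1 (mw17Psi T n P)).prod) =
        htlSup w.1 (mw17Psi T n R) ^ 2 *
          htlSup w.1 (mw17Psi T n R) ^ (n * m₁ - (Z'.card + 1)) *
          (htlSup w.1 (mw17Psi T n R) ^ Z'.card *
            (Z'.map fun P : Mw17Pt T => htlSup w.1 (mw17Psi T n P)).prod) := by
      rw [← mul_assoc, ← pow_succ, hexp, pow_add, pow_add]
      ring
    rw [e1, ← hTw, ← hd0, ← hdP, mul_pow]
    simp only [mw17Dl, mw17Phi_some]
    ring
  have hreal := mw17tg_real (J := w.1 (mw17jtJetT T R (mw17Sec T (n * m₁) u)))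
    (Cc := ((Cg.mul (CL.mul CM)).mul (Cg.mul (CU.mul CM))).val w.1) hDn hkey
  have hN2 : 0 ≤ htlSup w.1 (mw17Psi T n R) ^ m₁ := pow_nonneg hFpos.le _
  have hPi : 0 ≤ htlSup w.1 (mw17Psi T n R) *
      (Z'.map fun P : Mw17Pt T => htlSup w.1 (mw17Psi T n P)).prod :=
    (mul_pos hFpos hPi'pos).le
  have hXnn : 0 ≤ htlSup w.1 (htlWedge (mw17Psi T n R) (mw17jtPsiD T n R)) *
        (htlSup w.1 (htlWedge (mw17Phi T n t none) (mw17Psi T n R)) ^
            (n * m₁ - (Z'.card + 1)) *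
          (Z'.map fun q : Mw17Pt T =>
            htlSup w.1 (htlWedge (mw17Psi T n q) (mw17Psi T n R))).prod) := by
    refine mul_nonneg (htlSup_nonneg _ _) (mul_nonneg (pow_nonneg (htlSup_nonneg _ _) _) ?_)
    refine Multiset.prod_nonneg fun x hx => ?_
    obtain ⟨q, _, rfl⟩ := Multiset.mem_map.1 hx
    exact htlSup_nonneg _ _
  have h4 : htlSup w.1 (mw17Psi T n R) ^ (n * m₁) =
      htlSup w.1 (mw17Psi T n R) ^ (n * m₁ - m₁) * htlSup w.1 (mw17Psi T n R) ^ m₁ := by
    rw [← pow_add, Nat.sub_add_cancel hm₁]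
  constructor
  · refine hreal.1 ?_
    have h := mw17ch_le (n := n) (Fm := htlSup w.1 (mw17Psi T n R) ^ (n * m₁)) hn
      (w.1.nonneg _) hXnn hUpos hN2 hPi
      (htl_val_nonneg Cg w.1) (htl_val_nonneg CL w.1) zero_le_one hG.1 hGL hMw.2
      (by rw [one_mul]; exact h4.le)
    refine h.trans (mul_le_mul_of_nonneg_right ?_
      (mul_nonneg (mul_nonneg hUpos.le hN2) hXnn))
    exact (mw17tg_val_mul3 Cg CL CM w.1).trans (htl_val_le_mul_left _ _ w.1)
  · refine hreal.2 ?_
    have h := mw17ch_ge (n := n) (Fm := htlSup w.1 (mw17Psi T n R) ^ (n * m₁)) hn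
      (w.1.nonneg _) hXnn hUpos hN2 hPi
      (htl_val_nonneg Cg w.1) (htl_val_nonneg CU w.1) (htl_val_nonneg CM w.1) hG.2 hGU hMw.1
      (by rw [one_mul]; exact h4.ge)
    refine h.trans (mul_le_mul_of_nonneg_right ?_
      (mul_nonneg (w.1.nonneg _) hDn.le))
    exact (mw17tg_val_mul3 Cg CU CM w.1).trans (htl_val_le_mul_right _ _ w.1)

end Main

end Fermat.Agent.MW17
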