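import Fermat.Agent.MW17.Star.TanG
import Fermat.Agent.MW17.Loc2Spec
import Fermat.Agent.MW17.Inst

/-!
# Program MW (S17), heights half, §5: (★-tan), instance without side hypotheses

Owner: helper5.  Namespace `Fermat.Agent.MW17`.

`mw17st_tan_inst` : `Mw17StarTan T n t m₁` from the algebraic core `D : Mw17GData T n t m₁` and
(M) alone: the LOC-2 lower bound is helper26's `mw17ls_ge_sup` (on helper19's `mw17cn_loc2_bi`),
"enough points" is helper4's `mw17in_enough_points`.
-/

set_option autoImplicit false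

noncomputable section

namespace Fermat.Agent.MW17

open Fermat.Agent.HT Fermat.Agent.V

variable {K : Type*} [Field K] [IsAlgClosed K] {δ : V27pShape} (T : V27pTable K δ)
  [IsDedekindDomain (V27pB T)] {n : ℕ} {m₁ : ℕ}

/-- **(★-tan)**, hypothesis-free in the analytic inputs. -/
theorem mw17st_tan_inst (hn : δ.N + 2 * δ.bound ≤ n) (t : Mw17Idx δ n) (ht : mw17Wt t = n)
    (D : Mw17GData T n t m₁) (hM : Mw17MLocF T n t m₁ D.F) : Mw17StarTan T n t m₁ := by
  refine mw17st_tan T D hM ?_ (mw17in_enough_points T)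
  obtain ⟨C, hC⟩ := mw17ls_ge_sup T hn t ht D.Nu D.p D.hp D.nonvan
  exact ⟨C, fun w u q hu => hC w.1 u q hu⟩

end Fermat.Agent.MW17
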